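import Fermat.Agent.RR.Duality

/-!
# Riemann–Roch, final form (C-RR, FIN)

From Serre duality `i(D) = l(W - D)` and the Euler characteristic formula
`l(D) - i(D) = deg D + 1 - g` (`g = genusFF K F`):

* `riemann_roch`: `l(D) - l(W - D) = deg D + 1 - g`;
* `finrank_L_canonical`: `l(W) = g`;
* `degree_canonical`: `deg W = 2g - 2`;
* `genus_eq_genusFF`: the Prelude genus (defined through the degree of a canonical divisor) is `g`;
* `finrank_L_canonical_eq_genus`: `l(W) = AlgebraicCurve.genus K F`.
-/

set_option autoImplicit false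
set_option linter.unusedSectionVars false

open AlgebraicCurve KaehlerDifferential

namespace Fermat.Agent.RR.Final

open Fermat.Agent.RR.LSpace Fermat.Agent.RR.Duality

variable {K F : Type*} [Field K] [Field F] [Algebra K F]

/-- All the inputs of the Riemann–Roch theorem, bundled. -/
structure RRData (K F : Type*) [Field K] [Field F] [Algebra K F] where
  HL : LHyp K F
  HD : DiffHyp K F
  R : ResidueData K F
  hrep : RepFinite K F
  hS : SerreLemma K F
  hfin : ∀ D : Divisor K F, Module.Finite K (H1 D)
  heuler : ∀ D : Divisor K F,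
    (Module.finrank K (riemannRochSpace D) : ℤ) - Module.finrank K (H1 D) =
      Divisor.degree D + 1 - genusFF K F

variable (X : RRData K F) {ω₀ : Ω[F⁄K]} (hω₀ : ω₀ ≠ 0) {W : Divisor K F}
  (hW : ∀ v, W v = v.ordDifferential ω₀)

include X hω₀ hW

/-- **Riemann–Roch.** -/
theorem riemann_roch (D : Divisor K F) :
    (Module.finrank K (riemannRochSpace D) : ℤ) - Module.finrank K (riemannRochSpace (W - D)) =
      Divisor.degree D + 1 - genusFF K F := by
  rw [← finrank_H1_eq X.HL X.HD X.R X.hrep X.hS X.hfin hω₀ hW D]
  exact X.heuler D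

theorem finrank_L_canonical : Module.finrank K (riemannRochSpace W) = genusFF K F := by
  have h := riemann_roch X hω₀ hW 0
  rw [sub_zero, finrank_L_zero X.HL, map_zero] at h
  push_cast at h
  have : (Module.finrank K (riemannRochSpace W) : ℤ) = genusFF K F := by linarith
  exact_mod_cast this

theorem degree_canonical : Divisor.degree W = 2 * (genusFF K F : ℤ) - 2 := by
  have h := riemann_roch X hω₀ hW W
  rw [sub_self, finrank_L_zero X.HL, finrank_L_canonical X hω₀ hW] at h
  push_cast at h
  linarith

omit hω₀ hW in
theorem genus_eq_genusFF [HasCanonicalDivisor (K := K) (F := F)]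
    (hex : ∃ ω : Ω[F⁄K], ω ≠ 0) : genus K F = genusFF K F := by
  rw [genus, dif_pos hex]
  have h := degree_canonical X hex.choose_spec
    (W := canonicalDivisorOf hex.choose_spec) (fun v => canonicalDivisorOf_apply hex.choose_spec v)
  rw [h]
  have : 2 * (genusFF K F : ℤ) - 2 + 2 = ((2 * genusFF K F : ℕ) : ℤ) := by push_cast; ring
  rw [this, Int.toNat_natCast, Nat.mul_div_cancel_left _ two_pos]

/-- The space of regular differentials `{h • ω₀ | h ∈ L(W)}` has dimension the Prelude genus. -/
theorem finrank_L_canonical_eq_genus [HasCanonicalDivisor (K := K) (F := F)] :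
    Module.finrank K (riemannRochSpace W) = genus K F := by
  rw [finrank_L_canonical X hω₀ hW, genus_eq_genusFF X ⟨ω₀, hω₀⟩]

end Fermat.Agent.RR.Final
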