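/-
C-RR (helper28): relative dimension `dim (A + B) / A` of two subspaces, as a cardinal.

`relrank A B := Module.rank K ↥(B.map A.mkQ)`.
* `relrank_add` : `A ≤ A'' ≤ A'` ⇒ `relrank A A'' + relrank A'' A' = relrank A A'`.
* `relrank_eq_inf_add_sup` : `A ≤ A'` ⇒
    `relrank A A' = relrank (A ⊓ P) (A' ⊓ P) + relrank (A ⊔ P) (A' ⊔ P)`.
-/
import Mathlib

set_option autoImplicit false

namespace Fermat.Agent.RR.RelRank

open Submodule

universe u v

variable {K : Type u} {M : Type v} [Field K] [AddCommGroup M] [Module K M]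

/-- The dimension of `(A + B) / A`. -/
noncomputable def relrank (A B : Submodule K M) : Cardinal.{v} :=
  Module.rank K ↥(B.map A.mkQ)

/-- Rank-nullity for a pair of nested subspaces. -/
theorem rank_eq_add_of_le {V : Type v} [AddCommGroup V] [Module K V] {S T : Submodule K V}
    (h : S ≤ T) : Module.rank K ↥T = Module.rank K ↥S + Module.rank K ↥(T.map S.mkQ) := by
  let g : ↥T →ₗ[K] V ⧸ S := S.mkQ.comp T.subtype
  have hrange : LinearMap.range g = T.map S.mkQ := by
    rw [LinearMap.range_comp, Submodule.range_subtype]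
  have hker : LinearMap.ker g = S.comap T.subtype := by
    rw [LinearMap.ker_comp, Submodule.ker_mkQ]
  have h1 := LinearMap.rank_range_add_rank_ker g
  rw [hrange, hker] at h1
  have h2 : Module.rank K ↥(S.comap T.subtype) = Module.rank K ↥S :=
    (Submodule.comapSubtypeEquivOfLe h).rank_eq
  rw [h2] at h1
  rw [← h1, add_comm]

theorem relrank_self_sup (A B : Submodule K M) : relrank A (A ⊔ B) = relrank A B := by
  unfold relrank
  rw [Submodule.map_sup, Submodule.mkQ_map_self, bot_sup_eq]

theorem relrank_eq_zero_of_le {A B : Submodule K M} (h : B ≤ A) : relrank A B = 0 := by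
  unfold relrank
  have : B.map A.mkQ = ⊥ := by
    rw [eq_bot_iff, ← Submodule.mkQ_map_self A]
    exact Submodule.map_mono h
  rw [this]
  simp

/-- Additivity of the relative dimension along a chain `A ≤ A'' ≤ A'`. -/
theorem relrank_add {A A'' A' : Submodule K M} (h₁ : A ≤ A'') (h₂ : A'' ≤ A') :
    relrank A A'' + relrank A'' A' = relrank A A' := by
  unfold relrank
  have hST : A''.map A.mkQ ≤ A'.map A.mkQ := Submodule.map_mono h₂
  rw [rank_eq_add_of_le hST]
  congr 1
  let e := Submodule.quotientQuotientEquivQuotient A A'' h₁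
  have hmap : ((A'.map A.mkQ).map (A''.map A.mkQ).mkQ).map (e : _ →ₗ[K] _) = A'.map A''.mkQ := by
    rw [← Submodule.map_comp, ← Submodule.map_comp]
    congr 1
  rw [← hmap]
  exact (e.submoduleMap ((A'.map A.mkQ).map (A''.map A.mkQ).mkQ)).rank_eq.symm

/-- `relrank A B` is the dimension of `B / (A ∩ B)`. -/
theorem relrank_eq_rank_quotient (A B : Submodule K M) :
    relrank A B = Module.rank K (↥B ⧸ A.comap B.subtype) := by
  unfold relrank
  let g : ↥B →ₗ[K] M ⧸ A := A.mkQ.comp B.subtype
  have hrange : LinearMap.range g = B.map A.mkQ := by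
    rw [LinearMap.range_comp, Submodule.range_subtype]
  have hker : LinearMap.ker g = A.comap B.subtype := by
    rw [LinearMap.ker_comp, Submodule.ker_mkQ]
  rw [← hrange, ← hker]
  exact g.quotKerEquivRange.rank_eq.symm

/-- Second isomorphism theorem. -/
theorem relrank_inf_right (A B : Submodule K M) : relrank (A ⊓ B) B = relrank A B := by
  rw [relrank_eq_rank_quotient, relrank_eq_rank_quotient]
  have : (A ⊓ B).comap B.subtype = A.comap B.subtype := by
    rw [Submodule.comap_inf, Submodule.comap_subtype_self, inf_top_eq]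
  rw [this]

theorem relrank_sup_right (A B : Submodule K M) : relrank A (B ⊔ A) = relrank A B := by
  rw [sup_comm, relrank_self_sup]

/-- For `A ≤ A'` and any `P`:
`dim A'/A = dim (A' ∩ P)/(A ∩ P) + dim (A' + P)/(A + P)`. -/
theorem relrank_eq_inf_add_sup {A A' : Submodule K M} (h : A ≤ A') (P : Submodule K M) :
    relrank A A' = relrank (A ⊓ P) (A' ⊓ P) + relrank (A ⊔ P) (A' ⊔ P) := by
  have h₁ : A ≤ A ⊔ A' ⊓ P := le_sup_left
  have h₂ : A ⊔ A' ⊓ P ≤ A' := sup_le h inf_le_left
  rw [← relrank_add h₁ h₂]
  congr 1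
  · -- `dim (A + A' ∩ P) / A = dim (A' ∩ P) / (A ∩ P)`
    rw [relrank_self_sup, ← relrank_inf_right A (A' ⊓ P)]
    congr 1
    rw [← inf_assoc, inf_eq_left.mpr h]
  · -- `dim A' / (A + A' ∩ P) = dim (A' + P) / (A + P)`
    have e1 : relrank (A ⊔ P) (A' ⊔ P) = relrank (A ⊔ P) A' := by
      have : A' ⊔ P = (A ⊔ P) ⊔ A' := by
        rw [sup_comm (A ⊔ P) A', ← sup_assoc, sup_eq_left.mpr h]
      rw [this, relrank_self_sup]
    rw [e1, ← relrank_inf_right (A ⊔ P) A']
    congr 1
    -- modular law
    rw [sup_inf_assoc_of_le P h, inf_comm P A']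

/-- The relative dimension is invariant under injective linear maps. -/
theorem relrank_map_of_injective {N : Type v} [AddCommGroup N] [Module K N] (f : M →ₗ[K] N)
    (hf : Function.Injective f) (A B : Submodule K M) :
    relrank (A.map f) (B.map f) = relrank A B := by
  unfold relrank
  let g : M ⧸ A →ₗ[K] N ⧸ A.map f := Submodule.mapQ A (A.map f) f (Submodule.le_comap_map f A)
  have hg : Function.Injective g := by
    rw [← LinearMap.ker_eq_bot, Submodule.ker_mapQ, Submodule.comap_map_eq_of_injective hf,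
      Submodule.mkQ_map_self]
  have hmap : (B.map f).map (A.map f).mkQ = (B.map A.mkQ).map g := by
    rw [← Submodule.map_comp, ← Submodule.map_comp]
    congr 1
  rw [hmap]
  exact (Submodule.equivMapOfInjective g hg (B.map A.mkQ)).rank_eq.symm

/-- If the relative dimension is a natural number `n`, the corresponding subquotient is
finite-dimensional of `finrank` equal to `n`. -/
theorem finrank_of_relrank_eq {A B : Submodule K M} {n : ℕ} (h : relrank A B = n) :
    Module.Finite K ↥(B.map A.mkQ) ∧ Module.finrank K ↥(B.map A.mkQ) = n :=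
  ⟨Module.finite_of_rank_eq_nat h, Module.finrank_eq_of_rank_eq h⟩

end Fermat.Agent.RR.RelRank
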