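/-
Program C-RR (helper13): Riemann–Roch spaces `L(D)` of a function field in one variable, in the
Prelude API (`AlgebraicCurve.Place`, `Divisor`, `riemannRochSpace`).

Hypotheses (`LHyp K F`, all consequences of FF1 for `K` algebraically closed):
* `residue`    : the residue field of every place is `K`;
* `deg_eq_one` : every place has degree one;
* `principal`  : principal divisors exist and have degree zero (`HasPrincipalDivisors`);
* `nonempty`   : there is at least one place.

Results: `L(D) = 0` for `deg D < 0`; `L(0) = K`; `dim L(D + v) ≤ dim L(D) + 1`;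
`L(D)` is finite-dimensional and `dim L(D) ≤ deg D + 1` if `0 ≤ deg D`; `L(D) ≃ L(D + div f)`.
-/
import Mathlib
import Fermat.Prelude.Def_AlgebraicCurve_Repartitions
import Fermat.Agent.X0.FFResidue

set_option autoImplicit false

open AlgebraicCurve

namespace Fermat.Agent.RR.LSpace

open Fermat.Agent.X0.FF

variable {K F : Type*} [Field K] [Field F] [Algebra K F]

/-- The hypotheses on the function field `F / K` used for the theory of the spaces `L(D)`. -/
structure LHyp (K F : Type*) [Field K] [Field F] [Algebra K F] : Prop where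
  residue : ∀ (v : Place K F) (f : F), f ∈ v.toValuationSubring →
    ∃ c : K, f = algebraMap K F c ∨ 0 < v.ord (f - algebraMap K F c)
  deg_eq_one : ∀ v : Place K F, v.deg = 1
  principal : ∀ f : F, f ≠ 0 → ∃ D : Divisor K F,
    (∀ v : Place K F, D v = v.ord f) ∧ Divisor.degree D = 0
  nonempty : Nonempty (Place K F)

/-! ### Degrees -/

theorem degree_eq_sum (H : LHyp K F) (D : Divisor K F) :
    Divisor.degree D = ∑ v ∈ D.support, D v := by
  rw [Divisor.degree, Finsupp.liftAddHom_apply, Finsupp.sum]
  refine Finset.sum_congr rfl fun v _ => ?_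
  simp [H.deg_eq_one v]

theorem degree_single (H : LHyp K F) (v : Place K F) (n : ℤ) :
    Divisor.degree (Finsupp.single v n) = n := by
  rw [Divisor.degree_single, H.deg_eq_one v]; simp

theorem degree_nonneg (H : LHyp K F) {D : Divisor K F} (hD : 0 ≤ D) : 0 ≤ Divisor.degree D := by
  rw [degree_eq_sum H]
  exact Finset.sum_nonneg fun v _ => by simpa using hD v

/-- An effective divisor of degree zero is zero. -/
theorem eq_zero_of_degree_eq_zero (H : LHyp K F) {D : Divisor K F} (hD : 0 ≤ D)
    (hdeg : Divisor.degree D = 0) : D = 0 := by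
  rw [degree_eq_sum H] at hdeg
  have h0 : ∀ v ∈ D.support, D v = 0 :=
    (Finset.sum_eq_zero_iff_of_nonneg fun v _ => by simpa using hD v).mp hdeg
  ext v
  by_cases hv : v ∈ D.support
  · simpa using h0 v hv
  · simpa [Finsupp.mem_support_iff] using hv

/-- The divisor of a nonzero function. -/
noncomputable def divOf (H : LHyp K F) {f : F} (hf : f ≠ 0) : Divisor K F :=
  (H.principal f hf).choose

theorem divOf_apply (H : LHyp K F) {f : F} (hf : f ≠ 0) (v : Place K F) :
    divOf H hf v = v.ord f := (H.principal f hf).choose_spec.1 v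

theorem degree_divOf (H : LHyp K F) {f : F} (hf : f ≠ 0) : Divisor.degree (divOf H hf) = 0 :=
  (H.principal f hf).choose_spec.2

/-! ### Membership in `L(D)` -/

theorem mem_L_iff {D : Divisor K F} {f : F} (hf : f ≠ 0) :
    f ∈ riemannRochSpace D ↔ ∀ v : Place K F, -D v ≤ v.ord f := by
  rw [mem_riemannRochSpace_iff]
  exact forall_congr' fun v => or_iff_right hf

theorem L_mono {D D' : Divisor K F} (h : D ≤ D') : riemannRochSpace D ≤ riemannRochSpace D' := by
  intro f hf
  rw [mem_riemannRochSpace_iff] at hf ⊢
  intro v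
  rcases hf v with h0 | h1
  · exact Or.inl h0
  · right
    have := h v
    omega

/-- `L(D) = 0` if `deg D < 0`. -/
theorem L_eq_bot_of_degree_neg (H : LHyp K F) {D : Divisor K F} (hD : Divisor.degree D < 0) :
    riemannRochSpace D = ⊥ := by
  rw [eq_bot_iff]
  intro f hf
  rw [Submodule.mem_bot]
  by_contra hf0
  have h1 := (mem_L_iff hf0).mp hf
  have h2 : 0 ≤ D + divOf H hf0 := by
    intro v
    rw [Finsupp.add_apply, divOf_apply]
    have := h1 v
    simp only [Finsupp.coe_zero, Pi.zero_apply]
    omega
  have h3 := degree_nonneg H h2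
  rw [map_add, degree_divOf, add_zero] at h3
  omega

/-- A function without poles is constant. -/
theorem eq_algebraMap_of_forall_ord_nonneg (H : LHyp K F) {f : F}
    (hf : ∀ v : Place K F, 0 ≤ v.ord f) : ∃ c : K, f = algebraMap K F c := by
  obtain ⟨v₀⟩ := H.nonempty
  obtain ⟨c, hc | hc⟩ := H.residue v₀ f (ffp_mem_of_ord_nonneg v₀ (hf v₀))
  · exact ⟨c, hc⟩
  · refine ⟨c, ?_⟩
    by_contra hne
    have hg0 : f - algebraMap K F c ≠ 0 := sub_ne_zero.mpr hne
    have hpos : 0 ≤ divOf H hg0 := by
      intro v
      rw [divOf_apply]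
      simp only [Finsupp.coe_zero, Pi.zero_apply]
      by_cases hf0 : f = 0
      · rw [hf0, zero_sub, ffp_ord_neg, ffp_ord_algebraMap]
      have h2 : (0 : ℤ) ≤ v.ord (-(algebraMap K F c)) := by
        rw [ffp_ord_neg, ffp_ord_algebraMap]
      have := ffp_le_ord_add v (hf v) h2 (by rwa [← sub_eq_add_neg])
      rwa [← sub_eq_add_neg] at this
    have := eq_zero_of_degree_eq_zero H hpos (degree_divOf H hg0)
    have h3 := congrArg (fun D : Divisor K F => D v₀) this
    simp only [divOf_apply, Finsupp.coe_zero, Pi.zero_apply] at h3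
    omega

/-- `L(0) = K`. -/
theorem L_zero (H : LHyp K F) :
    riemannRochSpace (0 : Divisor K F) = Submodule.span K {(1 : F)} := by
  apply le_antisymm
  · intro f hf
    by_cases hf0 : f = 0
    · rw [hf0]; exact Submodule.zero_mem _
    have h1 := (mem_L_iff hf0).mp hf
    obtain ⟨c, rfl⟩ := eq_algebraMap_of_forall_ord_nonneg H (f := f) (fun v => by
      have := h1 v
      simpa using this)
    rw [Submodule.mem_span_singleton]
    exact ⟨c, by rw [Algebra.smul_def, mul_one]⟩
  · rw [Submodule.span_singleton_le_iff_mem, mem_riemannRochSpace_iff]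
    intro v
    right
    simp

theorem finrank_L_zero (H : LHyp K F) :
    Module.finrank K (riemannRochSpace (0 : Divisor K F)) = 1 := by
  rw [L_zero H]
  exact finrank_span_singleton one_ne_zero

/-! ### Adding one place -/

/-- Modulo `L(D)`, the space `L(D + v)` is spanned by any element outside `L(D)`. -/
theorem exists_sub_smul_mem (H : LHyp K F) (D : Divisor K F) (v : Place K F) {f g : F}
    (hf : f ∈ riemannRochSpace (D + Finsupp.single v 1))
    (hg : g ∈ riemannRochSpace (D + Finsupp.single v 1)) (hg' : g ∉ riemannRochSpace D) :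
    ∃ c : K, f - c • g ∈ riemannRochSpace D := by
  classical
  have hg0 : g ≠ 0 := by
    rintro rfl
    exact hg' (Submodule.zero_mem _)
  have hg1 := (mem_L_iff hg0).mp hg
  -- the order of `g` at `v` is exactly `-(D v + 1)`
  have hgv : v.ord g = -(D v + 1) := by
    have h1 := hg1 v
    rw [Finsupp.add_apply, Finsupp.single_eq_same] at h1
    by_contra hne
    apply hg'
    rw [mem_L_iff hg0]
    intro w
    by_cases hw : w = v
    · rw [hw]; omega
    · have := hg1 w
      rw [Finsupp.add_apply, Finsupp.single_eq_of_ne hw, add_zero] at this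
      exact this
  by_cases hf0 : f = 0
  · exact ⟨0, by rw [hf0, zero_smul, sub_zero]; exact Submodule.zero_mem _⟩
  have hf1 := (mem_L_iff hf0).mp hf
  have hfv : -(D v + 1) ≤ v.ord f := by
    have h1 := hf1 v
    rwa [Finsupp.add_apply, Finsupp.single_eq_same] at h1
  -- the quotient `f / g` is integral at `v`
  have hq : f / g ∈ v.toValuationSubring := by
    apply ffp_mem_of_ord_nonneg
    rw [div_eq_mul_inv, v.ord_mul hf0 (inv_ne_zero hg0), v.ord_inv]
    omega
  obtain ⟨c, hc | hc⟩ := H.residue v (f / g) hq
  · refine ⟨c, ?_⟩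
    have : f - c • g = 0 := by
      rw [Algebra.smul_def, ← hc, div_mul_cancel₀ f hg0, sub_self]
    rw [this]; exact Submodule.zero_mem _
  · refine ⟨c, ?_⟩
    have hmem : f - c • g ∈ riemannRochSpace (D + Finsupp.single v 1) :=
      Submodule.sub_mem _ hf (Submodule.smul_mem _ c hg)
    by_cases hd0 : f - c • g = 0
    · rw [hd0]; exact Submodule.zero_mem _
    have hd1 := (mem_L_iff hd0).mp hmem
    rw [mem_L_iff hd0]
    intro w
    by_cases hw : w = v
    · rw [hw]
      have hne : f / g - algebraMap K F c ≠ 0 := by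
        intro h0
        apply hd0
        rw [Algebra.smul_def, ← sub_eq_zero.mp h0, div_mul_cancel₀ f hg0, sub_self]
      have e : f - c • g = g * (f / g - algebraMap K F c) := by
        rw [Algebra.smul_def, mul_sub, mul_div_cancel₀ f hg0, mul_comm]
      rw [e, v.ord_mul hg0 hne, hgv]
      omega
    · have := hd1 w
      rw [Finsupp.add_apply, Finsupp.single_eq_of_ne hw, add_zero] at this
      exact this

theorem le_add_single (D : Divisor K F) (v : Place K F) : D ≤ D + Finsupp.single v 1 := by
  intro w
  rw [Finsupp.add_apply]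
  by_cases hw : w = v
  · rw [hw, Finsupp.single_eq_same]; omega
  · rw [Finsupp.single_eq_of_ne hw]; omega

/-- `dim L(D + v) ≤ dim L(D) + 1`. -/
theorem finrank_L_add_single_le (H : LHyp K F) (D : Divisor K F) (v : Place K F)
    [FiniteDimensional K (riemannRochSpace D)] :
    FiniteDimensional K (riemannRochSpace (D + Finsupp.single v 1)) ∧
      Module.finrank K (riemannRochSpace (D + Finsupp.single v 1)) ≤
        Module.finrank K (riemannRochSpace D) + 1 := by
  by_cases hle : riemannRochSpace (D + Finsupp.single v 1) ≤ riemannRochSpace D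
  · have heq : riemannRochSpace (D + Finsupp.single v 1) = riemannRochSpace D :=
      le_antisymm hle (L_mono (le_add_single D v))
    rw [heq]
    exact ⟨inferInstance, Nat.le_succ _⟩
  · obtain ⟨g, hg, hg'⟩ := SetLike.not_le_iff_exists.mp hle
    have hsub : riemannRochSpace (D + Finsupp.single v 1) ≤
        riemannRochSpace D ⊔ Submodule.span K {g} := by
      intro f hf
      obtain ⟨c, hc⟩ := exists_sub_smul_mem H D v hf hg hg'
      have : f = (f - c • g) + c • g := by ring
      rw [this]
      exact Submodule.add_mem_sup hc (Submodule.smul_mem _ c (Submodule.mem_span_singleton_self g))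
    have hfin : FiniteDimensional K ↥(riemannRochSpace D ⊔ Submodule.span K {g}) := inferInstance
    refine ⟨Submodule.finiteDimensional_of_le hsub, ?_⟩
    calc Module.finrank K (riemannRochSpace (D + Finsupp.single v 1))
        ≤ Module.finrank K ↥(riemannRochSpace D ⊔ Submodule.span K {g}) :=
          Submodule.finrank_mono hsub
      _ ≤ Module.finrank K (riemannRochSpace D) + Module.finrank K (Submodule.span K {g}) :=
          Submodule.finrank_add_le_finrank_add_finrank _ _
      _ ≤ Module.finrank K (riemannRochSpace D) + 1 := by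
          have := finrank_span_singleton (K := K) (show g ≠ 0 from by
            rintro rfl; exact hg' (Submodule.zero_mem _))
          omega

/-! ### Multiplication by a function -/

theorem mul_mem_L (H : LHyp K F) (D : Divisor K F) {f : F} (hf : f ≠ 0) {g : F}
    (hg : g ∈ riemannRochSpace (D + divOf H hf)) : f * g ∈ riemannRochSpace D := by
  by_cases hg0 : g = 0
  · rw [hg0, mul_zero]; exact Submodule.zero_mem _
  have h1 := (mem_L_iff hg0).mp hg
  rw [mem_L_iff (mul_ne_zero hf hg0)]
  intro v
  have := h1 v
  rw [Finsupp.add_apply, divOf_apply] at this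
  rw [v.ord_mul hf hg0]
  omega

theorem inv_mul_mem_L (H : LHyp K F) (D : Divisor K F) {f : F} (hf : f ≠ 0) {g : F}
    (hg : g ∈ riemannRochSpace D) : f⁻¹ * g ∈ riemannRochSpace (D + divOf H hf) := by
  by_cases hg0 : g = 0
  · rw [hg0, mul_zero]; exact Submodule.zero_mem _
  have h1 := (mem_L_iff hg0).mp hg
  rw [mem_L_iff (mul_ne_zero (inv_ne_zero hf) hg0)]
  intro v
  have := h1 v
  rw [Finsupp.add_apply, divOf_apply, v.ord_mul (inv_ne_zero hf) hg0, v.ord_inv]
  omega

/-- Multiplication by `f` is an isomorphism `L(D + div f) ≃ L(D)`. -/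
noncomputable def mulEquiv (H : LHyp K F) (D : Divisor K F) {f : F} (hf : f ≠ 0) :
    riemannRochSpace (D + divOf H hf) ≃ₗ[K] riemannRochSpace D where
  toFun g := ⟨f * g, mul_mem_L H D hf g.2⟩
  invFun g := ⟨f⁻¹ * g, inv_mul_mem_L H D hf g.2⟩
  map_add' g h := by
    apply Subtype.ext
    show f * ((g : F) + (h : F)) = f * g + f * h
    ring
  map_smul' c g := by
    apply Subtype.ext
    show f * (c • (g : F)) = c • (f * (g : F))
    rw [Algebra.smul_def, Algebra.smul_def]
    ring
  left_inv g := by
    apply Subtype.ext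
    show f⁻¹ * (f * (g : F)) = g
    rw [← mul_assoc, inv_mul_cancel₀ hf, one_mul]
  right_inv g := by
    apply Subtype.ext
    show f * (f⁻¹ * (g : F)) = g
    rw [← mul_assoc, mul_inv_cancel₀ hf, one_mul]

/-! ### Finite dimensionality and the bound `dim L(D) ≤ deg D + 1` -/

theorem finrank_L_le_of_nonneg (H : LHyp K F) :
    ∀ (n : ℕ) (D : Divisor K F), 0 ≤ D → Divisor.degree D = n →
      FiniteDimensional K (riemannRochSpace D) ∧
        Module.finrank K (riemannRochSpace D) ≤ n + 1 := by
  classical
  intro n
  induction n with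
  | zero =>
    intro D hD hdeg
    have hD0 : D = 0 := eq_zero_of_degree_eq_zero H hD (by simpa using hdeg)
    rw [hD0, L_zero H]
    refine ⟨inferInstance, ?_⟩
    rw [finrank_span_singleton (one_ne_zero : (1 : F) ≠ 0)]
  | succ n ih =>
    intro D hD hdeg
    -- a place in the support
    have hex : ∃ v, 0 < D v := by
      by_contra hcon
      push Not at hcon
      have hD0 : D = 0 := by
        ext v
        have h1 := hcon v
        have h2 : (0 : ℤ) ≤ D v := by simpa using hD v
        simp only [Finsupp.coe_zero, Pi.zero_apply]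
        omega
      rw [hD0, map_zero] at hdeg
      have : (0 : ℤ) < ((n + 1 : ℕ) : ℤ) := by positivity
      omega
    obtain ⟨v, hv⟩ := hex
    have hD' : 0 ≤ D - Finsupp.single v 1 := by
      intro w
      rw [Finsupp.sub_apply]
      simp only [Finsupp.coe_zero, Pi.zero_apply]
      by_cases hw : w = v
      · rw [hw, Finsupp.single_eq_same]; omega
      · rw [Finsupp.single_eq_of_ne hw]
        have : (0 : ℤ) ≤ D w := by simpa using hD w
        omega
    have hdeg' : Divisor.degree (D - Finsupp.single v 1) = n := by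
      rw [map_sub, hdeg, degree_single H]
      push_cast
      ring
    obtain ⟨hfd, hrk⟩ := ih _ hD' hdeg'
    have hsum : D = (D - Finsupp.single v 1) + Finsupp.single v 1 := by
      rw [sub_add_cancel]
    obtain ⟨hfd', hrk'⟩ := finrank_L_add_single_le H (D - Finsupp.single v 1) v
    rw [← hsum] at hfd' hrk'
    exact ⟨hfd', by omega⟩

/-- `L(D)` is finite-dimensional. -/
theorem finiteDimensional_L (H : LHyp K F) (D : Divisor K F) :
    FiniteDimensional K (riemannRochSpace D) := by
  by_cases hbot : riemannRochSpace D = ⊥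
  · rw [hbot]; infer_instance
  · obtain ⟨f, hf, hf0⟩ := (Submodule.ne_bot_iff _).mp hbot
    have h1 := (mem_L_iff hf0).mp hf
    have hD' : 0 ≤ D + divOf H hf0 := by
      intro v
      rw [Finsupp.add_apply, divOf_apply]
      have := h1 v
      simp only [Finsupp.coe_zero, Pi.zero_apply]
      omega
    have hdeg0 := degree_nonneg H hD'
    obtain ⟨hfd, -⟩ := finrank_L_le_of_nonneg H (Divisor.degree (D + divOf H hf0)).toNat _ hD'
      (Int.toNat_of_nonneg hdeg0).symm
    exact LinearEquiv.finiteDimensional (mulEquiv H D hf0)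

/-- `dim L(D) ≤ deg D + 1` if `0 ≤ deg D`. -/
theorem finrank_L_le (H : LHyp K F) (D : Divisor K F) (hdeg : 0 ≤ Divisor.degree D) :
    (Module.finrank K (riemannRochSpace D) : ℤ) ≤ Divisor.degree D + 1 := by
  by_cases hbot : riemannRochSpace D = ⊥
  · rw [hbot, finrank_bot]
    push_cast
    omega
  · obtain ⟨f, hf, hf0⟩ := (Submodule.ne_bot_iff _).mp hbot
    have h1 := (mem_L_iff hf0).mp hf
    have hD' : 0 ≤ D + divOf H hf0 := by
      intro v
      rw [Finsupp.add_apply, divOf_apply]
      have := h1 v
      simp only [Finsupp.coe_zero, Pi.zero_apply]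
      omega
    have hdeg0 := degree_nonneg H hD'
    obtain ⟨hfd, hrk⟩ := finrank_L_le_of_nonneg H (Divisor.degree (D + divOf H hf0)).toNat _ hD'
      (Int.toNat_of_nonneg hdeg0).symm
    have heq := LinearEquiv.finrank_eq (mulEquiv H D hf0)
    have hdd : Divisor.degree (D + divOf H hf0) = Divisor.degree D := by
      rw [map_add, degree_divOf, add_zero]
    rw [← heq]
    have : ((Divisor.degree (D + divOf H hf0)).toNat : ℤ) = Divisor.degree D := by
      rw [Int.toNat_of_nonneg hdeg0, hdd]
    omega

/-- In all cases `dim L(D) ≤ max 0 (deg D + 1)`. -/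
theorem finrank_L_le_max (H : LHyp K F) (D : Divisor K F) :
    (Module.finrank K (riemannRochSpace D) : ℤ) ≤ max 0 (Divisor.degree D + 1) := by
  rcases lt_or_ge (Divisor.degree D) 0 with h | h
  · rw [L_eq_bot_of_degree_neg H h, finrank_bot]
    exact le_max_left _ _
  · exact (finrank_L_le H D h).trans (le_max_right _ _)

end Fermat.Agent.RR.LSpace
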