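/-
C-RR (helper28), (RIEM) C5: finiteness of `H¹(D)` and the Riemann–Roch equality with the index of
speciality `i(D) = dim H¹(D)`:

  `l(D) - i(D) = deg D + 1 - g`,  `g = genusFF K F = dim H¹(0)`.

Inputs: (C3) (`Adeles.finrank_L_add_finrank_sup`), finite-dimensionality of `L(D)` and `l(0) = 1`
(helper13, `LSpace`), and Riemann's inequality (C4) as a hypothesis.
-/
import Mathlib
import Fermat.Prelude.Def_AlgebraicCurve_Repartitions
import Fermat.Agent.X0.FFPrincipal
import Fermat.Agent.RR.RelRank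
import Fermat.Agent.RR.Adeles
import Fermat.Agent.RR.LSpace

set_option autoImplicit false

namespace Fermat.Agent.RR.H1Finite

open AlgebraicCurve Fermat.Agent.X0.FF Fermat.Agent.RR.RelRank Fermat.Agent.RR.Adeles
open Fermat.Agent.RR

variable {K F : Type*} [Field K] [Field F] [Algebra K F]

/-- `A(D) + F` inside the repartitions. -/
noncomputable abbrev AP (D : Divisor K F) : Submodule K ↥(repartitions K F) :=
  repartitionsOf D ⊔ principalRepartitions K F

theorem AP_mono {D D' : Divisor K F} (h : D ≤ D') : AP D ≤ AP D' :=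
  sup_le_sup_right (repartitionsOf_mono h) _

/-- `r(D) = deg D + 1 - l(D)`. -/
noncomputable def r (D : Divisor K F) : ℤ :=
  Divisor.degree D + 1 - (Module.finrank K (riemannRochSpace D) : ℤ)

/-- `dim (A(D') + F) / (A(D) + F)`. -/
noncomputable def jump (D D' : Divisor K F) : ℕ :=
  Module.finrank K ↥((AP D').map (AP D).mkQ)

/-- finrank version of rank-nullity for nested finite-dimensional subspaces. -/
theorem finrank_eq_add_of_le {V : Type*} [AddCommGroup V] [Module K V] {S T : Submodule K V}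
    (h : S ≤ T) [FiniteDimensional K T] :
    Module.finrank K ↥T = Module.finrank K ↥S + Module.finrank K ↥(T.map S.mkQ) := by
  have : FiniteDimensional K S := Submodule.finiteDimensional_of_le h
  have : FiniteDimensional K ↥(T.map S.mkQ) := inferInstance
  have h1 := rank_eq_add_of_le h
  rw [← Module.finrank_eq_rank, ← Module.finrank_eq_rank, ← Module.finrank_eq_rank] at h1
  exact_mod_cast h1

section Main

variable (H : FF1Data K F) (HL : LSpace.LHyp K F)

include H HL

/-- Step 1: for `D ≤ D'`, `r(D') - r(D) = dim (A(D') + F) / (A(D) + F)`. -/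
theorem r_sub_r {D D' : Divisor K F} (h : D ≤ D') : r D' - r D = (jump D D' : ℤ) := by
  have := HL.nonempty
  obtain ⟨_, _, h3⟩ := finrank_L_add_finrank_sup H h
  have : FiniteDimensional K (riemannRochSpace D') := LSpace.finiteDimensional_L HL D'
  have h4 := finrank_eq_add_of_le (K := K) (LSpace.L_mono h)
  unfold r jump
  rw [h4]
  push_cast
  linarith

theorem r_mono {D D' : Divisor K F} (h : D ≤ D') : r D ≤ r D' := by
  have := r_sub_r H HL h
  have h0 : (0 : ℤ) ≤ jump D D' := Int.natCast_nonneg _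
  linarith

/-- If `r(D') = r(D)` for `D ≤ D'` then `A(D') + F = A(D) + F`. -/
theorem AP_le_of_r_eq {D D' : Divisor K F} (h : D ≤ D') (hr : r D' = r D) : AP D' ≤ AP D := by
  have := HL.nonempty
  obtain ⟨_, hfin, _⟩ := finrank_L_add_finrank_sup H h
  have h1 := r_sub_r H HL h
  rw [hr, sub_self] at h1
  have h2 : jump D D' = 0 := by exact_mod_cast h1.symm
  have h3 : (AP D').map (AP D).mkQ = ⊥ := by
    have := hfin
    exact Submodule.finrank_eq_zero.mp h2
  intro x hx
  have : (AP D).mkQ x ∈ (AP D').map (AP D).mkQ := Submodule.mem_map_of_mem hx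
  rw [h3, Submodule.mem_bot, Submodule.mkQ_apply, Submodule.Quotient.mk_eq_zero] at this
  exact this

omit HL in
/-- Every repartition lies in `A(D)` for some `D ≥ D₀`. -/
theorem exists_ge_mem_repartitionsOf (α : ↥(repartitions K F)) (D₀ : Divisor K F) :
    ∃ D : Divisor K F, D₀ ≤ D ∧ α ∈ repartitionsOf D := by
  classical
  have hS : {v : Place K F | v.ord ((α : Place K F → F) v) < 0}.Finite :=
    (mem_repartitions_iff H).mp α.2
  let E : Place K F → ℤ := fun v => max (D₀ v) (-v.ord ((α : Place K F → F) v))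
  have hE : ∀ v, E v ≠ 0 → v ∈ D₀.support ∪ hS.toFinset := by
    intro v hv
    by_contra hcon
    rw [Finset.mem_union, not_or, Finsupp.mem_support_iff, not_not, Set.Finite.mem_toFinset,
      Set.mem_ofPred_eq, not_lt] at hcon
    apply hv
    show max (D₀ v) (-v.ord ((α : Place K F → F) v)) = 0
    rw [hcon.1]
    exact max_eq_left (by omega)
  let D : Divisor K F := Finsupp.onFinset (D₀.support ∪ hS.toFinset) E hE
  refine ⟨D, ?_, ?_⟩
  · rw [Finsupp.le_def]
    intro v
    show D₀ v ≤ max (D₀ v) _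
    exact le_max_left _ _
  · rw [mem_repartitionsOf_iff]
    intro v
    right
    show -(max (D₀ v) (-v.ord ((α : Place K F → F) v))) ≤ _
    have := le_max_right (D₀ v) (-v.ord ((α : Place K F → F) v))
    omega

omit H HL in
/-- Step 3: the function `r` attains its maximum. -/
theorem exists_r_max (hR : ∃ γ : ℤ, ∀ D : Divisor K F,
    Divisor.degree D + 1 - γ ≤ (Module.finrank K (riemannRochSpace D) : ℤ)) :
    ∃ D₀ : Divisor K F, ∀ D : Divisor K F, r D ≤ r D₀ := by
  obtain ⟨γ, hγ⟩ := hR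
  have hbdd : ∀ z : ℤ, (∃ D : Divisor K F, r D = z) → z ≤ γ := by
    rintro z ⟨D, rfl⟩
    have := hγ D
    unfold r
    linarith
  obtain ⟨m, ⟨D₀, hD₀⟩, hm⟩ := Int.exists_greatest_of_bdd ⟨γ, hbdd⟩ ⟨r (0 : Divisor K F), 0, rfl⟩
  exact ⟨D₀, fun D => hD₀ ▸ hm (r D) ⟨D, rfl⟩⟩

/-- Step 5: for a maximiser `D₀` of `r`, `A(D₀) + F` is everything. -/
theorem AP_eq_top_of_max {D₀ : Divisor K F} (hmax : ∀ D : Divisor K F, r D ≤ r D₀) :
    AP D₀ = ⊤ := by
  rw [eq_top_iff]
  intro α _
  obtain ⟨D, hD, hα⟩ := exists_ge_mem_repartitionsOf H α D₀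
  have hr : r D = r D₀ := le_antisymm (hmax D) (r_mono H HL hD)
  exact AP_le_of_r_eq H HL hD hr (Submodule.mem_sup_left hα)

/-- Step 6: `H¹(D)` is finite-dimensional of dimension `r(D₀) - r(D)`. -/
theorem h1_finite_and_finrank {D₀ : Divisor K F} (hmax : ∀ D : Divisor K F, r D ≤ r D₀)
    (D : Divisor K F) :
    Module.Finite K (H1 D) ∧ (Module.finrank K (H1 D) : ℤ) = r D₀ - r D := by
  have := HL.nonempty
  set D' : Divisor K F := D ⊔ D₀ with hD'
  have hD : D ≤ D' := le_sup_left
  have hD₀ : D₀ ≤ D' := le_sup_right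
  have htop : AP D' = ⊤ := top_le_iff.mp ((AP_eq_top_of_max H HL hmax) ▸ AP_mono hD₀)
  have hr : r D' = r D₀ := le_antisymm (hmax D') (r_mono H HL hD₀)
  have hmap : (AP D').map (AP D).mkQ = ⊤ := by
    rw [htop, Submodule.map_top, Submodule.range_mkQ]
  obtain ⟨_, hfin, _⟩ := finrank_L_add_finrank_sup H hD
  have h1 := r_sub_r H HL hD
  unfold jump at h1
  have hfin' : Module.Finite K ↥(⊤ : Submodule K (H1 D)) := hmap ▸ hfin
  have hfinH : Module.Finite K (H1 D) := Module.Finite.equiv (Submodule.topEquiv (R := K))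
  refine ⟨hfinH, ?_⟩
  have h2 : Module.finrank K ↥((AP D').map (AP D).mkQ) = Module.finrank K (H1 D) := by
    rw [hmap]
    exact finrank_top K (H1 D)
  rw [h2, hr] at h1
  exact h1.symm

/-- `r(D₀) = g` for a maximiser `D₀`. -/
theorem r_max_eq_genus {D₀ : Divisor K F} (hmax : ∀ D : Divisor K F, r D ≤ r D₀) :
    r D₀ = (genusFF K F : ℤ) := by
  obtain ⟨_, h⟩ := h1_finite_and_finrank H HL hmax (0 : Divisor K F)
  have h0 : r (0 : Divisor K F) = 0 := by
    unfold r
    rw [map_zero, LSpace.finrank_L_zero HL]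
    norm_num
  rw [h0, sub_zero] at h
  exact h.symm

/-- **(C5)** `H¹(D)` is finite-dimensional. -/
theorem finite_H1 (hR : ∃ γ : ℤ, ∀ D : Divisor K F,
    Divisor.degree D + 1 - γ ≤ (Module.finrank K (riemannRochSpace D) : ℤ)) (D : Divisor K F) :
    Module.Finite K (H1 D) := by
  obtain ⟨D₀, hmax⟩ := exists_r_max hR
  exact (h1_finite_and_finrank H HL hmax D).1

/-- **(C5)** Riemann–Roch with the index of speciality: `l(D) - i(D) = deg D + 1 - g`. -/
theorem finrank_L_sub_finrank_H1 (hR : ∃ γ : ℤ, ∀ D : Divisor K F,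
    Divisor.degree D + 1 - γ ≤ (Module.finrank K (riemannRochSpace D) : ℤ)) (D : Divisor K F) :
    (Module.finrank K (riemannRochSpace D) : ℤ) - (Module.finrank K (H1 D) : ℤ) =
      Divisor.degree D + 1 - (genusFF K F : ℤ) := by
  obtain ⟨D₀, hmax⟩ := exists_r_max hR
  obtain ⟨_, h⟩ := h1_finite_and_finrank H HL hmax D
  rw [h, r_max_eq_genus H HL hmax]
  unfold r
  ring

/-- **(C5)** There is a divisor `D₀` with `H¹(D) = 0` for all `D ≥ D₀`. -/
theorem exists_forall_ge_AP_eq_top (hR : ∃ γ : ℤ, ∀ D : Divisor K F,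
    Divisor.degree D + 1 - γ ≤ (Module.finrank K (riemannRochSpace D) : ℤ)) :
    ∃ D₀ : Divisor K F, ∀ D : Divisor K F, D₀ ≤ D →
      repartitionsOf D ⊔ principalRepartitions K F = ⊤ := by
  obtain ⟨D₀, hmax⟩ := exists_r_max hR
  exact ⟨D₀, fun D hD => top_le_iff.mp ((AP_eq_top_of_max H HL hmax) ▸ AP_mono hD)⟩

end Main

end Fermat.Agent.RR.H1Finite
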