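/-
Program C-RR (helper13), piece (RIEM) C4: Riemann's inequality
`∃ γ, ∀ D, deg D + 1 - γ ≤ dim L(D)` (Stichtenoth, Prop. 1.4.14) in the Prelude API, against
`LSpace.LHyp` and the inequality `deg (x)_∞ ≤ [F : K(x)]` for one transcendental `x`.
-/
import Mathlib
import Fermat.Agent.RR.LSpace

set_option autoImplicit false

open AlgebraicCurve IntermediateField Polynomial

namespace Fermat.Agent.RR.Riemann

open Fermat.Agent.X0.FF Fermat.Agent.RR.LSpace

variable {K F : Type*} [Field K] [Field F] [Algebra K F]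

/-! ### Monotonicity of `deg D - dim L(D)` -/

/-- `dim L(A + E) ≤ dim L(A) + deg E` for effective `E`. -/
theorem finrank_L_add_le (H : LHyp K F) :
    ∀ (n : ℕ) (E : Divisor K F), 0 ≤ E → Divisor.degree E = n → ∀ A : Divisor K F,
      Module.finrank K (riemannRochSpace (A + E)) ≤ Module.finrank K (riemannRochSpace A) + n := by
  classical
  intro n
  induction n with
  | zero =>
    intro E hE hdeg A
    have hE0 : E = 0 := eq_zero_of_degree_eq_zero H hE (by simpa using hdeg)
    rw [hE0, add_zero]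
    exact le_rfl
  | succ n ih =>
    intro E hE hdeg A
    have hex : ∃ v, 0 < E v := by
      by_contra hcon
      push Not at hcon
      have hE0 : E = 0 := by
        ext v
        have h1 := hcon v
        have h2 : (0 : ℤ) ≤ E v := by simpa using hE v
        simp only [Finsupp.coe_zero, Pi.zero_apply]
        omega
      rw [hE0, map_zero] at hdeg
      have : (0 : ℤ) < ((n + 1 : ℕ) : ℤ) := by positivity
      omega
    obtain ⟨v, hv⟩ := hex
    have hE' : 0 ≤ E - Finsupp.single v 1 := by
      intro w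
      rw [Finsupp.sub_apply]
      simp only [Finsupp.coe_zero, Pi.zero_apply]
      by_cases hw : w = v
      · rw [hw, Finsupp.single_eq_same]; omega
      · rw [Finsupp.single_eq_of_ne hw]
        have : (0 : ℤ) ≤ E w := by simpa using hE w
        omega
    have hdeg' : Divisor.degree (E - Finsupp.single v 1) = n := by
      rw [map_sub, hdeg, degree_single H]
      push_cast
      ring
    have h1 := ih _ hE' hdeg' A
    have hsum : A + E = (A + (E - Finsupp.single v 1)) + Finsupp.single v 1 := by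
      rw [add_assoc, sub_add_cancel]
    have := finiteDimensional_L H (A + (E - Finsupp.single v 1))
    obtain ⟨-, h2⟩ := finrank_L_add_single_le H (A + (E - Finsupp.single v 1)) v
    rw [← hsum] at h2
    omega

/-- (Stichtenoth 1.4.8) For `A ≤ A'`: `dim L(A') - dim L(A) ≤ deg A' - deg A`. -/
theorem finrank_L_sub_le (H : LHyp K F) {A A' : Divisor K F} (h : A ≤ A') :
    (Module.finrank K (riemannRochSpace A') : ℤ) - Module.finrank K (riemannRochSpace A) ≤
      Divisor.degree A' - Divisor.degree A := by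
  have hE : 0 ≤ A' - A := sub_nonneg.mpr h
  have hdeg0 := degree_nonneg H hE
  have h1 := finrank_L_add_le H (Divisor.degree (A' - A)).toNat (A' - A) hE
    (Int.toNat_of_nonneg hdeg0).symm A
  rw [add_sub_cancel] at h1
  have h2 : ((Divisor.degree (A' - A)).toNat : ℤ) = Divisor.degree A' - Divisor.degree A := by
    rw [Int.toNat_of_nonneg hdeg0, map_sub]
  omega

/-! ### Products and pole divisors -/

theorem mul_mem_L_add {D E : Divisor K F} {f g : F} (hf : f ∈ riemannRochSpace D)
    (hg : g ∈ riemannRochSpace E) : f * g ∈ riemannRochSpace (D + E) := by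
  by_cases hf0 : f = 0
  · rw [hf0, zero_mul]; exact Submodule.zero_mem _
  by_cases hg0 : g = 0
  · rw [hg0, mul_zero]; exact Submodule.zero_mem _
  have h1 := (mem_L_iff hf0).mp hf
  have h2 := (mem_L_iff hg0).mp hg
  rw [mem_L_iff (mul_ne_zero hf0 hg0)]
  intro v
  rw [Finsupp.add_apply, v.ord_mul hf0 hg0]
  have := h1 v
  have := h2 v
  omega

/-- The pole divisor of a nonzero function. -/
noncomputable def poleDiv (H : LHyp K F) {f : F} (hf : f ≠ 0) : Divisor K F :=
  (divOf H hf).mapRange (fun n => max 0 (-n)) (by simp)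

theorem poleDiv_apply (H : LHyp K F) {f : F} (hf : f ≠ 0) (v : Place K F) :
    poleDiv H hf v = max 0 (-(v.ord f)) := by
  rw [poleDiv, Finsupp.mapRange_apply, divOf_apply]

theorem poleDiv_nonneg (H : LHyp K F) {f : F} (hf : f ≠ 0) : 0 ≤ poleDiv H hf := by
  intro v
  rw [poleDiv_apply]
  simp

theorem mem_L_poleDiv (H : LHyp K F) {f : F} (hf : f ≠ 0) : f ∈ riemannRochSpace (poleDiv H hf) := by
  rw [mem_L_iff hf]
  intro v
  rw [poleDiv_apply]
  have := le_max_right 0 (-(v.ord f))
  omega

/-- A nonconstant function has a pole, so its pole divisor has positive degree. -/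
theorem degree_poleDiv_pos (H : LHyp K F) {f : F} (hf : f ≠ 0)
    (hnc : ¬ ∃ c : K, f = algebraMap K F c) : 0 < Divisor.degree (poleDiv H hf) := by
  have hex : ∃ v : Place K F, v.ord f < 0 := by
    by_contra hcon
    push Not at hcon
    exact hnc (eq_algebraMap_of_forall_ord_nonneg H hcon)
  obtain ⟨v, hv⟩ := hex
  have h0 := degree_nonneg H (poleDiv_nonneg H hf)
  rcases h0.lt_or_eq with h | h
  · exact h
  · exfalso
    have := eq_zero_of_degree_eq_zero H (poleDiv_nonneg H hf) h.symm
    have h2 := congrArg (fun D : Divisor K F => D v) this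
    simp only [poleDiv_apply, Finsupp.coe_zero, Pi.zero_apply] at h2
    have := le_max_right 0 (-(v.ord f))
    omega

/-! ### Many independent functions with bounded poles -/

section Lower

variable (H : LHyp K F) {x : F}

theorem pow_mem_L_nsmul_poleDiv (hx0 : x ≠ 0) {i l : ℕ} (hil : i ≤ l) :
    x ^ i ∈ riemannRochSpace (l • poleDiv H hx0) := by
  rw [mem_L_iff (pow_ne_zero i hx0)]
  intro v
  have h1 : v.ord (x ^ i) = i * v.ord x := by
    have := v.ord_zpow x (i : ℤ)
    rwa [zpow_natCast] at this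
  rw [h1, Finsupp.smul_apply, poleDiv_apply, nsmul_eq_mul]
  have h2 := le_max_left 0 (-(v.ord x))
  have h3 := le_max_right 0 (-(v.ord x))
  have h4 : (i : ℤ) * max 0 (-(v.ord x)) ≤ (l : ℤ) * max 0 (-(v.ord x)) :=
    mul_le_mul_of_nonneg_right (by exact_mod_cast hil) h2
  have h5 : (i : ℤ) * (-(v.ord x)) ≤ (i : ℤ) * max 0 (-(v.ord x)) :=
    mul_le_mul_of_nonneg_left h3 (by positivity)
  have h6 : (i : ℤ) * (-(v.ord x)) = -((i : ℤ) * v.ord x) := by ring
  linarith

theorem aeval_mem_L_nsmul_poleDiv (hx0 : x ≠ 0) {l : ℕ} {p : K[X]}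
    (hp : p ∈ degreeLT K (l + 1)) : aeval x p ∈ riemannRochSpace (l • poleDiv H hx0) := by
  have hdeg : p.natDegree < l + 1 := by
    by_cases hp0 : p = 0
    · rw [hp0]; simp
    · rw [mem_degreeLT] at hp
      exact (natDegree_lt_iff_degree_lt hp0).mpr (by exact_mod_cast hp)
  rw [aeval_eq_sum_range' hdeg]
  refine Submodule.sum_mem _ fun i hi => Submodule.smul_mem _ _ ?_
  exact pow_mem_L_nsmul_poleDiv H hx0 (by have := Finset.mem_range.mp hi; omega)

theorem aeval_mem_adjoin (q : K[X]) : aeval x q ∈ K⟮x⟯ := by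
  have h1 : aeval x q ∈ Algebra.adjoin K {x} := aeval_mem_adjoin_singleton K x
  exact IntermediateField.algebra_adjoin_le_adjoin K {x} h1

/-- The lower bound `(l + 1) [F : K(x)] ≤ dim L(l (x)_∞ + C)` for a suitable effective `C`. -/
theorem exists_lower_bound (hx : Transcendental K x) [FiniteDimensional K⟮x⟯ F]
    (hx0 : x ≠ 0) :
    ∃ C : Divisor K F, 0 ≤ C ∧ ∀ l : ℕ,
      (l + 1) * Module.finrank K⟮x⟯ F ≤
        Module.finrank K (riemannRochSpace (l • poleDiv H hx0 + C)) := by
  classical
  set n := Module.finrank K⟮x⟯ F with hn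
  let b : Module.Basis (Fin n) K⟮x⟯ F := Module.finBasis K⟮x⟯ F
  have hb0 : ∀ j, b j ≠ 0 := fun j => b.ne_zero j
  -- the divisor `C`
  let C : Divisor K F := ∑ j, poleDiv H (hb0 j)
  have hCapply : ∀ v, C v = ∑ j, poleDiv H (hb0 j) v := fun v => by
    simp only [C, Finsupp.coe_finsetSum, Finset.sum_apply]
  have hC0 : 0 ≤ C := by
    intro v
    rw [hCapply]
    exact Finset.sum_nonneg fun j _ => poleDiv_nonneg H (hb0 j) v
  have hbC : ∀ j, b j ∈ riemannRochSpace C := by
    intro j
    refine L_mono ?_ (mem_L_poleDiv H (hb0 j))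
    intro v
    rw [hCapply]
    exact Finset.single_le_sum (f := fun j => poleDiv H (hb0 j) v)
      (fun i _ => poleDiv_nonneg H (hb0 i) v) (Finset.mem_univ j)
  refine ⟨C, hC0, fun l => ?_⟩
  -- the linear map
  let Φ : (Fin n → degreeLT K (l + 1)) →ₗ[K] F :=
    ∑ j, (LinearMap.mulRight K (b j)).comp ((aeval x).toLinearMap.comp
      ((degreeLT K (l + 1)).subtype.comp (LinearMap.proj j)))
  have hΦ : ∀ p, Φ p = ∑ j, aeval x (p j : K[X]) * b j := by
    intro p
    simp [Φ, LinearMap.sum_apply]
  have hΦmem : ∀ p, Φ p ∈ riemannRochSpace (l • poleDiv H hx0 + C) := by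
    intro p
    rw [hΦ]
    exact Submodule.sum_mem _ fun j _ =>
      mul_mem_L_add (aeval_mem_L_nsmul_poleDiv H hx0 (p j).2) (hbC j)
  have hΦinj : Function.Injective Φ := by
    rw [← LinearMap.ker_eq_bot, LinearMap.ker_eq_bot']
    intro p hp
    rw [hΦ] at hp
    have hlin := Fintype.linearIndependent_iff.mp b.linearIndependent
      (fun j => (⟨aeval x (p j : K[X]), aeval_mem_adjoin _⟩ : K⟮x⟯)) (by
        rw [← hp]
        refine Finset.sum_congr rfl fun j _ => ?_
        rw [Algebra.smul_def]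
        rfl)
    funext j
    have h1 : aeval x (p j : K[X]) = 0 := by
      have := congrArg (fun z : K⟮x⟯ => (z : F)) (hlin j)
      simpa using this
    have h2 : (p j : K[X]) = 0 := by
      have hinj := transcendental_iff_injective.mp hx
      exact hinj (by rw [h1, map_zero])
    exact Subtype.ext h2
  -- dimension count
  let Ψ : (Fin n → degreeLT K (l + 1)) →ₗ[K] riemannRochSpace (l • poleDiv H hx0 + C) :=
    Φ.codRestrict _ hΦmem
  have hΨinj : Function.Injective Ψ := fun p q hpq => hΦinj (congrArg Subtype.val hpq)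
  have := finiteDimensional_L H (l • poleDiv H hx0 + C)
  have hle := LinearMap.finrank_le_finrank_of_injective hΨinj
  have hdim : Module.finrank K (Fin n → degreeLT K (l + 1)) = (l + 1) * n := by
    have hdl : Module.finrank K (degreeLT K (l + 1)) = l + 1 := by
      rw [LinearEquiv.finrank_eq (degreeLTEquiv K (l + 1)), Module.finrank_fin_fun]
    rw [Module.finrank_pi_fintype]
    simp only [hdl, Finset.sum_const, Finset.card_univ, Fintype.card_fin, smul_eq_mul]
    ring
  rw [hdim] at hle
  exact hle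

end Lower

/-! ### Riemann's inequality -/

/-- **Riemann's inequality** (Stichtenoth 1.4.14): there is `γ` with
`deg D + 1 - γ ≤ dim L(D)` for all divisors `D`. -/
theorem riemann_inequality (H : LHyp K F) {x : F} (hx : Transcendental K x)
    [FiniteDimensional K⟮x⟯ F] (hx0 : x ≠ 0)
    (hB : Divisor.degree (poleDiv H hx0) ≤ (Module.finrank K⟮x⟯ F : ℤ)) :
    ∃ γ : ℤ, ∀ D : Divisor K F,
      Divisor.degree D + 1 - γ ≤ (Module.finrank K (riemannRochSpace D) : ℤ) := by
  classical
  obtain ⟨C, hC0, hlow⟩ := exists_lower_bound H hx hx0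
  have hnc : ¬ ∃ c : K, x = algebraMap K F c := by
    rintro ⟨c, rfl⟩
    exact hx (isAlgebraic_algebraMap c)
  have hBpos : 0 < Divisor.degree (poleDiv H hx0) := degree_poleDiv_pos H hx0 hnc
  -- step (i)
  have hstep1 : ∀ l : ℕ, (l : ℤ) * Divisor.degree (poleDiv H hx0) +
      (Module.finrank K⟮x⟯ F : ℤ) - Divisor.degree C ≤
      (Module.finrank K (riemannRochSpace (l • poleDiv H hx0)) : ℤ) := by
    intro l
    have h1 := hlow l
    have h2 := finrank_L_sub_le H (A := l • poleDiv H hx0) (A' := l • poleDiv H hx0 + C)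
      (le_add_of_nonneg_right hC0)
    rw [map_add, add_sub_cancel_left] at h2
    have h3 : (((l : ℤ) + 1) * (Module.finrank K⟮x⟯ F : ℤ)) ≤
        (Module.finrank K (riemannRochSpace (l • poleDiv H hx0 + C)) : ℤ) := by
      exact_mod_cast h1
    have h4 : (l : ℤ) * Divisor.degree (poleDiv H hx0) ≤ (l : ℤ) * (Module.finrank K⟮x⟯ F : ℤ) :=
      mul_le_mul_of_nonneg_left hB (by positivity)
    have h5 : ((l : ℤ) + 1) * (Module.finrank K⟮x⟯ F : ℤ) =
        (l : ℤ) * (Module.finrank K⟮x⟯ F : ℤ) + (Module.finrank K⟮x⟯ F : ℤ) := by ring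
    linarith
  refine ⟨Divisor.degree C - (Module.finrank K⟮x⟯ F : ℤ) + 1, fun D => ?_⟩
  -- step (ii): the positive part of `D`
  let A₁ : Divisor K F := D.mapRange (fun m => max 0 m) (by simp)
  have hA₁ : ∀ v, A₁ v = max 0 (D v) := fun v => by
    simp only [A₁, Finsupp.mapRange_apply]
  have hDA₁ : D ≤ A₁ := fun v => by rw [hA₁]; exact le_max_right _ _
  have hA₁0 : 0 ≤ A₁ := fun v => by rw [hA₁]; simp
  obtain ⟨l, hl⟩ : ∃ l : ℕ, Divisor.degree A₁ + Divisor.degree C - (Module.finrank K⟮x⟯ F : ℤ) <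
      (l : ℤ) * Divisor.degree (poleDiv H hx0) := by
    refine ⟨(Divisor.degree A₁ + Divisor.degree C - (Module.finrank K⟮x⟯ F : ℤ)).toNat + 1, ?_⟩
    have h1 := Int.self_le_toNat
      (Divisor.degree A₁ + Divisor.degree C - (Module.finrank K⟮x⟯ F : ℤ))
    have h2 : (((Divisor.degree A₁ + Divisor.degree C -
        (Module.finrank K⟮x⟯ F : ℤ)).toNat + 1 : ℕ) : ℤ) * 1 ≤
        (((Divisor.degree A₁ + Divisor.degree C -
        (Module.finrank K⟮x⟯ F : ℤ)).toNat + 1 : ℕ) : ℤ) * Divisor.degree (poleDiv H hx0) :=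
      mul_le_mul_of_nonneg_left (by omega) (by positivity)
    push_cast at h2 ⊢
    linarith
  have h5 := finrank_L_sub_le H (A := l • poleDiv H hx0 - A₁) (A' := l • poleDiv H hx0)
    (sub_le_self _ hA₁0)
  rw [map_sub, sub_sub_cancel] at h5
  have h8 := hstep1 l
  have hpos : 0 < Module.finrank K (riemannRochSpace (l • poleDiv H hx0 - A₁)) := by
    have : (0 : ℤ) < (Module.finrank K (riemannRochSpace (l • poleDiv H hx0 - A₁)) : ℤ) := by
      linarith
    exact_mod_cast this
  obtain ⟨z, hz, hz0⟩ : ∃ z ∈ riemannRochSpace (l • poleDiv H hx0 - A₁), z ≠ 0 := by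
    have hne : riemannRochSpace (l • poleDiv H hx0 - A₁) ≠ ⊥ := by
      intro h
      rw [h, finrank_bot] at hpos
      exact lt_irrefl _ hpos
    exact (Submodule.ne_bot_iff _).mp hne
  have hD'le : A₁ - divOf H hz0 ≤ l • poleDiv H hx0 := by
    intro v
    rw [Finsupp.sub_apply, divOf_apply]
    have := (mem_L_iff hz0).mp hz v
    rw [Finsupp.sub_apply] at this
    omega
  have hdegD' : Divisor.degree (A₁ - divOf H hz0) = Divisor.degree A₁ := by
    rw [map_sub, degree_divOf, sub_zero]
  have heq := LinearEquiv.finrank_eq (mulEquiv H (A₁ - divOf H hz0) hz0)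
  rw [sub_add_cancel] at heq
  have h6 := finrank_L_sub_le H hDA₁
  have h7 := finrank_L_sub_le H hD'le
  have h9 : Divisor.degree (l • poleDiv H hx0) = (l : ℤ) * Divisor.degree (poleDiv H hx0) := by
    rw [map_nsmul, nsmul_eq_mul]
  rw [hdegD', h9] at h7
  have heq' : (Module.finrank K (riemannRochSpace A₁) : ℤ) =
      (Module.finrank K (riemannRochSpace (A₁ - divOf H hz0)) : ℤ) := by exact_mod_cast heq
  linarith

/-- The degree of the pole divisor as a `finsum` (the shape of `FF1Data.sum_ord_poles`). -/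
theorem degree_poleDiv_eq_finsum (H : LHyp K F) {f : F} (hf : f ≠ 0) :
    Divisor.degree (poleDiv H hf) = ∑ᶠ (v : Place K F) (_ : v.ord f < 0), -v.ord f := by
  classical
  rw [degree_eq_sum H]
  have h1 : ∀ v : Place K F, (∑ᶠ (_ : v.ord f < 0), -v.ord f) = poleDiv H hf v := by
    intro v
    rw [finsum_eq_if, poleDiv_apply]
    split_ifs with h
    · rw [max_eq_right (by omega)]
    · rw [max_eq_left (by omega)]
  simp_rw [h1]
  rw [finsum_eq_sum_of_support_subset]
  intro v hv
  simpa [Function.mem_support, Finsupp.mem_support_iff] using hv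

/-- Riemann's inequality with the hypothesis in the `finsum` form of `FF1Data.sum_ord_poles`. -/
theorem riemann_inequality' (H : LHyp K F) {x : F} (hx : Transcendental K x)
    [FiniteDimensional K⟮x⟯ F]
    (hpoles : ∑ᶠ (v : Place K F) (_ : v.ord x < 0), -v.ord x = (Module.finrank K⟮x⟯ F : ℤ)) :
    ∃ γ : ℤ, ∀ D : Divisor K F,
      Divisor.degree D + 1 - γ ≤ (Module.finrank K (riemannRochSpace D) : ℤ) := by
  have hx0 : x ≠ 0 := by
    rintro rfl
    exact hx isAlgebraic_zero
  exact riemann_inequality H hx hx0 (by rw [degree_poleDiv_eq_finsum, hpoles])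

end Fermat.Agent.RR.Riemann
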