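/-
Program C-RR (helper13): the hypotheses `LSpace.LHyp K F` of `RR/LSpace.lean`, `RR/Riemann.lean`
hold for every function field with a transcendental generator (`IsGen K x`, `K` algebraically
closed of characteristic zero); Riemann's inequality in that setting, hypothesis-free; and the
description of `L(div ω)` / of the space of regular differentials used by the S20 lower bound.
-/
import Mathlib
import Fermat.Prelude.Def_AlgebraicCurve_CanonicalDivisor
import Fermat.Agent.RR.LSpace
import Fermat.Agent.RR.Riemann
import Fermat.Agent.X0.FFGenus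

set_option autoImplicit false
set_option linter.unusedSectionVars false

open AlgebraicCurve KaehlerDifferential IntermediateField

namespace Fermat.Agent.RR.LHypGen

open Fermat.Agent.X0.FF Fermat.Agent.RR.LSpace

variable {K F : Type*} [Field K] [Field F] [Algebra K F]

/-! ### The hypotheses of `LSpace` for function fields with a generator -/

/-- `LHyp` from the FF1 interface and the residue property. -/
theorem lHyp_of_ff1Data (H : FF1Data K F) [Nonempty (Place K F)]
    (hres : ∀ (v : Place K F) (f : F), f ∈ v.toValuationSubring →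
      ∃ c : K, f = algebraMap K F c ∨ 0 < v.ord (f - algebraMap K F c)) : LHyp K F where
  residue := hres
  deg_eq_one := H.deg_eq_one
  principal := fun f hf => (ffq_hasPrincipalDivisors H).exists_divisor f hf
  nonempty := inferInstance

section Gen

variable [IsAlgClosed K] [CharZero K] {x : F}

/-- A function field with a transcendental generator has a place (a pole of the generator). -/
theorem nonempty_place (hx : IsGen K x) : Nonempty (Place K F) := by
  by_contra hne
  rw [not_nonempty_iff] at hne
  have h := (Fermat.Agent.X0.FFGenus.ff1Data hx).sum_ord_poles x hx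
  have h0 : ∑ᶠ (v : Place K F) (_ : v.ord x < 0), -v.ord x = 0 := by
    rw [finsum_of_isEmpty]
  rw [h0] at h
  haveI := hx.finiteDimensional
  have hpos : 0 < Module.finrank K⟮x⟯ F := Module.finrank_pos
  omega

/-- The hypotheses of `LSpace` / `Riemann` hold in every function field `F / K` with a
transcendental generator, `K` algebraically closed of characteristic zero. -/
theorem lHyp_of_isGen (hx : IsGen K x) : LHyp K F :=
  haveI := nonempty_place hx
  lHyp_of_ff1Data (Fermat.Agent.X0.FFGenus.ff1Data hx)
    (fun v _ hf => (Fermat.Agent.X0.FFGenus.genusHyp hx).exists_ord_sub_pos v _ hf)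

/-- **Riemann's inequality**, hypothesis-free for `IsGen K x`. -/
theorem riemann_inequality_of_isGen (hx : IsGen K x) :
    ∃ γ : ℤ, ∀ D : Divisor K F,
      Divisor.degree D + 1 - γ ≤ (Module.finrank K (riemannRochSpace D) : ℤ) :=
  haveI := hx.finiteDimensional
  Fermat.Agent.RR.Riemann.riemann_inequality' (lHyp_of_isGen hx) hx.transcendental
    ((Fermat.Agent.X0.FFGenus.ff1Data hx).sum_ord_poles x hx)

end Gen

/-! ### Regular differentials -/

section Regular

variable [IsAlgClosed K] [CharZero K] {x : F}

/-- Membership in `L(div ω)`: `h • ω` is regular. -/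
theorem mem_L_canonical_iff (hx : IsGen K x) {ω : Ω[F⁄K]} (hω : ω ≠ 0) (W : Divisor K F)
    (hW : ∀ v : Place K F, W v = v.ordDifferential ω) {h : F} (hh : h ≠ 0) :
    h ∈ riemannRochSpace W ↔ ∀ v : Place K F, 0 ≤ v.ordDifferential (h • ω) := by
  rw [mem_L_iff hh]
  refine forall_congr' fun v => ?_
  rw [ordDifferential_smul' hx v hh hω, hW v]
  constructor <;> intro h' <;> omega

/-- The `K`-space of regular differentials, as the image of `L(div ω₀)` under `h ↦ h • ω₀`. -/
noncomputable def regularDifferentials (ω₀ : Ω[F⁄K]) (W : Divisor K F) : Submodule K Ω[F⁄K] :=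
  (riemannRochSpace W).map ((LinearMap.toSpanSingleton F Ω[F⁄K] ω₀).restrictScalars K)

theorem finrank_regularDifferentials {ω₀ : Ω[F⁄K]} (hω₀ : ω₀ ≠ 0) (W : Divisor K F) :
    Module.finrank K (regularDifferentials ω₀ W) = Module.finrank K (riemannRochSpace W) := by
  unfold regularDifferentials
  refine LinearEquiv.finrank_eq (Submodule.equivMapOfInjective _ ?_ _).symm
  intro a b hab
  simp only [LinearMap.coe_restrictScalars, LinearMap.toSpanSingleton_apply] at hab
  exact smul_left_injective F hω₀ hab

/-- A differential is in `regularDifferentials` iff it is zero or regular at every place. -/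
theorem mem_regularDifferentials_iff (hx : IsGen K x) {ω₀ : Ω[F⁄K]} (hω₀ : ω₀ ≠ 0)
    (W : Divisor K F) (hW : ∀ v : Place K F, W v = v.ordDifferential ω₀) {ω : Ω[F⁄K]} :
    ω ∈ regularDifferentials ω₀ W ↔ ω = 0 ∨ ∀ v : Place K F, 0 ≤ v.ordDifferential ω := by
  unfold regularDifferentials
  simp only [Submodule.mem_map, LinearMap.coe_restrictScalars, LinearMap.toSpanSingleton_apply]
  constructor
  · rintro ⟨h, hh, rfl⟩
    rcases eq_or_ne h 0 with rfl | h0
    · left; simp
    · right
      exact (mem_L_canonical_iff hx hω₀ W hW h0).mp hh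
  · rintro (rfl | hreg)
    · exact ⟨0, zero_mem _, by simp⟩
    · -- `ω = h • ω₀` since `Ω` is one-dimensional
      have hspan : ω ∈ Submodule.span F {ω₀} := by
        have htop : Submodule.span F {D K F x} = ⊤ := span_D_eq_top hx
        have hω₀' : ω₀ ∈ Submodule.span F {D K F x} := htop ▸ Submodule.mem_top
        obtain ⟨c, hc⟩ := Submodule.mem_span_singleton.mp hω₀'
        have hc0 : c ≠ 0 := by
          rintro rfl
          exact hω₀ (by rw [← hc, zero_smul])
        have hω' : ω ∈ Submodule.span F {D K F x} := htop ▸ Submodule.mem_top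
        obtain ⟨d, hd⟩ := Submodule.mem_span_singleton.mp hω'
        refine Submodule.mem_span_singleton.mpr ⟨d * c⁻¹, ?_⟩
        rw [← hc, smul_smul, mul_assoc, inv_mul_cancel₀ hc0, mul_one, hd]
      obtain ⟨h, rfl⟩ := Submodule.mem_span_singleton.mp hspan
      rcases eq_or_ne h 0 with rfl | h0
      · exact ⟨0, zero_mem _, rfl⟩
      · exact ⟨h, (mem_L_canonical_iff hx hω₀ W hW h0).mpr hreg, rfl⟩

end Regular

end Fermat.Agent.RR.LHypGen
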