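/-
Program C-RR (DUAL-a, helper17): Serre's lemma (Groupes algébriques et corps de classes, II.6).

Two `K`-linear functionals on the repartitions which both vanish on `A(D) + F` are proportional
over `F`: if `λ ≠ 0` then `μ = f • λ`, i.e. `μ α = λ (f • α)`, for some `f : F`.

Inputs (explicit hypotheses): the basic theory of `L(D)` (`LHyp`, helper13), Riemann's inequality
(C4) and the Riemann-Roch equality with the index `i(D) = dim H¹(D)` (C5).
-/
import Mathlib
import Fermat.Prelude.Def_AlgebraicCurve_Repartitions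
import Fermat.Agent.RR.LSpace

set_option autoImplicit false

open AlgebraicCurve Module

noncomputable section

namespace Fermat.Agent.RR.SerreDim

open Fermat.Agent.RR.LSpace

variable {K F : Type*} [Field K] [Field F] [Algebra K F]

/-- The repartitions (adeles) of `F / K`. -/
abbrev Rep (K F : Type*) [Field K] [Field F] [Algebra K F] : Type _ := ↥(repartitions K F)

/-- `A(D) + F` as a `K`-subspace of the repartitions. -/
abbrev AF (D : Divisor K F) : Submodule K (Rep K F) :=
  repartitionsOf D ⊔ principalRepartitions K F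

theorem coe_smul_apply (f : F) (α : Rep K F) (v : Place K F) :
    ((f • α : Rep K F) : Place K F → F) v = f * (α : Place K F → F) v := rfl

/-- Multiplication by `f : F` as a `K`-linear endomorphism of the repartitions. -/
def smulK (f : F) : Rep K F →ₗ[K] Rep K F where
  toFun α := f • α
  map_add' := smul_add f
  map_smul' c α := by
    apply Subtype.ext
    funext v
    show f * (c • (α : Place K F → F) v) = c • (f * (α : Place K F → F) v)
    rw [Algebra.smul_def, Algebra.smul_def]
    ring

@[simp] theorem smulK_apply (f : F) (α : Rep K F) : smulK f α = f • α := rfl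

theorem smulK_add (f g : F) : smulK (K := K) (f + g) = smulK f + smulK g := by
  ext α : 1
  simp [add_smul]

theorem smulK_smul (c : K) (f : F) : smulK (K := K) (c • f) = c • smulK f := by
  ext α : 1
  apply Subtype.ext
  funext v
  show (c • f) * (α : Place K F → F) v = c • (f * (α : Place K F → F) v)
  rw [Algebra.smul_def, Algebra.smul_def]
  ring

/-- `L(Δ) · A(D - Δ) ⊆ A(D)`. -/
theorem smul_mem_repartitionsOf {Δ D : Divisor K F} {f : F} (hf : f ∈ riemannRochSpace Δ)
    {α : Rep K F} (hα : α ∈ repartitionsOf (D - Δ)) : f • α ∈ repartitionsOf D := by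
  rw [mem_repartitionsOf_iff] at hα ⊢
  rw [mem_riemannRochSpace_iff] at hf
  intro v
  rw [coe_smul_apply]
  rcases hf v with hf0 | hfv
  · left; rw [hf0, zero_mul]
  rcases hα v with hα0 | hαv
  · left; rw [hα0, mul_zero]
  by_cases hf0 : f = 0
  · left; rw [hf0, zero_mul]
  by_cases hα0 : (α : Place K F → F) v = 0
  · left; rw [hα0, mul_zero]
  right
  rw [v.ord_mul hf0 hα0]
  have : (D - Δ) v = D v - Δ v := rfl
  omega

theorem smul_mem_principal (f : F) {α : Rep K F} (hα : α ∈ principalRepartitions K F) :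
    f • α ∈ principalRepartitions K F := by
  rw [mem_principalRepartitions_iff] at hα ⊢
  obtain ⟨h, hh⟩ := hα
  refine ⟨f * h, ?_⟩
  funext v
  rw [coe_smul_apply, hh]

/-- `L(Δ) · (A(D - Δ) + F) ⊆ A(D) + F`. -/
theorem smul_mem_AF {Δ D : Divisor K F} {f : F} (hf : f ∈ riemannRochSpace Δ)
    {α : Rep K F} (hα : α ∈ AF (D - Δ)) : f • α ∈ AF D := by
  obtain ⟨β, hβ, π, hπ, rfl⟩ := Submodule.mem_sup.mp hα
  rw [smul_add]
  exact Submodule.add_mem_sup (smul_mem_repartitionsOf hf hβ) (smul_mem_principal f hπ)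

/-- The map `(f, g) ↦ (α ↦ λ (f α) + μ (g α))` on `L(Δ) × L(Δ)`. -/
def pairMap (lam mu : Rep K F →ₗ[K] K) (Δ : Divisor K F) :
    (riemannRochSpace Δ × riemannRochSpace Δ) →ₗ[K] (Rep K F →ₗ[K] K) where
  toFun p := lam ∘ₗ smulK (p.1 : F) + mu ∘ₗ smulK (p.2 : F)
  map_add' p q := by
    ext α
    simp only [Prod.fst_add, Prod.snd_add, Submodule.coe_add, smulK_add, LinearMap.add_apply,
      LinearMap.comp_apply, map_add]
    ring
  map_smul' c p := by
    ext α
    simp only [Prod.smul_fst, Prod.smul_snd, Submodule.coe_smul, smulK_smul, LinearMap.add_apply,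
      LinearMap.comp_apply, LinearMap.smul_apply, map_smul, RingHom.id_apply, smul_eq_mul]
    ring

theorem pairMap_apply (lam mu : Rep K F →ₗ[K] K) (Δ : Divisor K F)
    (p : riemannRochSpace Δ × riemannRochSpace Δ) (α : Rep K F) :
    pairMap lam mu Δ p α = lam ((p.1 : F) • α) + mu ((p.2 : F) • α) := rfl

theorem pairMap_mem_dualAnnihilator {lam mu : Rep K F →ₗ[K] K} {D : Divisor K F}
    (hlam : ∀ α ∈ AF D, lam α = 0) (hmu : ∀ α ∈ AF D, mu α = 0) (Δ : Divisor K F)
    (p : riemannRochSpace Δ × riemannRochSpace Δ) :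
    pairMap lam mu Δ p ∈ (AF (D - Δ)).dualAnnihilator := by
  rw [Submodule.mem_dualAnnihilator]
  intro α hα
  rw [pairMap_apply, hlam _ (smul_mem_AF p.1.2 hα), hmu _ (smul_mem_AF p.2.2 hα), add_zero]

/-- **Serre's lemma.** -/
theorem exists_smul_eq_of_vanish (H : LHyp K F)
    (hR : ∃ γ : ℤ, ∀ D : Divisor K F,
      Divisor.degree D + 1 - γ ≤ (finrank K (riemannRochSpace D) : ℤ))
    (h5 : ∀ D : Divisor K F, Module.Finite K (H1 D) ∧
      (finrank K (riemannRochSpace D) : ℤ) - finrank K (H1 D)
        = Divisor.degree D + 1 - genusFF K F)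
    {lam mu : Rep K F →ₗ[K] K} {D : Divisor K F}
    (hlam : ∀ α ∈ repartitionsOf D ⊔ principalRepartitions K F, lam α = 0)
    (hmu : ∀ α ∈ repartitionsOf D ⊔ principalRepartitions K F, mu α = 0)
    (hlam0 : lam ≠ 0) : ∃ f : F, ∀ α : Rep K F, mu α = lam (f • α) := by
  by_contra hne
  simp only [not_exists, not_forall] at hne
  -- independence of `lam`, `mu` over `F`
  have hind : ∀ f g : F, (∀ α : Rep K F, lam (f • α) + mu (g • α) = 0) → f = 0 ∧ g = 0 := by
    intro f g hfg
    have hg : g = 0 := by
      by_contra hg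
      obtain ⟨α, hα⟩ := hne (-(f * g⁻¹))
      apply hα
      have := hfg (g⁻¹ • α)
      rw [smul_smul, smul_smul, mul_inv_cancel₀ hg, one_smul] at this
      rw [neg_smul, map_neg]
      linear_combination this
    refine ⟨?_, hg⟩
    by_contra hf
    apply hlam0
    ext α
    have := hfg (f⁻¹ • α)
    rw [smul_smul, mul_inv_cancel₀ hf, one_smul, hg, zero_smul, map_zero, add_zero] at this
    rw [this, LinearMap.zero_apply]
  obtain ⟨γ, hγ⟩ := hR
  obtain ⟨v₀⟩ := H.nonempty
  -- choose `n` large
  set n : ℤ := |Divisor.degree D| + genusFF K F + 2 * |γ| + 10 with hn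
  set Δ : Divisor K F := Finsupp.single v₀ n with hΔ
  have hdegΔ : Divisor.degree Δ = n := degree_single H v₀ n
  have hdeg : Divisor.degree (D - Δ) = Divisor.degree D - n := by
    rw [map_sub, hdegΔ]
  have hneg : Divisor.degree (D - Δ) < 0 := by
    rw [hdeg, hn]
    have := le_abs_self (Divisor.degree D)
    have := abs_nonneg γ
    omega
  -- the pairing map is injective
  have hinj : Function.Injective (pairMap lam mu Δ) := by
    rw [← LinearMap.ker_eq_bot, LinearMap.ker_eq_bot']
    intro p hp
    have h0 : ∀ α : Rep K F, lam ((p.1 : F) • α) + mu ((p.2 : F) • α) = 0 := fun α => by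
      rw [← pairMap_apply, hp, LinearMap.zero_apply]
    obtain ⟨h1, h2⟩ := hind _ _ h0
    exact Prod.ext (Subtype.ext h1) (Subtype.ext h2)
  -- dimension count
  haveI := finiteDimensional_L H Δ
  obtain ⟨hfin, hRR⟩ := h5 (D - Δ)
  haveI := hfin
  let Ψ : (riemannRochSpace Δ × riemannRochSpace Δ) →ₗ[K] (AF (D - Δ)).dualAnnihilator :=
    (pairMap lam mu Δ).codRestrict _ (pairMap_mem_dualAnnihilator hlam hmu Δ)
  have hΨ : Function.Injective Ψ := fun p q hpq => hinj (congrArg Subtype.val hpq)
  haveI : Module.Finite K (Module.Dual K (H1 (D - Δ))) := inferInstance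
  haveI : Module.Finite K (AF (D - Δ)).dualAnnihilator :=
    Module.Finite.equiv (Submodule.dualQuotEquivDualAnnihilator (AF (D - Δ)))
  have hle := LinearMap.finrank_le_finrank_of_injective hΨ
  rw [Module.finrank_prod,
    ← LinearEquiv.finrank_eq (Submodule.dualQuotEquivDualAnnihilator (AF (D - Δ))),
    Subspace.dual_finrank_eq] at hle
  -- the numbers
  have hL0 : finrank K (riemannRochSpace (D - Δ)) = 0 := by
    rw [L_eq_bot_of_degree_neg H hneg]
    exact finrank_bot K F
  have hRie := hγ Δ
  rw [hdegΔ] at hRie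
  rw [hL0, hdeg] at hRR
  have h1 := le_abs_self (Divisor.degree D)
  have h2 := neg_abs_le (Divisor.degree D)
  have h3 := le_abs_self γ
  have h4 := neg_abs_le γ
  have hle' : (finrank K (riemannRochSpace Δ) : ℤ) + finrank K (riemannRochSpace Δ)
      ≤ finrank K (H1 (D - Δ)) := by exact_mod_cast hle
  push_cast at hRR
  omega

end Fermat.Agent.RR.SerreDim
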