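/-
Program C-RR (helper13): pre-assembly of `Final.RRData K F` for a function field `F / K` with a
transcendental generator (`IsGen K x`, `K` algebraically closed of characteristic zero,
`[HasCanonicalDivisor]`), from exactly the pieces which are NOT yet hypothesis-free:

* `R : Duality.ResidueData K F`  (LOC + GLOB).

Everything else (`LHyp`, `DiffHyp`, `RepFinite`, `SerreLemma`, C5 = `hfin` + `heuler`) is discharged
here from landed files: `rrData hx R : Final.RRData K F`, and the final consumer forms
`finrank_L_canonical_eq_genus`, `riemann_roch`, `genus_eq_genusFF`, `degree_canonical` for `IsGen K x`.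
-/
import Mathlib
import Fermat.Agent.RR.Final
import Fermat.Agent.RR.SerreDim
import Fermat.Agent.RR.Adeles
import Fermat.Agent.RR.LHypGen
import Fermat.Agent.RR.H1Finite

set_option autoImplicit false
set_option linter.unusedSectionVars false

open AlgebraicCurve KaehlerDifferential IntermediateField

namespace Fermat.Agent.RR.InstPrep

open Fermat.Agent.X0.FF Fermat.Agent.RR.LSpace Fermat.Agent.RR.Duality Fermat.Agent.RR.Final

variable {K F : Type*} [Field K] [Field F] [Algebra K F]

/-- The two C5 statements, bundled in the shape used by `SerreDim`. -/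
theorem c5_and (hfin : ∀ D : Divisor K F, Module.Finite K (H1 D))
    (heuler : ∀ D : Divisor K F,
      (Module.finrank K (riemannRochSpace D) : ℤ) - Module.finrank K (H1 D) =
        Divisor.degree D + 1 - genusFF K F) :
    ∀ D : Divisor K F, Module.Finite K (H1 D) ∧
      (Module.finrank K (riemannRochSpace D) : ℤ) - Module.finrank K (H1 D)
        = Divisor.degree D + 1 - genusFF K F :=
  fun D => ⟨hfin D, heuler D⟩

/-- **Serre's lemma** in the shape `Duality.SerreLemma K F`, from `LHyp` + C4 + C5. -/
theorem serreLemma_of (H : LHyp K F)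
    (hR : ∃ γ : ℤ, ∀ D : Divisor K F,
      Divisor.degree D + 1 - γ ≤ (Module.finrank K (riemannRochSpace D) : ℤ))
    (hfin : ∀ D : Divisor K F, Module.Finite K (H1 D))
    (heuler : ∀ D : Divisor K F,
      (Module.finrank K (riemannRochSpace D) : ℤ) - Module.finrank K (H1 D) =
        Divisor.degree D + 1 - genusFF K F) : SerreLemma K F :=
  fun _ _ _ hlam hmu hlam0 =>
    Fermat.Agent.RR.SerreDim.exists_smul_eq_of_vanish H hR (c5_and hfin heuler) hlam hmu hlam0

/-- Repartitions have finitely many poles. -/
theorem repFinite_of_ff1Data (H : FF1Data K F) : RepFinite K F :=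
  fun α => (Fermat.Agent.RR.Adeles.mem_repartitions_iff H).mp α.2

/-- `DiffHyp` from the multiplicativity of `ordDifferential` and `HasCanonicalDivisor`. -/
theorem diffHyp_of_smul [HasCanonicalDivisor (K := K) (F := F)]
    (hsmul : ∀ (v : Place K F) (g : F), g ≠ 0 → ∀ ω : Ω[F⁄K], ω ≠ 0 →
      v.ordDifferential (g • ω) = v.ord g + v.ordDifferential ω) : DiffHyp K F where
  ordDifferential_smul := hsmul
  finite_support := fun ω hω => by
    refine (canonicalDivisorOf hω).support.finite_toSet.subset ?_
    intro v hv
    rw [Finset.mem_coe, Finsupp.mem_support_iff, canonicalDivisorOf_apply]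
    exact hv

section Gen

variable [IsAlgClosed K] [CharZero K] {x : F}

theorem repFinite_of_isGen (hx : IsGen K x) : RepFinite K F :=
  repFinite_of_ff1Data (Fermat.Agent.X0.FFGenus.ff1Data hx)

theorem diffHyp_of_isGen [HasCanonicalDivisor (K := K) (F := F)] (hx : IsGen K x) :
    DiffHyp K F :=
  diffHyp_of_smul fun v _ hg _ hω => ordDifferential_smul' hx v hg hω

theorem serreLemma_of_isGen (hx : IsGen K x)
    (hfin : ∀ D : Divisor K F, Module.Finite K (H1 D))
    (heuler : ∀ D : Divisor K F,
      (Module.finrank K (riemannRochSpace D) : ℤ) - Module.finrank K (H1 D) =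
        Divisor.degree D + 1 - genusFF K F) : SerreLemma K F :=
  serreLemma_of (Fermat.Agent.RR.LHypGen.lHyp_of_isGen hx)
    (Fermat.Agent.RR.LHypGen.riemann_inequality_of_isGen hx) hfin heuler

/-- All the inputs of Riemann–Roch for `IsGen K x`, from the residues and C5. -/
noncomputable def rrData_of_isGen [HasCanonicalDivisor (K := K) (F := F)] (hx : IsGen K x)
    (R : ResidueData K F) (hfin : ∀ D : Divisor K F, Module.Finite K (H1 D))
    (heuler : ∀ D : Divisor K F,
      (Module.finrank K (riemannRochSpace D) : ℤ) - Module.finrank K (H1 D) =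
        Divisor.degree D + 1 - genusFF K F) : RRData K F where
  HL := Fermat.Agent.RR.LHypGen.lHyp_of_isGen hx
  HD := diffHyp_of_isGen hx
  R := R
  hrep := repFinite_of_isGen hx
  hS := serreLemma_of_isGen hx hfin heuler
  hfin := hfin
  heuler := heuler

/-- **The S20-LOW consumer form**: for `W = div (dx)`, `l(W) = genus K F`, where
`h ∈ L(W) ↔ h = 0 ∨ h • dx is regular` (`LHypGen.mem_L_canonical_iff`). -/
theorem finrank_L_canonical_eq_genus_of_isGen [HasCanonicalDivisor (K := K) (F := F)]
    (hx : IsGen K x) (R : ResidueData K F)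
    (hfin : ∀ D : Divisor K F, Module.Finite K (H1 D))
    (heuler : ∀ D : Divisor K F,
      (Module.finrank K (riemannRochSpace D) : ℤ) - Module.finrank K (H1 D) =
        Divisor.degree D + 1 - genusFF K F)
    {ω₀ : Ω[F⁄K]} (hω₀ : ω₀ ≠ 0) {W : Divisor K F}
    (hW : ∀ v : Place K F, W v = v.ordDifferential ω₀) :
    Module.finrank K (riemannRochSpace W) = genus K F :=
  finrank_L_canonical_eq_genus (rrData_of_isGen hx R hfin heuler) hω₀ hW

end Gen

/-! ### Everything except the residues, hypothesis-free -/

section GenFull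

variable [IsAlgClosed K] [CharZero K] {x : F}

/-- (C5a) `H¹(D)` is finite-dimensional. -/
theorem hfin_of_isGen (hx : IsGen K x) (D : Divisor K F) : Module.Finite K (H1 D) :=
  Fermat.Agent.RR.H1Finite.finite_H1 (Fermat.Agent.X0.FFGenus.ff1Data hx)
    (Fermat.Agent.RR.LHypGen.lHyp_of_isGen hx)
    (Fermat.Agent.RR.LHypGen.riemann_inequality_of_isGen hx) D

/-- (C5b) `l(D) - i(D) = deg D + 1 - g`. -/
theorem heuler_of_isGen (hx : IsGen K x) (D : Divisor K F) :
    (Module.finrank K (riemannRochSpace D) : ℤ) - Module.finrank K (H1 D) =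
      Divisor.degree D + 1 - genusFF K F :=
  Fermat.Agent.RR.H1Finite.finrank_L_sub_finrank_H1 (Fermat.Agent.X0.FFGenus.ff1Data hx)
    (Fermat.Agent.RR.LHypGen.lHyp_of_isGen hx)
    (Fermat.Agent.RR.LHypGen.riemann_inequality_of_isGen hx) D

/-- Serre's lemma, hypothesis-free for `IsGen K x`. -/
theorem serreLemma_isGen (hx : IsGen K x) : SerreLemma K F :=
  serreLemma_of_isGen hx (hfin_of_isGen hx) (heuler_of_isGen hx)

variable [HasCanonicalDivisor (K := K) (F := F)]

/-- **All inputs of Riemann–Roch for `IsGen K x`, from the residue data alone.** -/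
noncomputable def rrData (hx : IsGen K x) (R : ResidueData K F) : RRData K F :=
  rrData_of_isGen hx R (hfin_of_isGen hx) (heuler_of_isGen hx)

/-- **Riemann–Roch** for `IsGen K x` (residue data as the only input). -/
theorem riemann_roch_isGen (hx : IsGen K x) (R : ResidueData K F)
    {ω₀ : Ω[F⁄K]} (hω₀ : ω₀ ≠ 0) {W : Divisor K F}
    (hW : ∀ v : Place K F, W v = v.ordDifferential ω₀) (D : Divisor K F) :
    (Module.finrank K (riemannRochSpace D) : ℤ) - Module.finrank K (riemannRochSpace (W - D)) =
      Divisor.degree D + 1 - genusFF K F :=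
  riemann_roch (rrData hx R) hω₀ hW D

/-- `genus K F = genusFF K F` for `IsGen K x`. -/
theorem genus_eq_genusFF_isGen (hx : IsGen K x) (R : ResidueData K F) :
    genus K F = genusFF K F :=
  genus_eq_genusFF (rrData hx R) ⟨D K F x, D_ne_zero hx⟩

/-- **S20-LOW consumer form**: `l(div ω₀) = genus K F` (residue data as the only input). -/
theorem finrank_L_canonical_eq_genus_isGen (hx : IsGen K x) (R : ResidueData K F)
    {ω₀ : Ω[F⁄K]} (hω₀ : ω₀ ≠ 0) {W : Divisor K F}
    (hW : ∀ v : Place K F, W v = v.ordDifferential ω₀) :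
    Module.finrank K (riemannRochSpace W) = genus K F :=
  finrank_L_canonical_eq_genus (rrData hx R) hω₀ hW

/-- The same for `ω₀ = dx` and `W = canonicalDivisorOf`, with the membership criterion:
`L(W)` is the space of `h` with `h • dx` regular, and has dimension `genus K F`. -/
theorem finrank_L_dx_eq_genus (hx : IsGen K x) (R : ResidueData K F) :
    Module.finrank K (riemannRochSpace (canonicalDivisorOf (D_ne_zero hx))) = genus K F :=
  finrank_L_canonical_eq_genus_isGen hx R (D_ne_zero hx)
    (fun v => canonicalDivisorOf_apply (D_ne_zero hx) v)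

theorem mem_L_dx_iff (hx : IsGen K x) {h : F} (hh : h ≠ 0) :
    h ∈ riemannRochSpace (canonicalDivisorOf (D_ne_zero hx)) ↔
      ∀ v : Place K F, 0 ≤ v.ordDifferential (h • D K F x) :=
  Fermat.Agent.RR.LHypGen.mem_L_canonical_iff hx (D_ne_zero hx) _
    (fun v => canonicalDivisorOf_apply (D_ne_zero hx) v) hh

theorem finiteDimensional_L_isGen (hx : IsGen K x) (D : Divisor K F) :
    FiniteDimensional K (riemannRochSpace D) :=
  finiteDimensional_L (Fermat.Agent.RR.LHypGen.lHyp_of_isGen hx) D

end GenFull

end Fermat.Agent.RR.InstPrep
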