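import Mathlib

/-!
# Commensurability of subspaces and Tate's algebras `E ⊇ E₁, E₂ ⊇ E₀` (C-RR, TRES part 1)

`A ≺ B` ("`A` is not much bigger than `B`"): `A ≤ B ⊔ W` for some finite-dimensional `W`.
For a subspace `A` of `V`:
* `E A  = {θ | θ A ≺ A}` (a subalgebra of `End V`),
* `E₁ A = {θ | θ V ≺ A}`, `E₂ A = {θ | θ A` finite-dimensional`}` (two-sided ideals of `E A`),
* `E₀ A = E₁ A ⊓ E₂ A`: the product of two elements of `E₀ A` has finite rank.
-/

set_option autoImplicit false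

namespace Fermat.Agent.RR.Commens

variable {K V : Type*} [Field K] [AddCommGroup V] [Module K V]

/-- `A ≺ B`: `A` is contained in `B` up to a finite-dimensional subspace. -/
def Prec (A B : Submodule K V) : Prop :=
  ∃ W : Submodule K V, Module.Finite K W ∧ A ≤ B ⊔ W

scoped infix:50 " ≺ " => Prec

theorem prec_of_le {A B : Submodule K V} (h : A ≤ B) : A ≺ B :=
  ⟨⊥, inferInstance, by simpa using h⟩

theorem prec_refl (A : Submodule K V) : A ≺ A := prec_of_le le_rfl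

theorem Prec.trans {A B C : Submodule K V} (h1 : A ≺ B) (h2 : B ≺ C) : A ≺ C := by
  obtain ⟨W1, hW1, h1⟩ := h1
  obtain ⟨W2, hW2, h2⟩ := h2
  refine ⟨W2 ⊔ W1, inferInstance, h1.trans ?_⟩
  rw [← sup_assoc]
  exact sup_le_sup_right h2 W1

theorem Prec.mono_left {A A' B : Submodule K V} (h : A' ≤ A) (h1 : A ≺ B) : A' ≺ B :=
  (prec_of_le h).trans h1

theorem Prec.mono_right {A B B' : Submodule K V} (h : B ≤ B') (h1 : A ≺ B) : A ≺ B' :=
  h1.trans (prec_of_le h)

theorem Prec.sup {A A' B : Submodule K V} (h1 : A ≺ B) (h2 : A' ≺ B) : A ⊔ A' ≺ B := by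
  obtain ⟨W1, hW1, h1⟩ := h1
  obtain ⟨W2, hW2, h2⟩ := h2
  refine ⟨W1 ⊔ W2, inferInstance, sup_le (h1.trans ?_) (h2.trans ?_)⟩
  · exact sup_le_sup_left le_sup_left B
  · exact sup_le_sup_left le_sup_right B

theorem prec_of_finite (W B : Submodule K V) [Module.Finite K W] : W ≺ B :=
  ⟨W, inferInstance, le_sup_right⟩

theorem prec_bot_iff {A : Submodule K V} : A ≺ ⊥ ↔ Module.Finite K A := by
  constructor
  · rintro ⟨W, hW, h⟩
    rw [bot_sup_eq] at h
    exact Submodule.finiteDimensional_of_le h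
  · intro h
    exact prec_of_finite A ⊥

theorem Prec.map {V' : Type*} [AddCommGroup V'] [Module K V'] {A B : Submodule K V}
    (h : A ≺ B) (θ : V →ₗ[K] V') : A.map θ ≺ B.map θ := by
  obtain ⟨W, hW, h⟩ := h
  refine ⟨W.map θ, inferInstance, ?_⟩
  rw [← Submodule.map_sup]
  exact Submodule.map_mono h

theorem Prec.sup_sup {A A' B B' : Submodule K V} (h1 : A ≺ B) (h2 : A' ≺ B') :
    A ⊔ A' ≺ B ⊔ B' :=
  (h1.mono_right le_sup_left).sup (h2.mono_right le_sup_right)

theorem sup_finite_prec (B W : Submodule K V) [Module.Finite K W] : B ⊔ W ≺ B :=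
  (prec_refl B).sup (prec_of_finite W B)

theorem map_add_le (A : Submodule K V) (θ φ : Module.End K V) :
    A.map (θ + φ) ≤ A.map θ ⊔ A.map φ := by
  rintro _ ⟨a, ha, rfl⟩
  exact Submodule.add_mem_sup (Submodule.mem_map_of_mem ha) (Submodule.mem_map_of_mem ha)

theorem map_smul_le (A : Submodule K V) (c : K) (θ : Module.End K V) :
    A.map (c • θ) ≤ A.map θ := by
  rintro _ ⟨a, ha, rfl⟩
  exact Submodule.smul_mem _ c (Submodule.mem_map_of_mem ha)

theorem map_mul_eq (A : Submodule K V) (θ φ : Module.End K V) :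
    A.map (θ * φ) = (A.map φ).map θ := by
  rw [Module.End.mul_eq_comp, Submodule.map_comp]

variable (A : Submodule K V)

/-- `θ ∈ E`: `θ A ≺ A`. -/
def InE (θ : Module.End K V) : Prop := A.map θ ≺ A

/-- `θ ∈ E₁`: `θ V ≺ A`. -/
def InE1 (θ : Module.End K V) : Prop := (⊤ : Submodule K V).map θ ≺ A

/-- `θ ∈ E₂`: `θ A` is finite-dimensional. -/
def InE2 (θ : Module.End K V) : Prop := A.map θ ≺ ⊥

/-- `θ ∈ E₀ = E₁ ∩ E₂`. -/
def InE0 (θ : Module.End K V) : Prop := InE1 A θ ∧ InE2 A θ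

variable {A}

theorem InE1.inE {θ : Module.End K V} (h : InE1 A θ) : InE A θ :=
  Prec.mono_left (Submodule.map_mono le_top) h

theorem InE2.inE {θ : Module.End K V} (h : InE2 A θ) : InE A θ :=
  Prec.mono_right bot_le h

theorem InE0.inE {θ : Module.End K V} (h : InE0 A θ) : InE A θ := h.1.inE

/-! ### `E` is a subalgebra -/

theorem inE_one : InE A (1 : Module.End K V) := by
  unfold InE
  rw [Module.End.one_eq_id, Submodule.map_id]
  exact prec_refl A

theorem inE_zero : InE A (0 : Module.End K V) := by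
  unfold InE
  rw [Submodule.map_zero]
  exact prec_of_le bot_le

theorem InE.add {θ φ : Module.End K V} (h1 : InE A θ) (h2 : InE A φ) : InE A (θ + φ) :=
  Prec.mono_left (map_add_le A θ φ) (h1.sup h2)

theorem InE.smul {θ : Module.End K V} (c : K) (h1 : InE A θ) : InE A (c • θ) :=
  Prec.mono_left (map_smul_le A c θ) h1

theorem InE.neg {θ : Module.End K V} (h1 : InE A θ) : InE A (-θ) := by
  have := h1.smul (-1 : K)
  rwa [neg_one_smul] at this

theorem InE.sub {θ φ : Module.End K V} (h1 : InE A θ) (h2 : InE A φ) : InE A (θ - φ) := by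
  rw [sub_eq_add_neg]; exact h1.add h2.neg

theorem InE.mul {θ φ : Module.End K V} (h1 : InE A θ) (h2 : InE A φ) : InE A (θ * φ) := by
  unfold InE
  rw [map_mul_eq]
  exact (Prec.map h2 θ).trans h1

theorem InE.pow {θ : Module.End K V} (h1 : InE A θ) (n : ℕ) : InE A (θ ^ n) := by
  induction n with
  | zero => rw [pow_zero]; exact inE_one
  | succ n ih => rw [pow_succ]; exact ih.mul h1

/-! ### `E₁` -/

theorem inE1_zero : InE1 A (0 : Module.End K V) := by
  unfold InE1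
  rw [Submodule.map_zero]
  exact prec_of_le bot_le

theorem InE1.add {θ φ : Module.End K V} (h1 : InE1 A θ) (h2 : InE1 A φ) : InE1 A (θ + φ) :=
  Prec.mono_left (map_add_le ⊤ θ φ) (h1.sup h2)

theorem InE1.smul {θ : Module.End K V} (c : K) (h1 : InE1 A θ) : InE1 A (c • θ) :=
  Prec.mono_left (map_smul_le ⊤ c θ) h1

theorem InE1.neg {θ : Module.End K V} (h1 : InE1 A θ) : InE1 A (-θ) := by
  have := h1.smul (-1 : K)
  rwa [neg_one_smul] at this

theorem InE1.sub {θ φ : Module.End K V} (h1 : InE1 A θ) (h2 : InE1 A φ) : InE1 A (θ - φ) := by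
  rw [sub_eq_add_neg]; exact h1.add h2.neg

/-- `E₁` is a left ideal of `E`. -/
theorem InE1.mul_left {θ φ : Module.End K V} (hφ : InE1 A φ) (hθ : InE A θ) :
    InE1 A (θ * φ) := by
  unfold InE1
  rw [map_mul_eq]
  exact (Prec.map hφ θ).trans hθ

/-- `E₁` is a right ideal (of all of `End V`). -/
theorem InE1.mul_right {φ : Module.End K V} (hφ : InE1 A φ) (θ : Module.End K V) :
    InE1 A (φ * θ) := by
  unfold InE1
  rw [map_mul_eq]
  exact Prec.mono_left (Submodule.map_mono le_top) hφ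

/-! ### `E₂` -/

theorem inE2_zero : InE2 A (0 : Module.End K V) := by
  unfold InE2
  rw [Submodule.map_zero]
  exact prec_refl ⊥

theorem InE2.add {θ φ : Module.End K V} (h1 : InE2 A θ) (h2 : InE2 A φ) : InE2 A (θ + φ) :=
  Prec.mono_left (map_add_le A θ φ) (h1.sup h2)

theorem InE2.smul {θ : Module.End K V} (c : K) (h1 : InE2 A θ) : InE2 A (c • θ) :=
  Prec.mono_left (map_smul_le A c θ) h1

theorem InE2.neg {θ : Module.End K V} (h1 : InE2 A θ) : InE2 A (-θ) := by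
  have := h1.smul (-1 : K)
  rwa [neg_one_smul] at this

theorem InE2.sub {θ φ : Module.End K V} (h1 : InE2 A θ) (h2 : InE2 A φ) : InE2 A (θ - φ) := by
  rw [sub_eq_add_neg]; exact h1.add h2.neg

/-- `E₂` is a left ideal (of all of `End V`). -/
theorem InE2.mul_left {φ : Module.End K V} (hφ : InE2 A φ) (θ : Module.End K V) :
    InE2 A (θ * φ) := by
  unfold InE2
  rw [map_mul_eq]
  have := Prec.map hφ θ
  rwa [Submodule.map_bot] at this

/-- `E₂` is a right ideal of `E`. -/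
theorem InE2.mul_right {θ φ : Module.End K V} (hφ : InE2 A φ) (hθ : InE A θ) :
    InE2 A (φ * θ) := by
  unfold InE2
  rw [map_mul_eq]
  obtain ⟨W, hW, h⟩ := hθ
  refine Prec.mono_left (Submodule.map_mono h) ?_
  rw [Submodule.map_sup]
  exact hφ.sup (prec_of_finite _ _)

/-! ### `E₀` -/

theorem inE0_zero : InE0 A (0 : Module.End K V) := ⟨inE1_zero, inE2_zero⟩

theorem InE0.add {θ φ : Module.End K V} (h1 : InE0 A θ) (h2 : InE0 A φ) : InE0 A (θ + φ) :=
  ⟨h1.1.add h2.1, h1.2.add h2.2⟩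

theorem InE0.smul {θ : Module.End K V} (c : K) (h1 : InE0 A θ) : InE0 A (c • θ) :=
  ⟨h1.1.smul c, h1.2.smul c⟩

theorem InE0.neg {θ : Module.End K V} (h1 : InE0 A θ) : InE0 A (-θ) := ⟨h1.1.neg, h1.2.neg⟩

theorem InE0.sub {θ φ : Module.End K V} (h1 : InE0 A θ) (h2 : InE0 A φ) : InE0 A (θ - φ) :=
  ⟨h1.1.sub h2.1, h1.2.sub h2.2⟩

theorem InE0.mul_left {θ φ : Module.End K V} (hφ : InE0 A φ) (hθ : InE A θ) :
    InE0 A (θ * φ) := ⟨hφ.1.mul_left hθ, hφ.2.mul_left θ⟩

theorem InE0.mul_right {θ φ : Module.End K V} (hφ : InE0 A φ) (hθ : InE A θ) :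
    InE0 A (φ * θ) := ⟨hφ.1.mul_right θ, hφ.2.mul_right hθ⟩

/-- `E₁ E₂ ⊆ E₀` and `E₂ E₁ ⊆ E₀`. -/
theorem InE1.mul_inE2 {θ φ : Module.End K V} (hθ : InE1 A θ) (hφ : InE2 A φ) :
    InE0 A (θ * φ) := ⟨hθ.mul_right φ, hφ.mul_left θ⟩

theorem InE2.mul_inE1 {θ φ : Module.End K V} (hθ : InE2 A θ) (hφ : InE1 A φ) :
    InE0 A (θ * φ) := ⟨hφ.mul_left hθ.inE, hθ.mul_right hφ.inE⟩

/-- The product of an element of `E₂` and an element of `E₁` has finite rank. -/
theorem finite_range_mul {θ φ : Module.End K V} (hθ : InE2 A θ) (hφ : InE1 A φ) :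
    Module.Finite K (LinearMap.range (θ * φ)) := by
  rw [← Submodule.map_top, map_mul_eq, ← prec_bot_iff]
  obtain ⟨W, hW, h⟩ := hφ
  refine Prec.mono_left (Submodule.map_mono h) ?_
  rw [Submodule.map_sup]
  exact hθ.sup (prec_of_finite _ _)

/-- The product of two elements of `E₀` has finite rank. -/
theorem InE0.finite_range_mul {θ φ : Module.End K V} (hθ : InE0 A θ) (hφ : InE0 A φ) :
    Module.Finite K (LinearMap.range (θ * φ)) :=
  Commens.finite_range_mul hθ.2 hφ.1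

/-- `π` is a projection of `V` onto `A`. -/
structure IsProj (A : Submodule K V) (π : Module.End K V) : Prop where
  range_le : ∀ v, π v ∈ A
  apply_mem : ∀ a ∈ A, π a = a

theorem exists_isProj (A : Submodule K V) : ∃ π : Module.End K V, IsProj A π := by
  obtain ⟨B, hB⟩ := Submodule.exists_isCompl A
  refine ⟨A.subtype ∘ₗ Submodule.projectionOnto A B hB, ?_, ?_⟩
  · intro v
    exact (Submodule.projectionOnto A B hB v).2
  · intro a ha
    show ((Submodule.projectionOnto A B hB a : A) : V) = a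
    rw [Submodule.projectionOnto_apply_of_mem_left hB ha]

variable {A : Submodule K V} {π : Module.End K V}

theorem IsProj.map_top_le (h : IsProj A π) : (⊤ : Submodule K V).map π ≤ A := by
  rintro _ ⟨v, -, rfl⟩
  exact h.range_le v

theorem IsProj.inE1 (h : IsProj A π) : InE1 A π := prec_of_le h.map_top_le

theorem IsProj.inE (h : IsProj A π) : InE A π := h.inE1.inE

theorem IsProj.one_sub_inE2 (h : IsProj A π) : InE2 A (1 - π) := by
  unfold InE2
  have : A.map (1 - π) ≤ ⊥ := by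
    rintro _ ⟨a, ha, rfl⟩
    simp [h.apply_mem a ha]
  exact prec_of_le this

theorem IsProj.mul_inE1 (h : IsProj A π) (θ : Module.End K V) : InE1 A (π * θ) :=
  h.inE1.mul_right θ

theorem IsProj.sub_mul_inE2 (h : IsProj A π) {θ : Module.End K V} (hθ : InE A θ) :
    InE2 A (θ - π * θ) := by
  have : θ - π * θ = (1 - π) * θ := by rw [sub_mul, one_mul]
  rw [this]
  exact h.one_sub_inE2.mul_right hθ

/-- Two projections onto `A` differ by an element of `E₀`. -/
theorem IsProj.sub_inE0 {π' : Module.End K V} (h : IsProj A π) (h' : IsProj A π') :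
    InE0 A (π - π') := by
  refine ⟨h.inE1.sub h'.inE1, ?_⟩
  unfold InE2
  have : A.map (π - π') ≤ ⊥ := by
    rintro _ ⟨a, ha, rfl⟩
    simp [h.apply_mem a ha, h'.apply_mem a ha]
  exact prec_of_le this

/-- `E = E₁ + E₂`. -/
theorem InE.exists_decomp {θ : Module.End K V} (hθ : InE A θ) :
    ∃ θ₁ θ₂ : Module.End K V, InE1 A θ₁ ∧ InE2 A θ₂ ∧ θ = θ₁ + θ₂ := by
  obtain ⟨π, hπ⟩ := exists_isProj A
  exact ⟨π * θ, θ - π * θ, hπ.mul_inE1 θ, hπ.sub_mul_inE2 hθ, by abel⟩

/-- If `f₁ ∈ E₁` (or `g₁ ∈ E₁`), `f₁, g₁ ∈ E` and `[f₁, g₁] ∈ E₂`, then `[f₁, g₁] ∈ E₀`. -/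
theorem commutator_inE0_left {f₁ g₁ : Module.End K V} (hf : InE1 A f₁) (hg : InE A g₁)
    (h2 : InE2 A (f₁ * g₁ - g₁ * f₁)) : InE0 A (f₁ * g₁ - g₁ * f₁) :=
  ⟨(hf.mul_right g₁).sub (hf.mul_left hg), h2⟩

theorem commutator_inE0_right {f₁ g₁ : Module.End K V} (hf : InE A f₁) (hg : InE1 A g₁)
    (h2 : InE2 A (f₁ * g₁ - g₁ * f₁)) : InE0 A (f₁ * g₁ - g₁ * f₁) :=
  ⟨(hg.mul_left hf).sub (hg.mul_right f₁), h2⟩

/-- If `f ≡ f₁`, `g ≡ g₁ (mod E₂)` with `f g = g f` and all in `E`, then `[f₁, g₁] ∈ E₂`. -/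
theorem commutator_inE2 {f g f₁ g₁ : Module.End K V} (hfg : f * g = g * f)
    (hf₁ : InE A f₁) (hg₁ : InE A g₁)
    (hff : InE2 A (f₁ - f)) (hgg : InE2 A (g₁ - g)) : InE2 A (f₁ * g₁ - g₁ * f₁) := by
  have key : f₁ * g₁ - g₁ * f₁ =
      (f₁ - f) * g₁ + f * (g₁ - g) - (g₁ - g) * f₁ - g * (f₁ - f) := by
    have : f * g - g * f = 0 := sub_eq_zero.mpr hfg
    calc f₁ * g₁ - g₁ * f₁ = (f₁ - f) * g₁ + f * (g₁ - g) - (g₁ - g) * f₁ - g * (f₁ - f)
          + (f * g - g * f) := by noncomm_ring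
      _ = _ := by rw [this, add_zero]
  rw [key]
  exact (((hff.mul_right hg₁).add (hgg.mul_left f)).sub (hgg.mul_right hf₁)).sub
    (hff.mul_left g)

end Fermat.Agent.RR.Commens
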