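import Mathlib

/-!
# Finite-potent endomorphisms and their traces (Tate)

`θ : End K V` is finite potent when some power has finite-dimensional range.  Its trace
`fpTrace θ` is the trace of `θ` on any finite-dimensional stable subspace containing the range
of a power of `θ` (a *core*).
-/

set_option autoImplicit false
set_option linter.style.haveILetI false
set_option linter.unusedSectionVars false

open LinearMap Module

namespace Fermat.Agent.RR

section FD

variable {K : Type*} [Field K] {M : Type*} [AddCommGroup M] [Module K M] [FiniteDimensional K M]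

/-- Additivity of the trace over a stable subspace, finite-dimensional case. -/
theorem fd_trace_eq_add (f : Module.End K M) (W : Submodule K M) (hW : ∀ x ∈ W, f x ∈ W) :
    trace K M f = trace K W (f.restrict hW) + trace K (M ⧸ W) (W.mapQ W f hW) := by
  obtain ⟨C, hC⟩ := W.exists_isCompl
  -- projections as endomorphisms
  set p : Module.End K M := W.projection C hC with hp
  set q : Module.End K M := C.projection W hC.symm with hq
  have hpq : p + q = 1 := Submodule.projection_add_projection_eq_id hC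
  have hpW : ∀ w ∈ W, p w = w := fun w hw => Submodule.projection_apply_left hC ⟨w, hw⟩
  have hqC : ∀ c ∈ C, q c = c := fun c hc => Submodule.projection_apply_left hC.symm ⟨c, hc⟩
  have hpmem : ∀ x, p x ∈ W := fun x => Submodule.projection_apply_mem hC x
  have hqmem : ∀ x, q x ∈ C := fun x => Submodule.projection_apply_mem hC.symm x
  have hqW : ∀ w ∈ W, q w = 0 := by
    intro w hw
    have h := congrArg (fun g : Module.End K M => g w) hpq
    simp only [LinearMap.add_apply, Module.End.one_apply, hpW w hw] at h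
    simpa using h
  have hqp : q * p = 0 := by
    ext x
    simp only [Module.End.mul_apply, LinearMap.zero_apply]
    exact hqW _ (hpmem x)
  have hqq : q * q = q := by
    ext x
    simp only [Module.End.mul_apply]
    exact hqC _ (hqmem x)
  -- split the trace
  have h1 : trace K M f = trace K M (f * p) + trace K M (f * q) := by
    rw [← map_add, ← mul_add, hpq, mul_one]
  -- the first term
  have h2 : trace K M (f * p) = trace K W (f.restrict hW) := by
    have hmem : ∀ x, (f * p) x ∈ W := fun x => hW _ (hpmem x)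
    rw [← trace_restrict_eq_of_forall_mem W (f * p) hmem]
    congr 1
    ext ⟨w, hw⟩
    simp [LinearMap.restrict_apply, hpW w hw]
  -- the second term
  have h3 : trace K M (f * q) = trace K M (q * f * q) := by
    have : f * q = p * (f * q) + q * f * q := by
      rw [mul_assoc, ← add_mul, hpq, one_mul]
    rw [this, map_add, trace_mul_comm, mul_assoc f, hqp, mul_zero, map_zero, zero_add]
  have h4 : trace K M (q * f * q) = trace K (M ⧸ W) (W.mapQ W f hW) := by
    have hmem : ∀ x, (q * f * q) x ∈ C := fun x => hqmem _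
    rw [← trace_restrict_eq_of_forall_mem C (q * f * q) hmem]
    let e : (M ⧸ W) ≃ₗ[K] C := Submodule.quotientEquivOfIsCompl W C hC
    rw [← trace_conj' (W.mapQ W f hW) e]
    congr 1
    ext ⟨c, hc⟩
    simp only [LinearMap.restrict_apply, Module.End.mul_apply, hqC c hc, LinearEquiv.conj_apply,
      LinearMap.coe_comp, LinearEquiv.coe_coe, Function.comp_apply]
    have hsymm : e.symm ⟨c, hc⟩ = Submodule.Quotient.mk c := by
      rw [LinearEquiv.symm_apply_eq]
      exact (Submodule.quotientEquivOfIsCompl_apply_mk_right hC ⟨c, hc⟩).symm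
    rw [hsymm, Submodule.mapQ_apply]
    -- `f c = p (f c) + q (f c)`
    have hdec : p (f c) + q (f c) = f c := by
      have h := congrArg (fun g : Module.End K M => g (f c)) hpq
      simpa using h
    have : (Submodule.Quotient.mk (f c) : M ⧸ W) = Submodule.Quotient.mk (q (f c)) := by
      rw [Submodule.Quotient.eq]
      have : f c - q (f c) = p (f c) := sub_eq_of_eq_add hdec.symm
      rw [this]
      exact hpmem _
    rw [this]
    exact (congrArg Subtype.val
      (Submodule.quotientEquivOfIsCompl_apply_mk_right hC ⟨q (f c), hqmem _⟩)).symm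
  rw [h1, h2, h3, h4]

/-- Conjugation invariance of the restricted trace: if `e : U ≃ U'` intertwines `f` and `g`. -/
theorem fd_trace_eq_of_equiv {M' : Type*} [AddCommGroup M'] [Module K M']
    (f : Module.End K M) (g : Module.End K M') (e : M ≃ₗ[K] M') (h : ∀ x, e (f x) = g (e x)) :
    trace K M f = trace K M' g := by
  rw [← trace_conj' f e]
  congr 1
  ext y
  simp only [LinearEquiv.conj_apply, LinearMap.coe_comp, LinearEquiv.coe_coe, Function.comp_apply]
  rw [h, LinearEquiv.apply_symm_apply]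

end FD

section FP

variable {K : Type*} [Field K] {V : Type*} [AddCommGroup V] [Module K V]

/-- `θ` has finite rank. -/
def FiniteRank (θ : Module.End K V) : Prop := FiniteDimensional K (LinearMap.range θ)

/-- A *core* of `θ`: a finite-dimensional `θ`-stable subspace containing the range of a power. -/
structure IsCore (θ : Module.End K V) (U : Submodule K V) : Prop where
  finite : FiniteDimensional K U
  stable : ∀ x ∈ U, θ x ∈ U
  absorbs : ∃ n : ℕ, LinearMap.range (θ ^ n) ≤ U

/-- `θ` is finite potent: some power has finite rank. -/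
def IsFinitePotent (θ : Module.End K V) : Prop := ∃ U : Submodule K V, IsCore θ U

theorem range_pow_succ_le (θ : Module.End K V) (n : ℕ) :
    LinearMap.range (θ ^ (n + 1)) ≤ LinearMap.range (θ ^ n) := by
  rintro _ ⟨x, rfl⟩
  exact ⟨θ x, by rw [pow_succ, Module.End.mul_apply]⟩

theorem range_pow_le_of_le (θ : Module.End K V) {m n : ℕ} (h : m ≤ n) :
    LinearMap.range (θ ^ n) ≤ LinearMap.range (θ ^ m) := by
  induction n, h using Nat.le_induction with
  | base => exact le_rfl
  | succ n _ ih => exact (range_pow_succ_le θ n).trans ih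

theorem map_range_pow_le (θ : Module.End K V) (n : ℕ) :
    ∀ x ∈ LinearMap.range (θ ^ n), θ x ∈ LinearMap.range (θ ^ n) := by
  rintro _ ⟨x, rfl⟩
  exact ⟨θ x, by rw [← Module.End.mul_apply, ← Module.End.mul_apply, ← pow_succ, ← pow_succ']⟩

theorem isCore_range_pow (θ : Module.End K V) (n : ℕ)
    (h : FiniteDimensional K (LinearMap.range (θ ^ n))) : IsCore θ (LinearMap.range (θ ^ n)) :=
  ⟨h, map_range_pow_le θ n, n, le_rfl⟩

theorem isFinitePotent_iff (θ : Module.End K V) :
    IsFinitePotent θ ↔ ∃ n : ℕ, FiniteDimensional K (LinearMap.range (θ ^ n)) := by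
  constructor
  · rintro ⟨U, hU⟩
    obtain ⟨n, hn⟩ := hU.absorbs
    haveI := hU.finite
    exact ⟨n, Submodule.finiteDimensional_of_le hn⟩
  · rintro ⟨n, hn⟩
    exact ⟨_, isCore_range_pow θ n hn⟩

theorem IsCore.sup {θ : Module.End K V} {U U' : Submodule K V} (hU : IsCore θ U)
    (hU' : IsCore θ U') : IsCore θ (U ⊔ U') := by
  haveI := hU.finite
  haveI := hU'.finite
  refine ⟨inferInstance, ?_, ?_⟩
  · intro x hx
    obtain ⟨u, hu, u', hu', rfl⟩ := Submodule.mem_sup.mp hx
    rw [map_add]
    exact Submodule.add_mem_sup (hU.stable u hu) (hU'.stable u' hu')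
  · obtain ⟨n, hn⟩ := hU.absorbs
    exact ⟨n, hn.trans le_sup_left⟩

/-- The trace of `θ` on a stable finite-dimensional subspace. -/
noncomputable def traceOn (θ : Module.End K V) (U : Submodule K V) (hU : ∀ x ∈ U, θ x ∈ U) : K :=
  trace K U (θ.restrict hU)

/-- Two cores, one inside the other, give the same trace. -/
theorem traceOn_eq_of_le {θ : Module.End K V} {U U' : Submodule K V} (hU : IsCore θ U)
    (hU' : IsCore θ U') (hle : U ≤ U') :
    traceOn θ U hU.stable = traceOn θ U' hU'.stable := by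
  haveI := hU.finite
  haveI := hU'.finite
  -- work inside `U'`
  set f : Module.End K U' := θ.restrict hU'.stable with hf
  set W : Submodule K U' := U.comap U'.subtype with hWdef
  have hW : ∀ x ∈ W, f x ∈ W := by
    intro x hx
    exact hU.stable _ hx
  have hadd := fd_trace_eq_add f W hW
  -- the quotient part is nilpotent
  have hnil : IsNilpotent (W.mapQ W f hW) := by
    obtain ⟨n, hn⟩ := hU.absorbs
    refine ⟨n, ?_⟩
    have hpow : ∀ (k : ℕ) (x : U'), ((f ^ k) x : V) = (θ ^ k) (x : V) := by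
      intro k
      induction k with
      | zero => intro x; simp
      | succ k ih =>
        intro x
        rw [pow_succ', Module.End.mul_apply, pow_succ', Module.End.mul_apply, ← ih]
        rfl
    have hle' : W ≤ W.comap (f ^ n) := by
      intro x _
      show ((f ^ n) x : V) ∈ U
      rw [hpow]
      exact hn ⟨_, rfl⟩
    rw [← Submodule.mapQ_pow W hW n hle']
    ext x
    rw [LinearMap.comp_apply, Submodule.mkQ_apply, Submodule.mapQ_apply]
    simp only [LinearMap.zero_comp, LinearMap.zero_apply]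
    rw [Submodule.Quotient.mk_eq_zero]
    show ((f ^ n) x : V) ∈ U
    rw [hpow]
    exact hn ⟨_, rfl⟩
  have hzero : trace K (U' ⧸ W) (W.mapQ W f hW) = 0 :=
    (isNilpotent_trace_of_isNilpotent hnil).eq_zero
  -- the restricted part is the trace on `U`
  have hres : trace K W (f.restrict hW) = traceOn θ U hU.stable := by
    let e : W ≃ₗ[K] U := Submodule.comapSubtypeEquivOfLe hle
    exact fd_trace_eq_of_equiv _ _ e (fun x => rfl)
  show traceOn θ U hU.stable = trace K U' f
  rw [hadd, hzero, add_zero, hres]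

theorem traceOn_eq_of_isCore {θ : Module.End K V} {U U' : Submodule K V} (hU : IsCore θ U)
    (hU' : IsCore θ U') : traceOn θ U hU.stable = traceOn θ U' hU'.stable := by
  rw [traceOn_eq_of_le hU (hU.sup hU') le_sup_left, traceOn_eq_of_le hU' (hU.sup hU') le_sup_right]

open Classical in
/-- The trace of a finite-potent endomorphism (`0` if `θ` is not finite potent). -/
noncomputable def fpTrace (θ : Module.End K V) : K :=
  if h : IsFinitePotent θ then traceOn θ h.choose h.choose_spec.stable else 0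

theorem fpTrace_eq_traceOn {θ : Module.End K V} {U : Submodule K V} (hU : IsCore θ U) :
    fpTrace θ = traceOn θ U hU.stable := by
  have h : IsFinitePotent θ := ⟨U, hU⟩
  rw [fpTrace, dif_pos h]
  exact traceOn_eq_of_isCore h.choose_spec hU

theorem fpTrace_of_not {θ : Module.End K V} (h : ¬ IsFinitePotent θ) : fpTrace θ = 0 := by
  rw [fpTrace, dif_neg h]

/-! ### Basic properties -/

theorem isCore_bot_of_pow_eq_zero {θ : Module.End K V} {n : ℕ} (h : θ ^ n = 0) :
    IsCore θ (⊥ : Submodule K V) := by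
  refine ⟨inferInstance, ?_, n, ?_⟩
  · intro x hx
    rw [(Submodule.mem_bot K).mp hx, map_zero]
    exact Submodule.zero_mem _
  · rw [h, LinearMap.range_zero]

theorem fpTrace_eq_zero_of_pow_eq_zero {θ : Module.End K V} {n : ℕ} (h : θ ^ n = 0) :
    fpTrace θ = 0 := by
  rw [fpTrace_eq_traceOn (isCore_bot_of_pow_eq_zero h), traceOn]
  have : θ.restrict (isCore_bot_of_pow_eq_zero h).stable = 0 := Subsingleton.elim _ _
  rw [this, map_zero]

theorem fpTrace_eq_zero_of_isNilpotent {θ : Module.End K V} (h : IsNilpotent θ) :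
    fpTrace θ = 0 := by
  obtain ⟨n, hn⟩ := h
  exact fpTrace_eq_zero_of_pow_eq_zero hn

@[simp]
theorem fpTrace_zero : fpTrace (0 : Module.End K V) = 0 :=
  fpTrace_eq_zero_of_pow_eq_zero (n := 1) (by simp)

theorem isCore_top [FiniteDimensional K V] (θ : Module.End K V) : IsCore θ ⊤ :=
  ⟨inferInstance, fun _ _ => Submodule.mem_top, 0, le_top⟩

theorem fpTrace_eq_trace [FiniteDimensional K V] (θ : Module.End K V) :
    fpTrace θ = trace K V θ := by
  rw [fpTrace_eq_traceOn (isCore_top θ), traceOn]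
  exact fd_trace_eq_of_equiv _ _ (Submodule.topEquiv) (fun x => rfl)

theorem FiniteRank.isCore_range {θ : Module.End K V} (h : FiniteRank θ) :
    IsCore θ (LinearMap.range θ) := by
  have := isCore_range_pow θ 1 (by rwa [pow_one])
  rwa [pow_one] at this

theorem FiniteRank.isFinitePotent {θ : Module.End K V} (h : FiniteRank θ) : IsFinitePotent θ :=
  ⟨_, h.isCore_range⟩

theorem finiteRank_of_range_le {θ : Module.End K V} {U : Submodule K V} [FiniteDimensional K U]
    (h : LinearMap.range θ ≤ U) : FiniteRank θ :=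
  Submodule.finiteDimensional_of_le h

theorem FiniteRank.mul_left {θ : Module.End K V} (h : FiniteRank θ) (φ : Module.End K V) :
    FiniteRank (φ * θ) := by
  haveI : FiniteDimensional K (LinearMap.range θ) := h
  have : LinearMap.range (φ * θ) = (LinearMap.range θ).map φ := by
    rw [Module.End.mul_eq_comp, LinearMap.range_comp]
  unfold FiniteRank
  rw [this]
  infer_instance

theorem FiniteRank.mul_right {θ : Module.End K V} (h : FiniteRank θ) (φ : Module.End K V) :
    FiniteRank (θ * φ) := by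
  haveI : FiniteDimensional K (LinearMap.range θ) := h
  refine finiteRank_of_range_le (U := LinearMap.range θ) ?_
  rintro _ ⟨x, rfl⟩
  exact ⟨φ x, rfl⟩

theorem FiniteRank.add {θ θ' : Module.End K V} (h : FiniteRank θ) (h' : FiniteRank θ') :
    FiniteRank (θ + θ') := by
  haveI : FiniteDimensional K (LinearMap.range θ) := h
  haveI : FiniteDimensional K (LinearMap.range θ') := h'
  refine finiteRank_of_range_le (U := LinearMap.range θ ⊔ LinearMap.range θ') ?_
  rintro _ ⟨x, rfl⟩
  exact Submodule.add_mem_sup ⟨x, rfl⟩ ⟨x, rfl⟩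

theorem FiniteRank.smul {θ : Module.End K V} (h : FiniteRank θ) (c : K) :
    FiniteRank (c • θ) := by
  haveI : FiniteDimensional K (LinearMap.range θ) := h
  refine finiteRank_of_range_le (U := LinearMap.range θ) ?_
  rintro _ ⟨x, rfl⟩
  exact ⟨c • x, by simp⟩

theorem FiniteRank.neg {θ : Module.End K V} (h : FiniteRank θ) : FiniteRank (-θ) := by
  have := h.smul (-1 : K)
  rwa [neg_one_smul] at this

theorem FiniteRank.sub {θ θ' : Module.End K V} (h : FiniteRank θ) (h' : FiniteRank θ') :
    FiniteRank (θ - θ') := by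
  rw [sub_eq_add_neg]
  exact h.add h'.neg

theorem finiteRank_zero : FiniteRank (0 : Module.End K V) := by
  unfold FiniteRank
  rw [LinearMap.range_zero]
  infer_instance

/-! ### Scalar multiples -/

theorem IsCore.smul {θ : Module.End K V} {U : Submodule K V} (hU : IsCore θ U) (c : K) :
    IsCore (c • θ) U := by
  refine ⟨hU.finite, fun x hx => ?_, ?_⟩
  · rw [LinearMap.smul_apply]
    exact U.smul_mem c (hU.stable x hx)
  · obtain ⟨n, hn⟩ := hU.absorbs
    refine ⟨n, ?_⟩
    rintro _ ⟨x, rfl⟩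
    rw [smul_pow, LinearMap.smul_apply]
    exact U.smul_mem _ (hn ⟨x, rfl⟩)

theorem fpTrace_smul (c : K) (θ : Module.End K V) : fpTrace (c • θ) = c * fpTrace θ := by
  by_cases hc : c = 0
  · rw [hc, zero_smul, zero_mul, fpTrace_zero]
  by_cases h : IsFinitePotent θ
  · obtain ⟨U, hU⟩ := h
    rw [fpTrace_eq_traceOn hU, fpTrace_eq_traceOn (hU.smul c), traceOn, traceOn, ← smul_eq_mul,
      ← map_smul]
    rfl
  · have h' : ¬ IsFinitePotent (c • θ) := by
      rintro ⟨U, hU⟩
      apply h
      have := hU.smul c⁻¹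
      rw [smul_smul, inv_mul_cancel₀ hc, one_smul] at this
      exact ⟨U, this⟩
    rw [fpTrace_of_not h, fpTrace_of_not h', mul_zero]

theorem fpTrace_neg (θ : Module.End K V) : fpTrace (-θ) = -fpTrace θ := by
  rw [← neg_one_smul K θ, fpTrace_smul, neg_one_mul]

/-! ### Additivity -/

/-- If all products of two elements among `θ₁, θ₂` have finite rank, the trace is additive. -/
theorem fpTrace_add {θ₁ θ₂ : Module.End K V} (h11 : FiniteRank (θ₁ * θ₁))
    (h12 : FiniteRank (θ₁ * θ₂)) (h21 : FiniteRank (θ₂ * θ₁)) (h22 : FiniteRank (θ₂ * θ₂)) :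
    fpTrace (θ₁ + θ₂) = fpTrace θ₁ + fpTrace θ₂ := by
  haveI : FiniteDimensional K (LinearMap.range (θ₁ * θ₁)) := h11
  haveI : FiniteDimensional K (LinearMap.range (θ₁ * θ₂)) := h12
  haveI : FiniteDimensional K (LinearMap.range (θ₂ * θ₁)) := h21
  haveI : FiniteDimensional K (LinearMap.range (θ₂ * θ₂)) := h22
  set W : Submodule K V := LinearMap.range (θ₁ * θ₁) ⊔ LinearMap.range (θ₁ * θ₂) ⊔
    LinearMap.range (θ₂ * θ₁) ⊔ LinearMap.range (θ₂ * θ₂) with hW
  have hfin : FiniteDimensional K W := by rw [hW]; infer_instance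
  have m11 : ∀ x, θ₁ (θ₁ x) ∈ W := fun x =>
    Submodule.mem_sup_left (Submodule.mem_sup_left (Submodule.mem_sup_left ⟨x, rfl⟩))
  have m12 : ∀ x, θ₁ (θ₂ x) ∈ W := fun x =>
    Submodule.mem_sup_left (Submodule.mem_sup_left (Submodule.mem_sup_right ⟨x, rfl⟩))
  have m21 : ∀ x, θ₂ (θ₁ x) ∈ W := fun x =>
    Submodule.mem_sup_left (Submodule.mem_sup_right ⟨x, rfl⟩)
  have m22 : ∀ x, θ₂ (θ₂ x) ∈ W := fun x => Submodule.mem_sup_right ⟨x, rfl⟩
  have hmem : ∀ x ∈ W, ∃ a b, x = θ₁ a + θ₂ b := by
    intro x hx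
    rw [hW] at hx
    obtain ⟨y3, hy3, z4, ⟨d, hd⟩, rfl⟩ := Submodule.mem_sup.mp hx
    obtain ⟨y2, hy2, z3, ⟨c, hc⟩, rfl⟩ := Submodule.mem_sup.mp hy3
    obtain ⟨z1, ⟨a, ha⟩, z2, ⟨b, hb⟩, rfl⟩ := Submodule.mem_sup.mp hy2
    refine ⟨θ₁ a + θ₂ b, θ₁ c + θ₂ d, ?_⟩
    rw [← ha, ← hb, ← hc, ← hd]
    simp only [Module.End.mul_apply, map_add]
    abel
  have s1 : ∀ x ∈ W, θ₁ x ∈ W := by
    intro x hx
    obtain ⟨a, b, rfl⟩ := hmem x hx
    rw [map_add]
    exact W.add_mem (m11 a) (m12 b)
  have s2 : ∀ x ∈ W, θ₂ x ∈ W := by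
    intro x hx
    obtain ⟨a, b, rfl⟩ := hmem x hx
    rw [map_add]
    exact W.add_mem (m21 a) (m22 b)
  have c1 : IsCore θ₁ W := ⟨hfin, s1, 2, by
    rintro _ ⟨x, rfl⟩
    rw [pow_two]
    exact m11 x⟩
  have c2 : IsCore θ₂ W := ⟨hfin, s2, 2, by
    rintro _ ⟨x, rfl⟩
    rw [pow_two]
    exact m22 x⟩
  have c12 : IsCore (θ₁ + θ₂) W := ⟨hfin, fun x hx => W.add_mem (s1 x hx) (s2 x hx), 2, by
    rintro _ ⟨x, rfl⟩
    rw [pow_two]
    simp only [Module.End.mul_apply, LinearMap.add_apply, map_add]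
    exact W.add_mem (W.add_mem (m11 x) (m21 x)) (W.add_mem (m12 x) (m22 x))⟩
  rw [fpTrace_eq_traceOn c1, fpTrace_eq_traceOn c2, fpTrace_eq_traceOn c12, traceOn, traceOn,
    traceOn, ← map_add]
  rfl

/-- Conjugation invariance. -/
theorem fpTrace_conj {V' : Type*} [AddCommGroup V'] [Module K V'] (e : V ≃ₗ[K] V')
    (θ : Module.End K V) (θ' : Module.End K V') (h : ∀ x, e (θ x) = θ' (e x)) :
    fpTrace θ = fpTrace θ' := by
  have hpow : ∀ (n : ℕ) (x : V), e ((θ ^ n) x) = (θ' ^ n) (e x) := by
    intro n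
    induction n with
    | zero => intro x; simp
    | succ n ih =>
      intro x
      rw [pow_succ', Module.End.mul_apply, h, ih, pow_succ', Module.End.mul_apply]
  have key : ∀ U, IsCore θ U → IsCore θ' (U.map (e : V →ₗ[K] V')) := by
    intro U hU
    haveI := hU.finite
    refine ⟨inferInstance, ?_, ?_⟩
    · rintro _ ⟨x, hx, rfl⟩
      exact ⟨θ x, hU.stable x hx, h x⟩
    · obtain ⟨n, hn⟩ := hU.absorbs
      refine ⟨n, ?_⟩
      rintro _ ⟨y, rfl⟩
      refine ⟨(θ ^ n) (e.symm y), hn ⟨_, rfl⟩, ?_⟩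
      show e ((θ ^ n) (e.symm y)) = _
      rw [hpow, LinearEquiv.apply_symm_apply]
  by_cases hθ : IsFinitePotent θ
  · obtain ⟨U, hU⟩ := hθ
    haveI := hU.finite
    rw [fpTrace_eq_traceOn hU, fpTrace_eq_traceOn (key U hU), traceOn, traceOn]
    refine fd_trace_eq_of_equiv _ _ (e.submoduleMap U) ?_
    intro x
    apply Subtype.ext
    exact h x
  · have hθ' : ¬ IsFinitePotent θ' := by
      rintro ⟨U', hU'⟩
      apply hθ
      haveI := hU'.finite
      refine ⟨U'.map (e.symm : V' →ₗ[K] V), inferInstance, ?_, ?_⟩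
      · rintro _ ⟨y, hy, rfl⟩
        refine ⟨θ' y, hU'.stable y hy, ?_⟩
        show e.symm (θ' y) = θ (e.symm y)
        rw [LinearEquiv.symm_apply_eq, h, LinearEquiv.apply_symm_apply]
      · obtain ⟨n, hn⟩ := hU'.absorbs
        refine ⟨n, ?_⟩
        rintro _ ⟨x, rfl⟩
        refine ⟨(θ' ^ n) (e x), hn ⟨_, rfl⟩, ?_⟩
        show e.symm ((θ' ^ n) (e x)) = _
        rw [LinearEquiv.symm_apply_eq, hpow]
    rw [fpTrace_of_not hθ, fpTrace_of_not hθ']

/-! ### Commutation -/

theorem mul_mul_pow_comm {R : Type*} [Monoid R] (a b : R) (n : ℕ) :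
    a * (b * a) ^ n = (a * b) ^ n * a := by
  induction n with
  | zero => simp
  | succ n ih => rw [pow_succ, ← mul_assoc, ih, pow_succ, mul_assoc, mul_assoc, mul_assoc]

theorem isFinitePotent_mul_comm {φ ψ : Module.End K V} (h : IsFinitePotent (φ * ψ)) :
    IsFinitePotent (ψ * φ) := by
  obtain ⟨n, hn⟩ := (isFinitePotent_iff _).mp h
  rw [isFinitePotent_iff]
  refine ⟨n + 1, ?_⟩
  haveI := hn
  refine Submodule.finiteDimensional_of_le (S₂ := (LinearMap.range ((φ * ψ) ^ n)).map ψ) ?_
  rintro _ ⟨x, rfl⟩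
  refine ⟨((φ * ψ) ^ n) (φ x), ⟨_, rfl⟩, ?_⟩
  rw [pow_succ', mul_assoc, mul_mul_pow_comm φ ψ n]
  rfl

theorem fpTrace_mul_comm (φ ψ : Module.End K V) : fpTrace (φ * ψ) = fpTrace (ψ * φ) := by
  by_cases h : IsFinitePotent (φ * ψ)
  · have h' := isFinitePotent_mul_comm h
    obtain ⟨n, hn⟩ := (isFinitePotent_iff _).mp h
    obtain ⟨n', hn'⟩ := (isFinitePotent_iff _).mp h'
    set m := max n n' with hm
    have hfin : FiniteDimensional K (LinearMap.range ((φ * ψ) ^ m)) := by
      haveI := hn
      exact Submodule.finiteDimensional_of_le (range_pow_le_of_le _ (le_max_left n n'))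
    have hfin' : FiniteDimensional K (LinearMap.range ((ψ * φ) ^ m)) := by
      haveI := hn'
      exact Submodule.finiteDimensional_of_le (range_pow_le_of_le _ (le_max_right n n'))
    have cU := isCore_range_pow (φ * ψ) m hfin
    have cU' := isCore_range_pow (ψ * φ) m hfin'
    rw [fpTrace_eq_traceOn cU, fpTrace_eq_traceOn cU', traceOn, traceOn]
    have hψ : ∀ x ∈ LinearMap.range ((φ * ψ) ^ m), ψ x ∈ LinearMap.range ((ψ * φ) ^ m) := by
      rintro _ ⟨x, rfl⟩
      refine ⟨ψ x, ?_⟩
      have := congrArg (fun g : Module.End K V => g x) (mul_mul_pow_comm ψ φ m)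
      simpa [Module.End.mul_apply] using this.symm
    have hφ : ∀ x ∈ LinearMap.range ((ψ * φ) ^ m), φ x ∈ LinearMap.range ((φ * ψ) ^ m) := by
      rintro _ ⟨x, rfl⟩
      refine ⟨φ x, ?_⟩
      have := congrArg (fun g : Module.End K V => g x) (mul_mul_pow_comm φ ψ m)
      simpa [Module.End.mul_apply] using this.symm
    have e1 : (φ * ψ).restrict cU.stable = (φ.restrict hφ) ∘ₗ (ψ.restrict hψ) := by
      ext x; rfl
    have e2 : (ψ * φ).restrict cU'.stable = (ψ.restrict hψ) ∘ₗ (φ.restrict hφ) := by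
      ext x; rfl
    rw [e1, e2]
    exact trace_comp_comm' _ _
  · have h' : ¬ IsFinitePotent (ψ * φ) := fun h'' => h (isFinitePotent_mul_comm h'')
    rw [fpTrace_of_not h, fpTrace_of_not h']

/-! ### Additivity over a stable subspace -/

theorem restrict_pow_apply (θ : Module.End K V) (W : Submodule K V) (hW : ∀ x ∈ W, θ x ∈ W)
    (n : ℕ) (x : W) : (((θ.restrict hW : Module.End K W) ^ n) x : V) = (θ ^ n) (x : V) := by
  induction n generalizing x with
  | zero => simp
  | succ n ih =>
    rw [pow_succ', Module.End.mul_apply, pow_succ', Module.End.mul_apply, ← ih]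
    rfl

theorem mapQ_pow_apply (θ : Module.End K V) (W : Submodule K V) (hW : ∀ x ∈ W, θ x ∈ W)
    (n : ℕ) (x : V) :
    ((W.mapQ W θ hW : Module.End K (V ⧸ W)) ^ n) (Submodule.Quotient.mk x) =
      Submodule.Quotient.mk ((θ ^ n) x) := by
  induction n generalizing x with
  | zero => simp
  | succ n ih =>
    rw [pow_succ', Module.End.mul_apply, ih, Submodule.mapQ_apply, pow_succ',
      Module.End.mul_apply]

theorem IsCore.restrict {θ : Module.End K V} {U : Submodule K V} (hU : IsCore θ U)
    (W : Submodule K V) (hW : ∀ x ∈ W, θ x ∈ W) :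
    IsCore (θ.restrict hW : Module.End K W) (U.comap W.subtype) := by
  haveI := hU.finite
  refine ⟨?_, ?_, ?_⟩
  · let g : (U.comap W.subtype) →ₗ[K] U :=
      { toFun := fun x => ⟨x.1.1, x.2⟩
        map_add' := fun _ _ => rfl
        map_smul' := fun _ _ => rfl }
    refine FiniteDimensional.of_injective g ?_
    intro x y hxy
    apply Subtype.ext
    apply Subtype.ext
    exact congrArg (fun z : U => (z : V)) hxy
  · intro x hx
    exact hU.stable _ hx
  · obtain ⟨n, hn⟩ := hU.absorbs
    refine ⟨n, ?_⟩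
    rintro _ ⟨x, rfl⟩
    show (((θ.restrict hW : Module.End K W) ^ n) x : V) ∈ U
    rw [restrict_pow_apply]
    exact hn ⟨_, rfl⟩

theorem IsCore.mapQ {θ : Module.End K V} {U : Submodule K V} (hU : IsCore θ U)
    (W : Submodule K V) (hW : ∀ x ∈ W, θ x ∈ W) :
    IsCore (W.mapQ W θ hW : Module.End K (V ⧸ W)) (U.map W.mkQ) := by
  haveI := hU.finite
  refine ⟨inferInstance, ?_, ?_⟩
  · rintro _ ⟨u, hu, rfl⟩
    exact ⟨θ u, hU.stable u hu, rfl⟩
  · obtain ⟨n, hn⟩ := hU.absorbs
    refine ⟨n, ?_⟩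
    rintro _ ⟨x, rfl⟩
    obtain ⟨x, rfl⟩ := Submodule.Quotient.mk_surjective W x
    rw [mapQ_pow_apply]
    exact ⟨_, hn ⟨x, rfl⟩, rfl⟩

/-- **Additivity of the trace over a stable subspace** (Tate's (T2)). -/
theorem fpTrace_eq_add_of_stable {θ : Module.End K V} (h : IsFinitePotent θ) (W : Submodule K V)
    (hW : ∀ x ∈ W, θ x ∈ W) :
    fpTrace θ = fpTrace (θ.restrict hW : Module.End K W) +
      fpTrace (W.mapQ W θ hW : Module.End K (V ⧸ W)) := by
  obtain ⟨U, hU⟩ := h
  haveI := hU.finite
  rw [fpTrace_eq_traceOn hU, fpTrace_eq_traceOn (hU.restrict W hW),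
    fpTrace_eq_traceOn (hU.mapQ W hW), traceOn, traceOn, traceOn]
  set f : Module.End K U := θ.restrict hU.stable with hf
  set W' : Submodule K U := W.comap U.subtype with hW'
  have hfW' : ∀ x ∈ W', f x ∈ W' := fun x hx => hW _ hx
  rw [fd_trace_eq_add f W' hfW']
  congr 1
  · -- the subspace part
    let e₁ : W' ≃ₗ[K] (U.comap W.subtype) :=
      { toFun := fun x => ⟨⟨x.1.1, x.2⟩, x.1.2⟩
        invFun := fun y => ⟨⟨y.1.1, y.2⟩, y.1.2⟩
        map_add' := fun _ _ => rfl
        map_smul' := fun _ _ => rfl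
        left_inv := fun _ => rfl
        right_inv := fun _ => rfl }
    exact fd_trace_eq_of_equiv _ _ e₁ (fun x => rfl)
  · -- the quotient part
    let g : U →ₗ[K] (U.map W.mkQ) :=
      (W.mkQ ∘ₗ U.subtype).codRestrict (U.map W.mkQ) (fun u => ⟨u.1, u.2, rfl⟩)
    have hg : Function.Surjective g := by
      rintro ⟨_, u, hu, rfl⟩
      exact ⟨⟨u, hu⟩, rfl⟩
    have hker : W' = LinearMap.ker g := by
      ext u
      rw [LinearMap.mem_ker]
      constructor
      · intro hu
        apply Subtype.ext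
        exact (Submodule.Quotient.mk_eq_zero W).mpr hu
      · intro hu
        exact (Submodule.Quotient.mk_eq_zero W).mp (congrArg Subtype.val hu)
    let e₂ : (U ⧸ W') ≃ₗ[K] (U.map W.mkQ) :=
      (Submodule.quotEquivOfEq W' (LinearMap.ker g) hker).trans (g.quotKerEquivOfSurjective hg)
    refine fd_trace_eq_of_equiv _ _ e₂ ?_
    intro x
    obtain ⟨u, rfl⟩ := Submodule.Quotient.mk_surjective W' x
    rfl

/-- Direct sums: if `V = V₁ ⊕ V₂` with both summands stable, the trace is the sum of the traces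
of the restrictions. -/
theorem fpTrace_eq_add_of_isCompl {θ : Module.End K V} (h : IsFinitePotent θ)
    {V₁ V₂ : Submodule K V} (hc : IsCompl V₁ V₂) (h₁ : ∀ x ∈ V₁, θ x ∈ V₁)
    (h₂ : ∀ x ∈ V₂, θ x ∈ V₂) :
    fpTrace θ = fpTrace (θ.restrict h₁ : Module.End K V₁) +
      fpTrace (θ.restrict h₂ : Module.End K V₂) := by
  rw [fpTrace_eq_add_of_stable h V₁ h₁]
  congr 1
  refine fpTrace_conj (Submodule.quotientEquivOfIsCompl V₁ V₂ hc) _ _ ?_
  intro x
  obtain ⟨x, rfl⟩ := Submodule.Quotient.mk_surjective V₁ x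
  obtain ⟨a, b, rfl, -⟩ := Submodule.existsUnique_add_of_isCompl hc x
  have e1 : (Submodule.Quotient.mk ((a : V) + b) : V ⧸ V₁) = Submodule.Quotient.mk (b : V) := by
    rw [Submodule.Quotient.eq]
    simp
  have e2 : (Submodule.Quotient.mk (θ ((a : V) + b)) : V ⧸ V₁) =
      Submodule.Quotient.mk (θ (b : V)) := by
    rw [Submodule.Quotient.eq, map_add]
    simpa using h₁ a a.2
  rw [Submodule.mapQ_apply, e2, e1]
  rw [Submodule.quotientEquivOfIsCompl_apply_mk_right hc b]
  exact Submodule.quotientEquivOfIsCompl_apply_mk_right hc ⟨θ b, h₂ b b.2⟩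

/-- If `θ` maps `V` into a subspace `W`, its trace can be computed on `W`. -/
theorem fpTrace_eq_restrict_of_range_le {θ : Module.End K V} (h : IsFinitePotent θ)
    (W : Submodule K V) (hr : LinearMap.range θ ≤ W) :
    fpTrace θ = fpTrace (θ.restrict (fun x _ => hr ⟨x, rfl⟩) : Module.End K W) := by
  rw [fpTrace_eq_add_of_stable h W (fun x _ => hr ⟨x, rfl⟩)]
  have : (W.mapQ W θ (fun x _ => hr ⟨x, rfl⟩) : Module.End K (V ⧸ W)) = 0 := by
    ext x
    simp only [LinearMap.comp_apply, Submodule.mkQ_apply, Submodule.mapQ_apply,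
      LinearMap.zero_apply]
    exact (Submodule.Quotient.mk_eq_zero W).mpr (hr ⟨x, rfl⟩)
  rw [this, fpTrace_zero, add_zero]

/-- If `θ` kills a subspace `W`, its trace can be computed on `V ⧸ W`. -/
theorem fpTrace_eq_mapQ_of_le_ker {θ : Module.End K V} (h : IsFinitePotent θ)
    (W : Submodule K V) (hk : W ≤ LinearMap.ker θ) :
    fpTrace θ = fpTrace (W.mapQ W θ (fun x hx => by
      rw [Submodule.mem_comap, LinearMap.mem_ker.mp (hk hx)]; exact W.zero_mem) :
        Module.End K (V ⧸ W)) := by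
  have hW : ∀ x ∈ W, θ x ∈ W := fun x hx => by
    rw [LinearMap.mem_ker.mp (hk hx)]; exact W.zero_mem
  rw [fpTrace_eq_add_of_stable h W hW]
  have : (θ.restrict hW : Module.End K W) = 0 := by
    ext x
    exact LinearMap.mem_ker.mp (hk x.2)
  rw [this, fpTrace_zero, zero_add]

theorem fpTrace_sub {θ₁ θ₂ : Module.End K V} (h11 : FiniteRank (θ₁ * θ₁))
    (h12 : FiniteRank (θ₁ * θ₂)) (h21 : FiniteRank (θ₂ * θ₁)) (h22 : FiniteRank (θ₂ * θ₂)) :
    fpTrace (θ₁ - θ₂) = fpTrace θ₁ - fpTrace θ₂ := by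
  rw [sub_eq_add_neg, fpTrace_add h11, fpTrace_neg, sub_eq_add_neg]
  · rw [mul_neg]; exact h12.neg
  · rw [neg_mul]; exact h21.neg
  · rw [neg_mul_neg]; exact h22

/-- Trace of the identity-like map on a finite-dimensional space. -/
theorem fpTrace_one [FiniteDimensional K V] :
    fpTrace (1 : Module.End K V) = (Module.finrank K V : K) := by
  rw [fpTrace_eq_trace, LinearMap.trace_one]

end FP

end Fermat.Agent.RR
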