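import Mathlib
import Fermat.Agent.RR.FinPotent
import Fermat.Agent.RR.Commens

/-!
# C-RR (TRES): Tate's abstract residue

Following J. Tate, *Residues of differentials on curves* (1968), §2.
`V` a `K`-vector space, `A ⊆ V` a subspace, `f g : End V` two commuting endomorphisms with
`f A ≺ A`, `g A ≺ A`.  The abstract residue is `res A f g = Tr [π f, g]` for a projection `π`
onto `A`; it equals `Tr [f₁, g₁]` for ANY `f₁ ≡ f`, `g₁ ≡ g (mod E₂)` in `E` with `f₁ ∈ E₁` or
`g₁ ∈ E₁` (Tate's Theorem 1).
-/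

set_option autoImplicit false
set_option linter.style.haveILetI false
set_option linter.unusedSectionVars false
set_option linter.unusedVariables false

open Fermat.Agent.RR Fermat.Agent.RR.Commens

namespace Fermat.Agent.RR.AbsResidue

variable {K V : Type*} [Field K] [AddCommGroup V] [Module K V] {A : Submodule K V}

/-! ### The trace on `E₀` -/

theorem finiteRank_mul_of_inE0 {θ θ' : Module.End K V} (h : InE0 A θ) (h' : InE0 A θ') :
    FiniteRank (θ * θ') :=
  h.finite_range_mul h'

theorem fpTrace_add_of_inE0 {θ θ' : Module.End K V} (h : InE0 A θ) (h' : InE0 A θ') :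
    fpTrace (θ + θ') = fpTrace θ + fpTrace θ' :=
  fpTrace_add (finiteRank_mul_of_inE0 h h) (finiteRank_mul_of_inE0 h h')
    (finiteRank_mul_of_inE0 h' h) (finiteRank_mul_of_inE0 h' h')

theorem fpTrace_sub_of_inE0 {θ θ' : Module.End K V} (h : InE0 A θ) (h' : InE0 A θ') :
    fpTrace (θ - θ') = fpTrace θ - fpTrace θ' :=
  fpTrace_sub (finiteRank_mul_of_inE0 h h) (finiteRank_mul_of_inE0 h h')
    (finiteRank_mul_of_inE0 h' h) (finiteRank_mul_of_inE0 h' h')

/-- The trace of a commutator `[φ, ψ]` vanishes as soon as `φ ψ` and `ψ φ` lie in `E₀`. -/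
theorem fpTrace_commutator_eq_zero {φ ψ : Module.End K V} (h : InE0 A (φ * ψ))
    (h' : InE0 A (ψ * φ)) : fpTrace (φ * ψ - ψ * φ) = 0 := by
  rw [fpTrace_sub_of_inE0 h h', fpTrace_mul_comm, sub_self]

/-! ### Admissible pairs (Tate's conditions (i), (ii)) -/

/-- `(f₁, g₁)` is an admissible pair of lifts of `(f, g)`: both in `E`, congruent to `f`, `g`
modulo `E₂`. -/
structure Adm (A : Submodule K V) (f g f₁ g₁ : Module.End K V) : Prop where
  inE_left : InE A f₁
  inE_right : InE A g₁
  sub_left : InE2 A (f₁ - f)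
  sub_right : InE2 A (g₁ - g)

section Indep

variable {f g : Module.End K V} (hfg : f * g = g * f)

include hfg

theorem Adm.commutator_inE0_of_left {f₁ g₁ : Module.End K V} (h : Adm A f g f₁ g₁)
    (h1 : InE1 A f₁) : InE0 A (f₁ * g₁ - g₁ * f₁) :=
  commutator_inE0_left h1 h.inE_right
    (commutator_inE2 hfg h.inE_left h.inE_right h.sub_left h.sub_right)

theorem Adm.commutator_inE0_of_right {f₁ g₁ : Module.End K V} (h : Adm A f g f₁ g₁)
    (h1 : InE1 A g₁) : InE0 A (f₁ * g₁ - g₁ * f₁) :=
  commutator_inE0_right h.inE_left h1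
    (commutator_inE2 hfg h.inE_left h.inE_right h.sub_left h.sub_right)

/-- Independence of the lifts, both pairs having their FIRST component in `E₁`. -/
theorem fpTrace_commutator_eq_of_left {f₁ g₁ f₁' g₁' : Module.End K V}
    (h : Adm A f g f₁ g₁) (h' : Adm A f g f₁' g₁') (h1 : InE1 A f₁) (h1' : InE1 A f₁') :
    fpTrace (f₁ * g₁ - g₁ * f₁) = fpTrace (f₁' * g₁' - g₁' * f₁') := by
  -- `e₀ = f₁ - f₁' ∈ E₀`, `e₂ = g₁ - g₁' ∈ E₂`
  have he₀ : InE0 A (f₁ - f₁') := by
    refine ⟨h1.sub h1', ?_⟩
    have : f₁ - f₁' = (f₁ - f) - (f₁' - f) := by abel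
    rw [this]
    exact h.sub_left.sub h'.sub_left
  have he₂ : InE2 A (g₁ - g₁') := by
    have : g₁ - g₁' = (g₁ - g) - (g₁' - g) := by abel
    rw [this]
    exact h.sub_right.sub h'.sub_right
  have hc1 : InE0 A (f₁ * g₁ - g₁ * f₁) := h.commutator_inE0_of_left hfg h1
  have hc2 : InE0 A (f₁' * g₁' - g₁' * f₁') := h'.commutator_inE0_of_left hfg h1'
  have hA1 : InE0 A ((f₁ - f₁') * g₁) := he₀.mul_right h.inE_right
  have hA2 : InE0 A (g₁ * (f₁ - f₁')) := he₀.mul_left h.inE_right
  have hB1 : InE0 A (f₁' * (g₁ - g₁')) := h1'.mul_inE2 he₂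
  have hB2 : InE0 A ((g₁ - g₁') * f₁') := he₂.mul_inE1 h1'
  have hdec : f₁ * g₁ - g₁ * f₁ = (f₁' * g₁' - g₁' * f₁')
      + (((f₁ - f₁') * g₁ - g₁ * (f₁ - f₁')) + (f₁' * (g₁ - g₁') - (g₁ - g₁') * f₁')) := by
    noncomm_ring
  rw [hdec, fpTrace_add_of_inE0 hc2 ((hA1.sub hA2).add (hB1.sub hB2)),
    fpTrace_add_of_inE0 (hA1.sub hA2) (hB1.sub hB2),
    fpTrace_commutator_eq_zero hA1 hA2, fpTrace_commutator_eq_zero hB1 hB2, add_zero, add_zero]

/-- Independence of the lifts, both pairs having their SECOND component in `E₁`. -/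
theorem fpTrace_commutator_eq_of_right {f₁ g₁ f₁' g₁' : Module.End K V}
    (h : Adm A f g f₁ g₁) (h' : Adm A f g f₁' g₁') (h1 : InE1 A g₁) (h1' : InE1 A g₁') :
    fpTrace (f₁ * g₁ - g₁ * f₁) = fpTrace (f₁' * g₁' - g₁' * f₁') := by
  have he₀ : InE0 A (g₁ - g₁') := by
    refine ⟨h1.sub h1', ?_⟩
    have : g₁ - g₁' = (g₁ - g) - (g₁' - g) := by abel
    rw [this]
    exact h.sub_right.sub h'.sub_right
  have he₂ : InE2 A (f₁ - f₁') := by
    have : f₁ - f₁' = (f₁ - f) - (f₁' - f) := by abel
    rw [this]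
    exact h.sub_left.sub h'.sub_left
  have hc1 : InE0 A (f₁ * g₁ - g₁ * f₁) := h.commutator_inE0_of_right hfg h1
  have hc2 : InE0 A (f₁' * g₁' - g₁' * f₁') := h'.commutator_inE0_of_right hfg h1'
  have hA1 : InE0 A ((f₁ - f₁') * g₁) := he₂.mul_inE1 h1
  have hA2 : InE0 A (g₁ * (f₁ - f₁')) := h1.mul_inE2 he₂
  have hB1 : InE0 A (f₁' * (g₁ - g₁')) := he₀.mul_left h'.inE_left
  have hB2 : InE0 A ((g₁ - g₁') * f₁') := he₀.mul_right h'.inE_left
  have hdec : f₁ * g₁ - g₁ * f₁ = (f₁' * g₁' - g₁' * f₁')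
      + (((f₁ - f₁') * g₁ - g₁ * (f₁ - f₁')) + (f₁' * (g₁ - g₁') - (g₁ - g₁') * f₁')) := by
    noncomm_ring
  rw [hdec, fpTrace_add_of_inE0 hc2 ((hA1.sub hA2).add (hB1.sub hB2)),
    fpTrace_add_of_inE0 (hA1.sub hA2) (hB1.sub hB2),
    fpTrace_commutator_eq_zero hA1 hA2, fpTrace_commutator_eq_zero hB1 hB2, add_zero, add_zero]

/-- **Tate's Theorem 1, well-definedness.** The trace of `[f₁, g₁]` does not depend on the
admissible pair `(f₁, g₁)` with `f₁ ∈ E₁` or `g₁ ∈ E₁`. -/
theorem fpTrace_commutator_eq {f₁ g₁ f₁' g₁' : Module.End K V}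
    (h : Adm A f g f₁ g₁) (h' : Adm A f g f₁' g₁') (h1 : InE1 A f₁ ∨ InE1 A g₁)
    (h1' : InE1 A f₁' ∨ InE1 A g₁') :
    fpTrace (f₁ * g₁ - g₁ * f₁) = fpTrace (f₁' * g₁' - g₁' * f₁') := by
  rcases h1 with h1 | h1 <;> rcases h1' with h1' | h1'
  · exact fpTrace_commutator_eq_of_left hfg h h' h1 h1'
  · -- go through the pair `(f₁, g₁')`
    have hmid : Adm A f g f₁ g₁' := ⟨h.inE_left, h'.inE_right, h.sub_left, h'.sub_right⟩
    rw [fpTrace_commutator_eq_of_left hfg h hmid h1 h1,
      fpTrace_commutator_eq_of_right hfg hmid h' h1' h1']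
  · have hmid : Adm A f g f₁' g₁ := ⟨h'.inE_left, h.inE_right, h'.sub_left, h.sub_right⟩
    rw [fpTrace_commutator_eq_of_right hfg h hmid h1 h1,
      fpTrace_commutator_eq_of_left hfg hmid h' h1' h1']
  · exact fpTrace_commutator_eq_of_right hfg h h' h1 h1'

end Indep

/-! ### The residue -/

/-- A chosen projection of `V` onto `A`. -/
noncomputable def proj (A : Submodule K V) : Module.End K V := (exists_isProj A).choose

theorem isProj_proj (A : Submodule K V) : IsProj A (proj A) := (exists_isProj A).choose_spec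

/-- Tate's abstract residue `res^V_A (f dg) = Tr_V [π f, g]`. -/
noncomputable def res (A : Submodule K V) (f g : Module.End K V) : K :=
  fpTrace (proj A * f * g - g * (proj A * f))

/-- The standard admissible pair `(π f, g)`. -/
theorem adm_proj {π : Module.End K V} (hπ : IsProj A π) {f g : Module.End K V} (hf : InE A f)
    (hg : InE A g) : Adm A f g (π * f) g := by
  refine ⟨hπ.inE.mul hf, hg, ?_, ?_⟩
  · have : π * f - f = -(f - π * f) := by abel
    rw [this]
    exact (hπ.sub_mul_inE2 hf).neg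
  · rw [sub_self]; exact inE2_zero

/-- The other standard admissible pair `(f, π g)`. -/
theorem adm_proj' {π : Module.End K V} (hπ : IsProj A π) {f g : Module.End K V} (hf : InE A f)
    (hg : InE A g) : Adm A f g f (π * g) := by
  refine ⟨hf, hπ.inE.mul hg, ?_, ?_⟩
  · rw [sub_self]; exact inE2_zero
  · have : π * g - g = -(g - π * g) := by abel
    rw [this]
    exact (hπ.sub_mul_inE2 hg).neg

section Props

variable {f g : Module.End K V}

/-- **Tate's Theorem 1.** `res A f g = Tr [f₁, g₁]` for every admissible pair with `f₁ ∈ E₁` or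
`g₁ ∈ E₁`. -/
theorem res_eq_fpTrace_commutator (hfg : f * g = g * f) (hf : InE A f) (hg : InE A g)
    {f₁ g₁ : Module.End K V} (h : Adm A f g f₁ g₁) (h1 : InE1 A f₁ ∨ InE1 A g₁) :
    res A f g = fpTrace (f₁ * g₁ - g₁ * f₁) := by
  have hπ := isProj_proj A
  have := fpTrace_commutator_eq hfg (adm_proj hπ hf hg) h (Or.inl (hπ.mul_inE1 f)) h1
  rw [res, ← this, mul_assoc]

/-- The residue may be computed with any projection onto `A`. -/
theorem res_eq_of_isProj (hfg : f * g = g * f) (hf : InE A f) (hg : InE A g)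
    {π : Module.End K V} (hπ : IsProj A π) :
    res A f g = fpTrace (π * f * g - g * (π * f)) := by
  rw [res_eq_fpTrace_commutator hfg hf hg (adm_proj hπ hf hg) (Or.inl (hπ.mul_inE1 f)),
    mul_assoc]

/-- ... and with the projection on the other side. -/
theorem res_eq_of_isProj' (hfg : f * g = g * f) (hf : InE A f) (hg : InE A g)
    {π : Module.End K V} (hπ : IsProj A π) :
    res A f g = fpTrace (f * (π * g) - π * g * f) := by
  rw [res_eq_fpTrace_commutator hfg hf hg (adm_proj' hπ hf hg) (Or.inr (hπ.mul_inE1 g))]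

/-- The commutator `[π f, g]` lies in `E₀`. -/
theorem commutator_proj_inE0 (hfg : f * g = g * f) (hf : InE A f) (hg : InE A g)
    {π : Module.End K V} (hπ : IsProj A π) : InE0 A (π * f * g - g * (π * f)) := by
  have := (adm_proj hπ hf hg).commutator_inE0_of_left hfg (hπ.mul_inE1 f)
  rwa [mul_assoc]

end Props

/-! ### Bilinearity -/

section Bilinear

variable {f f' g g' : Module.End K V}

theorem res_add_left (hfg : f * g = g * f) (hf'g : f' * g = g * f') (hf : InE A f)
    (hf' : InE A f') (hg : InE A g) : res A (f + f') g = res A f g + res A f' g := by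
  have hπ := isProj_proj A
  have h1 := commutator_proj_inE0 hfg hf hg hπ
  have h2 := commutator_proj_inE0 hf'g hf' hg hπ
  unfold res
  rw [← fpTrace_add_of_inE0 h1 h2]
  congr 1
  noncomm_ring

theorem res_add_right (hfg : f * g = g * f) (hfg' : f * g' = g' * f) (hf : InE A f)
    (hg : InE A g) (hg' : InE A g') : res A f (g + g') = res A f g + res A f g' := by
  have hπ := isProj_proj A
  have h1 := commutator_proj_inE0 hfg hf hg hπ
  have h2 := commutator_proj_inE0 hfg' hf hg' hπ
  unfold res
  rw [← fpTrace_add_of_inE0 h1 h2]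
  congr 1
  noncomm_ring

theorem res_smul_left (c : K) (f g : Module.End K V) : res A (c • f) g = c * res A f g := by
  unfold res
  rw [← fpTrace_smul]
  congr 1
  simp only [mul_smul_comm, smul_mul_assoc, smul_sub]

theorem res_smul_right (c : K) (f g : Module.End K V) : res A f (c • g) = c * res A f g := by
  unfold res
  rw [← fpTrace_smul]
  congr 1
  simp only [mul_smul_comm, smul_mul_assoc, smul_sub]

theorem res_zero_left (g : Module.End K V) : res A 0 g = 0 := by
  have := res_smul_left (A := A) (0 : K) 0 g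
  simpa using this

theorem res_zero_right (f : Module.End K V) : res A f 0 = 0 := by
  have := res_smul_right (A := A) (0 : K) f 0
  simpa using this

theorem res_neg_left (f g : Module.End K V) : res A (-f) g = -res A f g := by
  have := res_smul_left (A := A) (-1 : K) f g
  simpa using this

theorem res_neg_right (f g : Module.End K V) : res A f (-g) = -res A f g := by
  have := res_smul_right (A := A) (-1 : K) f g
  simpa using this

/-- `res (f d c) = 0` for a scalar `c`. -/
theorem res_algebraMap_right (f : Module.End K V) (c : K) :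
    res A f (algebraMap K (Module.End K V) c) = 0 := by
  unfold res
  have : proj A * f * algebraMap K (Module.End K V) c
      - algebraMap K (Module.End K V) c * (proj A * f) = 0 := by
    rw [sub_eq_zero]
    exact (Algebra.commutes c (proj A * f)).symm
  rw [this, fpTrace_zero]

theorem res_one_right (f : Module.End K V) : res A f 1 = 0 := by
  have := res_algebraMap_right (A := A) f 1
  rwa [map_one] at this

end Bilinear

/-! ### Leibniz rule -/

/-- `res (f d(gh)) = res (fg dh) + res (fh dg)` for pairwise commuting `f, g, h ∈ E`. -/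
theorem res_leibniz {f g h : Module.End K V} (hfg : f * g = g * f) (hfh : f * h = h * f)
    (hgh : g * h = h * g) (hf : InE A f) (hg : InE A g) (hh : InE A h) :
    res A f (g * h) = res A (f * g) h + res A (f * h) g := by
  have hπ := isProj_proj A
  set X := proj A * f with hX
  -- the three commutators and the correction term
  have c1 : f * (g * h) = g * h * f := by
    rw [← mul_assoc, hfg, mul_assoc, hfh, mul_assoc]
  have c2 : f * g * h = h * (f * g) := by
    rw [mul_assoc, hgh, ← mul_assoc, hfh, mul_assoc]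
  have c3 : f * h * g = g * (f * h) := by
    rw [mul_assoc, ← hgh, ← mul_assoc, hfg, mul_assoc]
  have e1 : InE0 A (X * (g * h) - g * h * X) := by
    have := commutator_proj_inE0 c1 hf (hg.mul hh) hπ
    rwa [mul_assoc] at this
  have e2 : InE0 A (proj A * (f * g) * h - h * (proj A * (f * g))) :=
    commutator_proj_inE0 c2 (hf.mul hg) hh hπ
  have e3 : InE0 A (proj A * (f * h) * g - g * (proj A * (f * h))) :=
    commutator_proj_inE0 c3 (hf.mul hh) hg hπ
  have eY : InE0 A (X * g - g * X) := by
    have := commutator_proj_inE0 hfg hf hg hπ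
    rwa [← hX] at this
  have e4 : InE0 A (h * (X * g - g * X)) := eY.mul_left hh
  have e5 : InE0 A ((X * g - g * X) * h) := eY.mul_right hh
  have hdec : X * (g * h) - g * h * X =
      (proj A * (f * g) * h - h * (proj A * (f * g)))
      + ((proj A * (f * h) * g - g * (proj A * (f * h)))
      + (h * (X * g - g * X) - (X * g - g * X) * h)) := by
    have hgh' : X * (h * g) = X * (g * h) := by rw [hgh]
    rw [hX]
    rw [hX] at hgh'
    calc proj A * f * (g * h) - g * h * (proj A * f)
        = proj A * f * (g * h) - g * h * (proj A * f)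
          + (proj A * f * (h * g) - proj A * f * (g * h)) := by rw [hgh', sub_self, add_zero]
      _ = _ := by rw [hgh]; noncomm_ring
  unfold res
  rw [← mul_assoc, ← hX, mul_assoc X g h, hdec, fpTrace_add_of_inE0 e2 (e3.add (e4.sub e5)),
    fpTrace_add_of_inE0 e3 (e4.sub e5), fpTrace_commutator_eq_zero e4 e5, add_zero]

/-! ### (R1) dependence on `A` only up to commensurability -/

section R1

variable {A' : Submodule K V}

theorem inE1_of_prec {θ : Module.End K V} (h : InE1 A θ) (hAA' : A ≺ A') : InE1 A' θ :=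
  Prec.trans h hAA'

theorem inE2_of_prec {θ : Module.End K V} (h : InE2 A θ) (hA'A : A' ≺ A) : InE2 A' θ :=
  (Prec.map hA'A θ).trans h

theorem inE_of_prec {θ : Module.End K V} (h : InE A θ) (hAA' : A ≺ A') (hA'A : A' ≺ A) :
    InE A' θ :=
  ((Prec.map hA'A θ).trans h).trans hAA'

/-- **(R1)** The residue depends only on the commensurability class of `A`. -/
theorem res_congr_of_prec {f g : Module.End K V} (hfg : f * g = g * f) (hf : InE A f)
    (hg : InE A g) (hAA' : A ≺ A') (hA'A : A' ≺ A) : res A' f g = res A f g := by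
  have hπ := isProj_proj A
  have hadm := adm_proj hπ hf hg
  have hadm' : Adm A' f g (proj A * f) g :=
    ⟨inE_of_prec hadm.inE_left hAA' hA'A, inE_of_prec hadm.inE_right hAA' hA'A,
      inE2_of_prec hadm.sub_left hA'A, inE2_of_prec hadm.sub_right hA'A⟩
  rw [res_eq_fpTrace_commutator hfg (inE_of_prec hf hAA' hA'A) (inE_of_prec hg hAA' hA'A) hadm'
    (Or.inl (inE1_of_prec (hπ.mul_inE1 f) hAA')), res, mul_assoc]

end R1

/-! ### (R2) -/

/-- **(R2)** `res (f dg) = 0` if `f A ⊆ A` and `g A ⊆ A`. -/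
theorem res_eq_zero_of_stable {f g : Module.End K V} (hfg : f * g = g * f)
    (hfA : A.map f ≤ A) (hgA : A.map g ≤ A) : res A f g = 0 := by
  have hπ := isProj_proj A
  have hfA' : ∀ a ∈ A, f a ∈ A := fun a ha => hfA ⟨a, ha, rfl⟩
  have hgA' : ∀ a ∈ A, g a ∈ A := fun a ha => hgA ⟨a, ha, rfl⟩
  set θ := proj A * f * g - g * (proj A * f) with hθ
  have h1 : ∀ x, θ x ∈ A := by
    intro x
    simp only [hθ, LinearMap.sub_apply, Module.End.mul_apply]
    exact A.sub_mem (hπ.range_le _) (hgA' _ (hπ.range_le _))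
  have h2 : ∀ a ∈ A, θ a = 0 := by
    intro a ha
    simp only [hθ, LinearMap.sub_apply, Module.End.mul_apply]
    rw [hπ.apply_mem _ (hfA' _ (hgA' a ha)), hπ.apply_mem _ (hfA' a ha)]
    have := congrArg (fun φ : Module.End K V => φ a) hfg
    simp only [Module.End.mul_apply] at this
    rw [this, sub_self]
  have h3 : θ ^ 2 = 0 := by
    ext x
    rw [pow_two, Module.End.mul_apply, h2 _ (h1 x)]
    rfl
  show fpTrace θ = 0
  exact fpTrace_eq_zero_of_pow_eq_zero h3

/-! ### (R3) -/

theorem inE2_pow_sub_pow {a b : Module.End K V} (ha : InE A a) (hb : InE A b)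
    (hab : InE2 A (a - b)) (n : ℕ) : InE2 A (a ^ n - b ^ n) := by
  induction n with
  | zero => rw [pow_zero, pow_zero, sub_self]; exact inE2_zero
  | succ n ih =>
    have : a ^ (n + 1) - b ^ (n + 1) = a ^ n * (a - b) + (a ^ n - b ^ n) * b := by
      rw [pow_succ, pow_succ]; noncomm_ring
    rw [this]
    exact (hab.mul_left _).add (ih.mul_right hb)

/-- **(R3)** `res (gⁿ dg) = 0` for `n ≥ 0`. -/
theorem res_pow_self {g : Module.End K V} (hg : InE A g) (n : ℕ) : res A (g ^ n) g = 0 := by
  have hπ := isProj_proj A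
  have hcomm : g ^ n * g = g * g ^ n := by rw [← pow_succ, ← pow_succ']
  have hπg : InE A (proj A * g) := hπ.inE.mul hg
  have hsub : InE2 A (proj A * g - g) := by
    have : proj A * g - g = -(g - proj A * g) := by abel
    rw [this]
    exact (hπ.sub_mul_inE2 hg).neg
  have hadm : Adm A (g ^ n) g ((proj A * g) ^ n) (proj A * g) :=
    ⟨hπg.pow n, hπg, inE2_pow_sub_pow hπg hg hsub n, hsub⟩
  rw [res_eq_fpTrace_commutator hcomm (hg.pow n) hg hadm (Or.inr (hπ.mul_inE1 g)),
    ← pow_succ, ← pow_succ', sub_self, fpTrace_zero]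

/-- `res (dg) = 0`. -/
theorem res_one_left {g : Module.End K V} (hg : InE A g) : res A 1 g = 0 := by
  have := res_pow_self hg 0
  rwa [pow_zero] at this

/-- **(R3)**, negative exponents: if `f h = h f = 1` then `res (h^(n+2) df) = 0`. -/
theorem res_inv_pow_self {f h : Module.End K V} (hfh : f * h = 1) (hhf : h * f = 1)
    (hf : InE A f) (hh : InE A h) (n : ℕ) : res A (h ^ (n + 2)) f = 0 := by
  have hcomm : f * h = h * f := by rw [hfh, hhf]
  set k := h ^ (n + 1) with hk
  have hkh : k * h = h * k := by rw [hk, ← pow_succ, ← pow_succ']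
  have hkf : k * f = f * k := by
    have : h ^ (n + 1) * f = h ^ n := by rw [pow_succ, mul_assoc, hhf, mul_one]
    have : f * h ^ (n + 1) = h ^ n := by rw [pow_succ', ← mul_assoc, hfh, one_mul]
    rw [hk]
    simp_all
  have hleib := res_leibniz hkf hkh hcomm (hh.pow (n + 1)) hf hh
  have h1 : k * f = h ^ n := by rw [hk, pow_succ, mul_assoc, hhf, mul_one]
  have h2 : k * h = h ^ (n + 2) := by rw [hk, ← pow_succ]
  rw [hfh, res_one_right, h1, h2, res_pow_self hh n, zero_add] at hleib
  exact hleib.symm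

/-! ### (R4) -/

/-- **(R4)** If `f` is invertible with inverse `h`, `h A ≺ A` and `f A ⊆ A`, then
`res (f⁻¹ df) = dim_K (A / f A)`. -/
theorem res_inv_self {f h : Module.End K V} (hfh : f * h = 1) (hhf : h * f = 1)
    (hh : InE A h) (hfA : A.map f ≤ A) :
    res A h f = (Module.finrank K (↥A ⧸ Submodule.comap A.subtype (A.map f)) : K) := by
  have hπ := isProj_proj A
  have hf : InE A f := prec_of_le hfA
  have hcomm : h * f = f * h := by rw [hfh, hhf]
  have hfA' : ∀ a ∈ A, f a ∈ A := fun a ha => hfA ⟨a, ha, rfl⟩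
  have hhf' : ∀ x, h (f x) = x := fun x => by
    have := congrArg (fun φ : Module.End K V => φ x) hhf
    simpa using this
  have hfh' : ∀ x, f (h x) = x := fun x => by
    have := congrArg (fun φ : Module.End K V => φ x) hfh
    simpa using this
  set π := proj A with hπdef
  set π' : Module.End K V := f * π * h with hπ'
  have hπ'_apply : ∀ x, π' x = f (π (h x)) := fun x => rfl
  have hπ'_mem : ∀ x, π' x ∈ A := fun x => hfA' _ (hπ.range_le _)
  have hπ'_fix : ∀ a ∈ A, π' (f a) = f a := by
    intro a ha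
    rw [hπ'_apply, hhf', hπ.apply_mem a ha]
  have hπ'_idem : ∀ x, π' (π' x) = π' x := by
    intro x
    rw [hπ'_apply x]
    exact hπ'_fix _ (hπ.range_le _)
  -- the operator whose trace is the residue
  set θ : Module.End K V := π - π' with hθ
  have hres : res A h f = fpTrace θ := by
    unfold res
    congr 1
    rw [hθ, hπ', mul_assoc (proj A) h f, hhf, mul_one, ← mul_assoc]
  have hθ_apply : ∀ x, θ x = π x - π' x := fun x => rfl
  have hθ_mem : ∀ x, θ x ∈ A := fun x => A.sub_mem (hπ.range_le x) (hπ'_mem x)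
  -- the core `W = (1 - π') A`
  set W : Submodule K V := A.map (1 - π') with hW
  have hW_le : W ≤ A := by
    rintro _ ⟨a, ha, rfl⟩
    simp only [LinearMap.sub_apply, Module.End.one_apply]
    exact A.sub_mem ha (hπ'_mem a)
  have hθ_W : ∀ w ∈ W, θ w = w := by
    rintro _ ⟨a, ha, rfl⟩
    have hmem : (1 - π') a ∈ A := hW_le ⟨a, ha, rfl⟩
    rw [hθ_apply, hπ.apply_mem _ hmem]
    simp only [LinearMap.sub_apply, Module.End.one_apply, map_sub, hπ'_idem, sub_self, sub_zero]
  have hθ_A : ∀ a ∈ A, θ a ∈ W := by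
    intro a ha
    refine ⟨a, ha, ?_⟩
    rw [hθ_apply, hπ.apply_mem a ha]
    rfl
  -- `W` is finite-dimensional
  have hWfin : Module.Finite K W := by
    obtain ⟨W₀, hW₀, hle⟩ := hh
    haveI := hW₀
    haveI : Module.Finite K ((W₀.map f).map (1 - π')) := inferInstance
    refine Submodule.finiteDimensional_of_le (?_ : W ≤ (W₀.map f).map (1 - π'))
    rintro _ ⟨a, ha, rfl⟩
    have hha : h a ∈ A ⊔ W₀ := hle ⟨a, ha, rfl⟩
    obtain ⟨a₁, ha₁, w₀, hw₀, hsum⟩ := Submodule.mem_sup.mp hha
    have ha_eq : a = f a₁ + f w₀ := by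
      rw [← map_add, hsum, hfh']
    refine ⟨f w₀, ⟨w₀, hw₀, rfl⟩, ?_⟩
    rw [ha_eq, map_add]
    have : (1 - π') (f a₁) = 0 := by
      simp only [LinearMap.sub_apply, Module.End.one_apply, hπ'_fix a₁ ha₁, sub_self]
    rw [this, zero_add]
  have hcore : IsCore θ W := by
    refine ⟨hWfin, fun w hw => ?_, 2, ?_⟩
    · rw [hθ_W w hw]; exact hw
    · rintro _ ⟨x, rfl⟩
      rw [pow_two, Module.End.mul_apply]
      exact hθ_A _ (hθ_mem x)
  haveI := hWfin
  rw [hres, fpTrace_eq_traceOn hcore]
  have hid : θ.restrict hcore.stable = 1 := by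
    ext w
    simp only [LinearMap.coe_restrict_apply, Module.End.one_apply]
    exact hθ_W w w.2
  have htr : traceOn θ W hcore.stable = (Module.finrank K W : K) := by
    unfold traceOn
    rw [hid, LinearMap.trace_one]
  rw [htr]
  -- `W ≃ A / f A`
  let φ : ↥A →ₗ[K] ↥W :=
    ((1 - π').domRestrict A).codRestrict W (fun a => ⟨a, a.2, rfl⟩)
  have hφ_surj : Function.Surjective φ := by
    rintro ⟨_, a, ha, rfl⟩
    exact ⟨⟨a, ha⟩, rfl⟩
  have hφ_ker : LinearMap.ker φ = Submodule.comap A.subtype (A.map f) := by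
    ext a
    simp only [LinearMap.mem_ker, Submodule.mem_comap, Submodule.coe_subtype]
    constructor
    · intro h0
      have h1 : (1 - π') (a : V) = 0 := congrArg Subtype.val h0
      have h2 : (a : V) = π' a := by
        simp only [LinearMap.sub_apply, Module.End.one_apply] at h1
        exact sub_eq_zero.mp h1
      rw [h2]
      exact ⟨π (h a), hπ.range_le _, rfl⟩
    · rintro ⟨a₁, ha₁, hfa⟩
      apply Subtype.ext
      show (1 - π') (a : V) = 0
      rw [← hfa]
      simp only [LinearMap.sub_apply, Module.End.one_apply, hπ'_fix a₁ ha₁, sub_self]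
  have e : (↥A ⧸ Submodule.comap A.subtype (A.map f)) ≃ₗ[K] ↥W :=
    (Submodule.quotEquivOfEq _ _ hφ_ker.symm).trans (φ.quotKerEquivOfSurjective hφ_surj)
  rw [e.finrank_eq]

/-! ### Finite potency of the commutators (for consumers) -/

/-- Elements of `E₀` are finite potent (their square has finite rank). -/
theorem isFinitePotent_of_inE0 {θ : Module.End K V} (h : InE0 A θ) : IsFinitePotent θ := by
  rw [isFinitePotent_iff]
  refine ⟨2, ?_⟩
  rw [pow_two]
  exact h.finite_range_mul h

/-- `[π f, g]` is finite potent, for every projection `π` onto `A`. -/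
theorem isFinitePotent_commutator_proj {f g : Module.End K V} (hfg : f * g = g * f)
    (hf : InE A f) (hg : InE A g) {π : Module.End K V} (hπ : IsProj A π) :
    IsFinitePotent (π * f * g - g * (π * f)) :=
  isFinitePotent_of_inE0 (commutator_proj_inE0 hfg hf hg hπ)

/-- The residue in the `π * f * g - g * π * f` bracketing. -/
theorem res_eq_of_isProj_assoc {f g : Module.End K V} (hfg : f * g = g * f) (hf : InE A f)
    (hg : InE A g) {π : Module.End K V} (hπ : IsProj A π) :
    res A f g = fpTrace (π * f * g - g * π * f) := by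
  rw [res_eq_of_isProj hfg hf hg hπ, mul_assoc g π f]

end Fermat.Agent.RR.AbsResidue
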