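import Mathlib
import Fermat.Prelude.Def_AlgebraicCurve_Repartitions
import Fermat.Prelude.Def_AlgebraicCurve_CanonicalDivisor
import Fermat.Agent.RR.LSpace

/-!
# Serre duality for function fields (C-RR, DUAL-b/c)

`i(D) = l(W - D)` for a canonical divisor `W`, from the residue pairing.

Inputs, as explicit hypotheses:
* `LHyp K F` (places have degree one, principal divisors have degree zero, ...),
* `DiffHyp K F` (facts on `ordDifferential`),
* `ResidueData K F` (local residues + the residue theorem),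
* finiteness of poles of repartitions, finite-dimensionality of `H1 D`,
* Serre's lemma (`SerreLemma K F`): two functionals vanishing on `A(D) + F` are `F`-proportional.
-/

set_option autoImplicit false
set_option linter.unusedSectionVars false
set_option linter.style.haveILetI false

open AlgebraicCurve KaehlerDifferential

namespace Fermat.Agent.RR.Duality

open Fermat.Agent.RR.LSpace

variable {K F : Type*} [Field K] [Field F] [Algebra K F]

/-- Facts about orders of differentials (from FF3 / `HasCanonicalDivisor`). -/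
structure DiffHyp (K F : Type*) [Field K] [Field F] [Algebra K F] : Prop where
  ordDifferential_smul : ∀ (v : Place K F) (g : F), g ≠ 0 → ∀ ω : Ω[F⁄K], ω ≠ 0 →
    v.ordDifferential (g • ω) = v.ord g + v.ordDifferential ω
  finite_support : ∀ ω : Ω[F⁄K], ω ≠ 0 → {v : Place K F | v.ordDifferential ω ≠ 0}.Finite

/-- Local residues with the residue theorem. -/
structure ResidueData (K F : Type*) [Field K] [Field F] [Algebra K F] where
  res : Place K F → Ω[F⁄K] →ₗ[K] K
  res_eq_zero : ∀ (v : Place K F) (ω : Ω[F⁄K]), ω ≠ 0 → 0 ≤ v.ordDifferential ω → res v ω = 0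
  res_ne_zero : ∀ (v : Place K F) (ω : Ω[F⁄K]), ω ≠ 0 → v.ordDifferential ω = -1 → res v ω ≠ 0
  sum_res : ∀ ω : Ω[F⁄K], ∑ᶠ v : Place K F, res v ω = 0

/-- Repartitions have finitely many poles (C2a). -/
def RepFinite (K F : Type*) [Field K] [Field F] [Algebra K F] : Prop :=
  ∀ α : ↥(repartitions K F), {v : Place K F | v.ord ((α : Place K F → F) v) < 0}.Finite

/-- Serre's lemma (DUAL-a). -/
def SerreLemma (K F : Type*) [Field K] [Field F] [Algebra K F] : Prop :=
  ∀ (lam mu : ↥(repartitions K F) →ₗ[K] K) (D : Divisor K F),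
    (∀ α ∈ repartitionsOf D ⊔ principalRepartitions K F, lam α = 0) →
    (∀ α ∈ repartitionsOf D ⊔ principalRepartitions K F, mu α = 0) → lam ≠ 0 →
    ∃ f : F, ∀ α : ↥(repartitions K F), mu α = lam (f • α)

/-- The space of repartitions. -/
abbrev Rep (K F : Type*) [Field K] [Field F] [Algebra K F] : Type _ := ↥(repartitions K F)

/-! ### The residue pairing -/

section pairing

variable (HL : LHyp K F) (HD : DiffHyp K F) (R : ResidueData K F) (hrep : RepFinite K F)


/-- The local term of the pairing: `res_v (α_v h ω₀)`. -/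
noncomputable def term (ω₀ : Ω[F⁄K]) (h : F) (α : Rep K F) (v : Place K F) : K :=
  R.res v (((α : Place K F → F) v * h) • ω₀)

theorem term_add (ω₀ : Ω[F⁄K]) (h : F) (α β : Rep K F) (v : Place K F) :
    term R ω₀ h (α + β) v = term R ω₀ h α v + term R ω₀ h β v := by
  show R.res v ((((α : Place K F → F) v + (β : Place K F → F) v) * h) • ω₀) = _
  rw [add_mul, add_smul, map_add]
  rfl

theorem term_smul (ω₀ : Ω[F⁄K]) (h : F) (c : K) (α : Rep K F) (v : Place K F) :
    term R ω₀ h (c • α) v = c * term R ω₀ h α v := by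
  show R.res v (((c • (α : Place K F → F) v) * h) • ω₀) = _
  rw [smul_mul_assoc, smul_assoc, map_smul, smul_eq_mul]
  rfl

theorem term_fsmul (ω₀ : Ω[F⁄K]) (h f : F) (α : Rep K F) (v : Place K F) :
    term R ω₀ h (f • α) v = term R ω₀ (f * h) α v := by
  show R.res v (((f * (α : Place K F → F) v) * h) • ω₀) =
    R.res v (((α : Place K F → F) v * (f * h)) • ω₀)
  congr 2
  ring

theorem term_add_right (ω₀ : Ω[F⁄K]) (h h' : F) (α : Rep K F) (v : Place K F) :
    term R ω₀ (h + h') α v = term R ω₀ h α v + term R ω₀ h' α v := by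
  show R.res v (((α : Place K F → F) v * (h + h')) • ω₀) = _
  rw [mul_add, add_smul, map_add]
  rfl

theorem term_smul_right (ω₀ : Ω[F⁄K]) (h : F) (c : K) (α : Rep K F) (v : Place K F) :
    term R ω₀ (c • h) α v = c * term R ω₀ h α v := by
  show R.res v (((α : Place K F → F) v * (c • h)) • ω₀) = _
  rw [mul_smul_comm, smul_assoc, map_smul, smul_eq_mul]
  rfl

include HL HD hrep in
theorem term_support_finite {ω₀ : Ω[F⁄K]} (hω₀ : ω₀ ≠ 0) (h : F) (α : Rep K F) :
    (Function.support (term R ω₀ h α)).Finite := by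
  by_cases hh : h = 0
  · have : term R ω₀ h α = fun _ => 0 := by
      funext v
      simp [term, hh]
    rw [this]
    simp
  have hfin : ({v : Place K F | v.ord ((α : Place K F → F) v) < 0} ∪
      {v : Place K F | v.ord h ≠ 0} ∪ {v : Place K F | v.ordDifferential ω₀ ≠ 0}).Finite := by
    refine Set.Finite.union (Set.Finite.union (hrep α) ?_) (HD.finite_support ω₀ hω₀)
    refine (divOf HL hh).support.finite_toSet.subset ?_
    intro v hv
    rw [Finset.mem_coe, Finsupp.mem_support_iff, divOf_apply]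
    exact hv
  refine hfin.subset ?_
  intro v hv
  rw [Function.mem_support] at hv
  by_contra hcon
  simp only [Set.mem_union, Set.mem_ofPred_eq, not_or, not_lt, ne_eq, not_not] at hcon
  obtain ⟨⟨h1, h2⟩, h3⟩ := hcon
  apply hv
  by_cases ha : (α : Place K F → F) v = 0
  · simp [term, ha]
  have hne : ((α : Place K F → F) v * h) • ω₀ ≠ 0 :=
    smul_ne_zero (mul_ne_zero ha hh) hω₀
  refine R.res_eq_zero v _ hne ?_
  rw [HD.ordDifferential_smul v _ (mul_ne_zero ha hh) ω₀ hω₀, v.ord_mul ha hh, h2, h3]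
  simpa using h1

/-- The residue pairing with `h • ω₀`, as a `K`-linear functional on repartitions. -/
noncomputable def Theta {ω₀ : Ω[F⁄K]} (hω₀ : ω₀ ≠ 0) (h : F) : Rep K F →ₗ[K] K where
  toFun α := ∑ᶠ v : Place K F, term R ω₀ h α v
  map_add' α β := by
    rw [← finsum_add_distrib (term_support_finite HL HD R hrep hω₀ h α)
      (term_support_finite HL HD R hrep hω₀ h β)]
    exact finsum_congr fun v => term_add R ω₀ h α β v
  map_smul' c α := by
    rw [RingHom.id_apply, smul_eq_mul, ← smul_eq_mul, smul_finsum]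
    exact finsum_congr fun v => term_smul R ω₀ h c α v

theorem Theta_apply {ω₀ : Ω[F⁄K]} (hω₀ : ω₀ ≠ 0) (h : F) (α : Rep K F) :
    Theta HL HD R hrep hω₀ h α = ∑ᶠ v : Place K F, term R ω₀ h α v := rfl

theorem Theta_fsmul {ω₀ : Ω[F⁄K]} (hω₀ : ω₀ ≠ 0) (h f : F) (α : Rep K F) :
    Theta HL HD R hrep hω₀ h (f • α) = Theta HL HD R hrep hω₀ (f * h) α := by
  rw [Theta_apply, Theta_apply]
  exact finsum_congr fun v => term_fsmul R ω₀ h f α v

theorem Theta_add {ω₀ : Ω[F⁄K]} (hω₀ : ω₀ ≠ 0) (h h' : F) :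
    Theta HL HD R hrep hω₀ (h + h') = Theta HL HD R hrep hω₀ h + Theta HL HD R hrep hω₀ h' := by
  ext α
  rw [LinearMap.add_apply, Theta_apply, Theta_apply, Theta_apply,
    ← finsum_add_distrib (term_support_finite HL HD R hrep hω₀ h α)
      (term_support_finite HL HD R hrep hω₀ h' α)]
  exact finsum_congr fun v => term_add_right R ω₀ h h' α v

theorem Theta_smul {ω₀ : Ω[F⁄K]} (hω₀ : ω₀ ≠ 0) (c : K) (h : F) :
    Theta HL HD R hrep hω₀ (c • h) = c • Theta HL HD R hrep hω₀ h := by
  ext α
  rw [LinearMap.smul_apply, Theta_apply, Theta_apply, smul_eq_mul, ← smul_eq_mul, smul_finsum]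
  exact finsum_congr fun v => term_smul_right R ω₀ h c α v

/-- The pairing vanishes on principal repartitions: the residue theorem. -/
theorem Theta_principal {ω₀ : Ω[F⁄K]} (hω₀ : ω₀ ≠ 0) (h : F) (α : Rep K F)
    (hα : α ∈ principalRepartitions K F) : Theta HL HD R hrep hω₀ h α = 0 := by
  obtain ⟨f, hf⟩ := mem_principalRepartitions_iff.mp hα
  rw [Theta_apply]
  have : ∀ v, term R ω₀ h α v = R.res v ((f * h) • ω₀) := by
    intro v
    show R.res v (((α : Place K F → F) v * h) • ω₀) = _
    rw [hf]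
  rw [finsum_congr this]
  exact R.sum_res _

/-- The pairing with `h ∈ L(W - D)` vanishes on `A(D)`. -/
theorem Theta_vanish {ω₀ : Ω[F⁄K]} (hω₀ : ω₀ ≠ 0) {W D : Divisor K F}
    (hW : ∀ v, W v = v.ordDifferential ω₀) {h : F} (hh : h ∈ riemannRochSpace (W - D))
    (α : Rep K F) (hα : α ∈ repartitionsOf D) : Theta HL HD R hrep hω₀ h α = 0 := by
  rw [Theta_apply]
  refine finsum_eq_zero_of_forall_eq_zero fun v => ?_
  by_cases ha : (α : Place K F → F) v = 0
  · simp [term, ha]
  by_cases hh0 : h = 0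
  · simp [term, hh0]
  have hne : ((α : Place K F → F) v * h) • ω₀ ≠ 0 :=
    smul_ne_zero (mul_ne_zero ha hh0) hω₀
  refine R.res_eq_zero v _ hne ?_
  rw [HD.ordDifferential_smul v _ (mul_ne_zero ha hh0) ω₀ hω₀, v.ord_mul ha hh0, ← hW v]
  have h1 := (mem_repartitionsOf_iff.mp hα v).resolve_left ha
  have h2 := (mem_L_iff hh0).mp hh v
  rw [Finsupp.sub_apply] at h2
  linarith

/-! ### Single-place repartitions -/

open Classical in
/-- The repartition with value `a` at `v` and `0` elsewhere. -/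
noncomputable def single (v : Place K F) (a : F) : Rep K F :=
  ⟨Pi.single v a, mem_repartitions_of_finite <| (Set.finite_singleton v).subset fun w hw => by
    by_contra hne
    apply hw
    rw [Set.mem_singleton_iff] at hne
    rw [Pi.single_eq_of_ne hne]
    simp⟩

theorem single_apply_same (v : Place K F) (a : F) : (single v a : Place K F → F) v = a := by
  classical
  exact Pi.single_eq_same (M := fun _ => F) v a

theorem single_apply_ne (v : Place K F) (a : F) {w : Place K F} (h : w ≠ v) :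
    (single v a : Place K F → F) w = 0 := by
  classical
  exact Pi.single_eq_of_ne (M := fun _ => F) h a

theorem single_mem_repartitionsOf (D : Divisor K F) (v : Place K F) (a : F)
    (h : a = 0 ∨ -D v ≤ v.ord a) : single v a ∈ repartitionsOf D := by
  rw [mem_repartitionsOf_iff]
  intro w
  by_cases hw : w = v
  · subst hw
    rw [single_apply_same]
    exact h
  · left
    exact single_apply_ne v a hw

theorem Theta_single {ω₀ : Ω[F⁄K]} (hω₀ : ω₀ ≠ 0) (h : F) (v : Place K F) (a : F) :
    Theta HL HD R hrep hω₀ h (single v a) = R.res v ((a * h) • ω₀) := by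
  rw [Theta_apply, finsum_eq_single _ v]
  · show R.res v (((single v a : Place K F → F) v * h) • ω₀) = _
    rw [single_apply_same]
  · intro w hw
    show R.res w (((single v a : Place K F → F) w * h) • ω₀) = 0
    rw [single_apply_ne v a hw, zero_mul, zero_smul, map_zero]

theorem exists_ord_eq (v : Place K F) (n : ℤ) : ∃ a : F, a ≠ 0 ∧ v.ord a = n := by
  obtain ⟨π, hπ⟩ := IsDiscreteValuationRing.exists_irreducible v.toValuationSubring
  have hπ0 : (π : F) ≠ 0 := by
    intro h0
    exact hπ.ne_zero (Subtype.ext h0)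
  refine ⟨(π : F) ^ n, zpow_ne_zero n hπ0, ?_⟩
  rw [v.ord_zpow, v.ord_coe_irreducible hπ, mul_one]

/-- A nonzero `h` pairs nontrivially with a suitable single-place repartition of `A(D)` unless
`h ∈ L(W - D)`. -/
theorem mem_L_of_Theta_vanish {ω₀ : Ω[F⁄K]} (hω₀ : ω₀ ≠ 0) {W D : Divisor K F}
    (hW : ∀ v, W v = v.ordDifferential ω₀) {h : F}
    (hvan : ∀ α ∈ repartitionsOf D, Theta HL HD R hrep hω₀ h α = 0) :
    h ∈ riemannRochSpace (W - D) := by
  by_cases hh : h = 0
  · rw [hh]; exact Submodule.zero_mem _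
  rw [mem_L_iff hh]
  intro v
  by_contra hcon
  rw [not_le, Finsupp.sub_apply] at hcon
  obtain ⟨a, ha0, ha⟩ := exists_ord_eq v (-1 - (v.ord h + W v))
  have hmem : single v a ∈ repartitionsOf D := by
    refine single_mem_repartitionsOf D v a (Or.inr ?_)
    rw [ha]
    linarith
  have h0 := hvan _ hmem
  rw [Theta_single] at h0
  refine R.res_ne_zero v ((a * h) • ω₀) (smul_ne_zero (mul_ne_zero ha0 hh) hω₀) ?_ h0
  rw [HD.ordDifferential_smul v _ (mul_ne_zero ha0 hh) ω₀ hω₀, v.ord_mul ha0 hh, ha, ← hW v]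
  ring

theorem Theta_ne_zero {ω₀ : Ω[F⁄K]} (hω₀ : ω₀ ≠ 0) {h : F} (hh : h ≠ 0) :
    Theta HL HD R hrep hω₀ h ≠ 0 := by
  intro h0
  obtain ⟨v⟩ := HL.nonempty
  obtain ⟨a, ha0, ha⟩ := exists_ord_eq v (-1 - (v.ord h + v.ordDifferential ω₀))
  have h1 : Theta HL HD R hrep hω₀ h (single v a) = 0 := by rw [h0]; rfl
  rw [Theta_single] at h1
  refine R.res_ne_zero v ((a * h) • ω₀) (smul_ne_zero (mul_ne_zero ha0 hh) hω₀) ?_ h1
  rw [HD.ordDifferential_smul v _ (mul_ne_zero ha0 hh) ω₀ hω₀, v.ord_mul ha0 hh, ha]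
  ring

/-! ### Duality -/

/-- The map `L(W - D) → Dual (H1 D)`. -/
noncomputable def Psi {ω₀ : Ω[F⁄K]} (hω₀ : ω₀ ≠ 0) {W : Divisor K F}
    (hW : ∀ v, W v = v.ordDifferential ω₀) (D : Divisor K F) :
    riemannRochSpace (W - D) →ₗ[K] Module.Dual K (H1 D) where
  toFun h := (repartitionsOf D ⊔ principalRepartitions K F).liftQ (Theta HL HD R hrep hω₀ h) (by
    rw [sup_le_iff]
    constructor
    · intro α hα
      exact Theta_vanish HL HD R hrep hω₀ hW h.2 α hα
    · intro α hα
      exact Theta_principal HL HD R hrep hω₀ h α hα)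
  map_add' h h' := by
    apply Submodule.linearMap_qext
    ext α
    simp [Theta_add]
  map_smul' c h := by
    apply Submodule.linearMap_qext
    ext α
    simp [Theta_smul]

theorem Psi_apply_mk {ω₀ : Ω[F⁄K]} (hω₀ : ω₀ ≠ 0) {W : Divisor K F}
    (hW : ∀ v, W v = v.ordDifferential ω₀) (D : Divisor K F) (h : riemannRochSpace (W - D))
    (α : Rep K F) :
    Psi HL HD R hrep hω₀ hW D h (Submodule.Quotient.mk α) = Theta HL HD R hrep hω₀ h α := rfl

theorem Psi_injective {ω₀ : Ω[F⁄K]} (hω₀ : ω₀ ≠ 0) {W : Divisor K F}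
    (hW : ∀ v, W v = v.ordDifferential ω₀) (D : Divisor K F) :
    Function.Injective (Psi HL HD R hrep hω₀ hW D) := by
  rw [← LinearMap.ker_eq_bot, LinearMap.ker_eq_bot']
  intro h hh
  by_contra hne
  have hne' : (h : F) ≠ 0 := fun h0 => hne (Subtype.ext h0)
  apply Theta_ne_zero HL HD R hrep hω₀ hne'
  ext α
  rw [← Psi_apply_mk HL HD R hrep hω₀ hW D h α, hh]
  rfl

theorem Psi_surjective (hS : SerreLemma K F) {ω₀ : Ω[F⁄K]} (hω₀ : ω₀ ≠ 0) {W : Divisor K F}
    (hW : ∀ v, W v = v.ordDifferential ω₀) (D : Divisor K F) :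
    Function.Surjective (Psi HL HD R hrep hω₀ hW D) := by
  intro μ'
  -- the functional on repartitions
  set mu : Rep K F →ₗ[K] K := μ' ∘ₗ (repartitionsOf D ⊔ principalRepartitions K F).mkQ with hmu
  set lam : Rep K F →ₗ[K] K := Theta HL HD R hrep hω₀ 1 with hlam
  have hlam0 : lam ≠ 0 := Theta_ne_zero HL HD R hrep hω₀ one_ne_zero
  -- a common divisor
  set D₀ : Divisor K F := D ⊓ W with hD₀
  have hle : repartitionsOf D₀ ⊔ principalRepartitions K F ≤
      repartitionsOf D ⊔ principalRepartitions K F :=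
    sup_le_sup_right (repartitionsOf_mono inf_le_left) _
  have hmu_van : ∀ α ∈ repartitionsOf D ⊔ principalRepartitions K F, mu α = 0 := by
    intro α hα
    rw [hmu, LinearMap.comp_apply, Submodule.mkQ_apply,
      (Submodule.Quotient.mk_eq_zero _).mpr hα, map_zero]
  have h1 : ∀ α ∈ repartitionsOf D₀ ⊔ principalRepartitions K F, lam α = 0 := by
    intro α hα
    obtain ⟨β, hβ, γ, hγ, rfl⟩ := Submodule.mem_sup.mp hα
    rw [map_add, Theta_principal HL HD R hrep hω₀ 1 γ hγ, add_zero]
    refine Theta_vanish HL HD R hrep hω₀ hW (D := D₀) ?_ β hβ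
    rw [mem_L_iff one_ne_zero]
    intro v
    rw [v.ord_one, Finsupp.sub_apply, hD₀, Finsupp.inf_apply]
    have := inf_le_right (a := D v) (b := W v)
    linarith
  have h2 : ∀ α ∈ repartitionsOf D₀ ⊔ principalRepartitions K F, mu α = 0 :=
    fun α hα => hmu_van α (hle hα)
  obtain ⟨f, hf⟩ := hS lam mu D₀ h1 h2 hlam0
  have hf' : ∀ α, mu α = Theta HL HD R hrep hω₀ f α := by
    intro α
    rw [hf α, hlam, Theta_fsmul, mul_one]
  have hfL : f ∈ riemannRochSpace (W - D) := by
    refine mem_L_of_Theta_vanish HL HD R hrep hω₀ hW ?_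
    intro α hα
    rw [← hf' α]
    exact hmu_van α (Submodule.mem_sup_left hα)
  refine ⟨⟨f, hfL⟩, ?_⟩
  apply Submodule.linearMap_qext
  ext α
  rw [LinearMap.comp_apply, Submodule.mkQ_apply, Psi_apply_mk, ← hf' α]

include HL HD R hrep in
/-- **Serre duality**: `i(D) = l(W - D)`. -/
theorem finrank_H1_eq (hS : SerreLemma K F) (hfin : ∀ D : Divisor K F, Module.Finite K (H1 D))
    {ω₀ : Ω[F⁄K]} (hω₀ : ω₀ ≠ 0) {W : Divisor K F}
    (hW : ∀ v, W v = v.ordDifferential ω₀) (D : Divisor K F) :
    Module.finrank K (H1 D) = Module.finrank K (riemannRochSpace (W - D)) := by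
  haveI := hfin D
  let e : riemannRochSpace (W - D) ≃ₗ[K] Module.Dual K (H1 D) :=
    LinearEquiv.ofBijective (Psi HL HD R hrep hω₀ hW D)
      ⟨Psi_injective HL HD R hrep hω₀ hW D, Psi_surjective HL HD R hrep hS hω₀ hW D⟩
  rw [e.finrank_eq, Subspace.dual_finrank_eq]

end pairing

end Fermat.Agent.RR.Duality
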