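/-
C-RR (LOC, helper18): local linear algebra at a place `v` of a function field `F / K` whose
residue field is `K`: the valuation ring `O_v` as a `K`-subspace of `F`, `f • O_v ≺ O_v`
(commensurability, Tate), and `dim_K (O_v / t O_v) = 1`.
-/
import Mathlib
import Fermat.Prelude.Def_AlgebraicCurve_DivisorClassGroup
import Fermat.Agent.X0.FFResidue
import Fermat.Agent.RR.Commens

set_option autoImplicit false
set_option linter.unusedSectionVars false

namespace Fermat.Agent.RR.LocalPrep

open AlgebraicCurve Fermat.Agent.X0.FF Fermat.Agent.RR.Commens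

variable {K F : Type*} [Field K] [Field F] [Algebra K F] (v : Place K F)

/-- The valuation ring of a place as a `K`-subspace of `F`. -/
def ringSub : Submodule K F where
  carrier := {f | f ∈ v.toValuationSubring}
  add_mem' := fun {a b} ha hb => v.toValuationSubring.add_mem a b ha hb
  zero_mem' := v.toValuationSubring.zero_mem
  smul_mem' := fun c f hf => by
    show c • f ∈ v.toValuationSubring
    rw [Algebra.smul_def]
    exact mul_mem (v.algebraMap_mem' c) hf

theorem mem_ringSub {f : F} : f ∈ ringSub v ↔ f ∈ v.toValuationSubring := Iff.rfl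

theorem mem_ringSub_iff_ord {f : F} : f ∈ ringSub v ↔ f = 0 ∨ 0 ≤ v.ord f := by
  rw [mem_ringSub, ffp_mem_iff_ord_nonneg]
  constructor
  · exact fun h => Or.inr h
  · rintro (rfl | h)
    · simp
    · exact h

theorem mem_ringSub_of_ord_nonneg {f : F} (h : 0 ≤ v.ord f) : f ∈ ringSub v :=
  ffp_mem_of_ord_nonneg v h

theorem mul_mem_ringSub {f g : F} (hf : f ∈ ringSub v) (hg : g ∈ ringSub v) :
    f * g ∈ ringSub v := v.toValuationSubring.mul_mem f g hf hg

/-- The polar subspace `span {t⁻¹, …, t⁻ⁿ}`. -/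
def polar (t : F) (n : ℕ) : Submodule K F :=
  Submodule.span K (Set.range fun i : Fin n => t ^ (-((i : ℕ) + 1 : ℤ)))

instance (t : F) (n : ℕ) : Module.Finite K (polar (K := K) t n) :=
  Module.Finite.span_of_finite K (Set.finite_range _)

theorem polar_mono (t : F) {m n : ℕ} (h : m ≤ n) : polar (K := K) t m ≤ polar t n := by
  apply Submodule.span_mono
  rintro _ ⟨i, rfl⟩
  exact ⟨⟨i.1, lt_of_lt_of_le i.2 h⟩, rfl⟩

theorem zpow_mem_polar (t : F) (n : ℕ) : t ^ (-(n + 1 : ℤ)) ∈ polar (K := K) t (n + 1) :=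
  Submodule.subset_span ⟨⟨n, Nat.lt_succ_self n⟩, by simp⟩

variable (hres : ∀ f ∈ v.toValuationSubring,
  ∃ c : K, f = algebraMap K F c ∨ 0 < v.ord (f - algebraMap K F c))

include hres in
/-- Elements with a pole of order at most `n` lie in `O_v + span {t⁻¹, …, t⁻ⁿ}`. -/
theorem mem_sup_polar {t : F} (ht : v.ord t = 1) : ∀ (n : ℕ) (a : F),
    (a = 0 ∨ -(n : ℤ) ≤ v.ord a) → a ∈ ringSub v ⊔ polar t n := by
  have ht0 : t ≠ 0 := by rintro rfl; simp at ht
  intro n
  induction n with
  | zero =>
    intro a ha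
    apply Submodule.mem_sup_left
    rw [mem_ringSub_iff_ord]
    simpa using ha
  | succ n ih =>
    intro a ha
    have hmono : ringSub v ⊔ polar t n ≤ ringSub v ⊔ polar t (n + 1) :=
      sup_le_sup_left (polar_mono t (Nat.le_succ n)) _
    rcases ha with rfl | ha
    · exact zero_mem _
    by_cases hlt : -(n : ℤ) ≤ v.ord a
    · exact hmono (ih a (Or.inr hlt))
    have hord : v.ord a = -((n : ℤ) + 1) := by push_cast at ha; omega
    have ha0 : a ≠ 0 := by rintro rfl; simp at hord; omega
    have htn : t ^ ((n : ℤ) + 1) ≠ 0 := zpow_ne_zero _ ht0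
    set b : F := a * t ^ ((n : ℤ) + 1) with hb
    have hbord : v.ord b = 0 := by
      rw [hb, v.ord_mul ha0 htn, v.ord_zpow, ht, hord]; ring
    obtain ⟨c, hc⟩ := hres b (ffp_mem_of_ord_nonneg v hbord.ge)
    have hdecomp : a = algebraMap K F c * t ^ (-((n : ℤ) + 1)) +
        (b - algebraMap K F c) * t ^ (-((n : ℤ) + 1)) := by
      rw [← add_mul, add_sub_cancel, hb, mul_assoc, ← zpow_add₀ ht0]
      simp
    rw [hdecomp]
    refine add_mem ?_ (hmono ?_)
    · apply Submodule.mem_sup_right
      rw [← Algebra.smul_def]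
      exact Submodule.smul_mem _ _ (by exact_mod_cast zpow_mem_polar (K := K) t n)
    · apply ih
      rcases hc with hc | hc
      · left; rw [hc, sub_self, zero_mul]
      · right
        have hne : b - algebraMap K F c ≠ 0 := by
          intro h0; rw [h0, v.ord_zero] at hc; exact lt_irrefl _ hc
        rw [v.ord_mul hne (zpow_ne_zero _ ht0), v.ord_zpow, ht]
        omega

include hres in
/-- Multiplication by any `f` maps `O_v` into `O_v` up to a finite-dimensional space. -/
theorem map_mulLeft_prec (f : F) : (ringSub v).map (LinearMap.mulLeft K f) ≺ ringSub v := by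
  obtain ⟨π, hπ⟩ := ffp_exists_irreducible v
  have ht : v.ord (π : F) = 1 := v.ord_coe_irreducible hπ
  rcases eq_or_ne f 0 with rfl | hf
  · refine prec_of_le ?_
    rintro _ ⟨a, -, rfl⟩
    simp
  refine ⟨polar (π : F) (-v.ord f).toNat, inferInstance, ?_⟩
  rintro _ ⟨a, ha, rfl⟩
  apply mem_sup_polar v hres ht
  rw [LinearMap.mulLeft_apply]
  rcases eq_or_ne a 0 with rfl | ha0
  · left; simp
  right
  rw [v.ord_mul hf ha0]
  have := ffp_ord_nonneg_of_mem v ha
  omega

/-- Multiplication by an element of `O_v` preserves `O_v`. -/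
theorem map_mulLeft_le {f : F} (hf : f ∈ v.toValuationSubring) :
    (ringSub v).map (LinearMap.mulLeft K f) ≤ ringSub v := by
  rintro _ ⟨a, ha, rfl⟩
  exact mul_mem_ringSub v hf ha

theorem mem_map_mulLeft_iff {g : F} (hg : g ≠ 0) {a : F} :
    a ∈ (ringSub v).map (LinearMap.mulLeft K g) ↔ a = 0 ∨ v.ord g ≤ v.ord a := by
  constructor
  · rintro ⟨b, hb, rfl⟩
    rw [LinearMap.mulLeft_apply]
    rcases eq_or_ne b 0 with rfl | hb0
    · left; simp
    · right
      rw [v.ord_mul hg hb0]
      have := ffp_ord_nonneg_of_mem v hb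
      omega
  · intro h
    refine ⟨g⁻¹ * a, ?_, by rw [LinearMap.mulLeft_apply, mul_inv_cancel_left₀ hg]⟩
    show g⁻¹ * a ∈ ringSub v
    rw [mem_ringSub_iff_ord]
    rcases h with rfl | h
    · left; simp
    · rcases eq_or_ne a 0 with rfl | ha0
      · left; simp
      · right
        rw [v.ord_mul (inv_ne_zero hg) ha0, v.ord_inv]
        omega

include hres in
/-- `dim_K (O_v / t O_v) = 1` for a uniformizer `t`. -/
theorem finrank_quotient_uniformizer {t : F} (ht : v.ord t = 1) :
    Module.finrank K (↥(ringSub v) ⧸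
      ((ringSub v).map (LinearMap.mulLeft K t)).comap (ringSub v).subtype) = 1 := by
  have ht0 : t ≠ 0 := by rintro rfl; simp at ht
  set W := ((ringSub v).map (LinearMap.mulLeft K t)).comap (ringSub v).subtype with hW
  have h1mem : (1 : F) ∈ ringSub v := one_mem (v.toValuationSubring)
  have hne : (W.mkQ ⟨1, h1mem⟩) ≠ 0 := by
    rw [ne_eq, Submodule.mkQ_apply, Submodule.Quotient.mk_eq_zero, hW, Submodule.mem_comap]
    show ¬ (1 : F) ∈ _
    rw [mem_map_mulLeft_iff v ht0, v.ord_one, ht]
    simp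
  rw [finrank_eq_one_iff_of_nonzero' _ hne]
  intro w
  obtain ⟨⟨a, ha⟩, rfl⟩ := W.mkQ_surjective w
  obtain ⟨c, hc⟩ := hres a ha
  refine ⟨c, ?_⟩
  rw [← map_smul, eq_comm, ← sub_eq_zero, ← map_sub, Submodule.mkQ_apply,
    Submodule.Quotient.mk_eq_zero, hW, Submodule.mem_comap]
  show a - c • (1 : F) ∈ _
  rw [mem_map_mulLeft_iff v ht0, Algebra.smul_def, mul_one, ht]
  rcases hc with hc | hc
  · left; rw [hc, sub_self]
  · right; omega

end Fermat.Agent.RR.LocalPrep
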