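/-
C-RR (LOC, helper18): a bilinear pairing `r : S × S → N` satisfying the Leibniz rule
`r f (g h) = r (f g) h + r (f h) g` factors through Kähler differentials:
there is a `K`-linear map `L : Ω[S⁄K] → N` with `L (f • D g) = r f g`.
-/
import Mathlib

set_option autoImplicit false

namespace Fermat.Agent.RR.OmegaLift

open KaehlerDifferential Finsupp

variable {K S N : Type*} [CommRing K] [CommRing S] [Algebra K S] [AddCommGroup N] [Module K N]

section

variable (r : S →ₗ[K] S →ₗ[K] N)

/-- The linear map on `S →₀ S` sending `single g f` to `r f g`. -/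
noncomputable def total : (S →₀ S) →ₗ[K] N := Finsupp.lsum K fun g => r.flip g

theorem total_single (g f : S) : total r (single g f) = r f g := by
  simp [total]

variable (hleib : ∀ f g h, r f (g * h) = r (f * g) h + r (f * h) g)

include hleib in
theorem pairing_one (f : S) : r f 1 = 0 := by
  have := hleib f 1 1
  simp only [mul_one] at this
  have h2 : r f 1 + r f 1 = r f 1 + 0 := by rw [add_zero]; exact this.symm
  exact add_left_cancel h2

include hleib in
theorem pairing_algebraMap (f : S) (c : K) : r f (algebraMap K S c) = 0 := by
  rw [Algebra.algebraMap_eq_smul_one, map_smul, pairing_one r hleib, smul_zero]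

include hleib in
theorem total_smul_eq_zero_of_mem_kerTotal {z : S →₀ S} (hz : z ∈ kerTotal K S) :
    ∀ s : S, total r (s • z) = 0 := by
  unfold kerTotal at hz
  induction hz using Submodule.span_induction with
  | mem z hz =>
    intro s
    rcases hz with (⟨⟨x, y⟩, rfl⟩ | ⟨⟨x, y⟩, rfl⟩) | ⟨c, rfl⟩
    · simp only [smul_sub, smul_add, smul_single, smul_eq_mul, mul_one, map_sub, map_add,
        total_single]
      abel
    · simp only [smul_sub, smul_add, smul_single, smul_eq_mul, mul_one, map_sub, map_add,
        total_single]
      rw [hleib s x y]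
      abel
    · simp only [smul_single, smul_eq_mul, mul_one, total_single]
      exact pairing_algebraMap r hleib s c
  | zero => intro s; simp
  | add x y _ _ hx hy => intro s; rw [smul_add, map_add, hx s, hy s, add_zero]
  | smul a x _ hx => intro s; rw [smul_smul]; exact hx (s * a)

include hleib in
theorem kerTotal_le_ker :
    (kerTotal K S).restrictScalars K ≤ LinearMap.ker (total r) := by
  intro z hz
  rw [LinearMap.mem_ker]
  have := total_smul_eq_zero_of_mem_kerTotal r hleib hz 1
  rwa [one_smul] at this

/-- The induced map on Kähler differentials. -/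
noncomputable def lift : Ω[S⁄K] →ₗ[K] N :=
  (((kerTotal K S).restrictScalars K).liftQ (total r) (kerTotal_le_ker r hleib)).comp
    ((quotKerTotalEquiv K S).symm.toLinearMap.restrictScalars K)

theorem lift_smul_D (f g : S) : lift r hleib (f • D K S g) = r f g := by
  have h1 : (quotKerTotalEquiv K S).symm (D K S g) = (kerTotal K S).mkQ (single g 1) := by
    have := congrArg (fun d : Derivation K S _ => d g) (quotKerTotalEquiv_symm_comp_D K S)
    simp only [derivationQuotKerTotal_apply] at this
    exact this
  have h2 : (quotKerTotalEquiv K S).symm (f • D K S g) = (kerTotal K S).mkQ (single g f) := by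
    rw [map_smul, h1, ← map_smul, smul_single, smul_eq_mul, mul_one]
  show ((kerTotal K S).restrictScalars K).liftQ (total r) (kerTotal_le_ker r hleib)
    ((quotKerTotalEquiv K S).symm (f • D K S g)) = r f g
  rw [h2]
  exact total_single r g f

theorem lift_D (g : S) : lift r hleib (D K S g) = r 1 g := by
  rw [← lift_smul_D r hleib 1 g, one_smul]

end

/-- Existence form. -/
theorem exists_lift (r : S →ₗ[K] S →ₗ[K] N)
    (hleib : ∀ f g h, r f (g * h) = r (f * g) h + r (f * h) g) :
    ∃ L : Ω[S⁄K] →ₗ[K] N, ∀ f g, L (f • D K S g) = r f g :=
  ⟨lift r hleib, lift_smul_D r hleib⟩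

end Fermat.Agent.RR.OmegaLift
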