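/-
C-RR (LOC, helper18): local residues at the places of a function field in one variable, from
Tate's abstract residue (`RR/AbsResidue.lean`, `V = F`, `A = O_v`).

* `resPair v hres : F →ₗ[K] F →ₗ[K] K`, `(f, g) ↦ res_v (f dg)`;
* `resΩ v hres : Ω[F⁄K] →ₗ[K] K` with `resΩ (f • D g) = res (ringSub v) (mulOp f) (mulOp g)`.
-/
import Mathlib
import Fermat.Prelude.Def_AlgebraicCurve_CanonicalDivisor
import Fermat.Agent.RR.AbsResidue
import Fermat.Agent.RR.LocalPrep
import Fermat.Agent.RR.OmegaLift

set_option autoImplicit false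
set_option linter.unusedSectionVars false

namespace Fermat.Agent.RR.LocalRes

open AlgebraicCurve KaehlerDifferential Fermat.Agent.RR Fermat.Agent.RR.Commens
  Fermat.Agent.RR.AbsResidue Fermat.Agent.RR.LocalPrep Fermat.Agent.X0.FF

variable {K F : Type*} [Field K] [Field F] [Algebra K F]

/-- Multiplication by `f` as a `K`-linear endomorphism of `F`. -/
noncomputable def mulOp (f : F) : Module.End K F := LinearMap.mulLeft K f

@[simp] theorem mulOp_apply (f a : F) : mulOp (K := K) f a = f * a := rfl

theorem mulOp_mul (f g : F) : mulOp (K := K) (f * g) = mulOp f * mulOp g := by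
  ext a; simp [mul_assoc]

theorem mulOp_comm (f g : F) : mulOp (K := K) f * mulOp g = mulOp g * mulOp f := by
  rw [← mulOp_mul, ← mulOp_mul, mul_comm]

theorem mulOp_add (f g : F) : mulOp (K := K) (f + g) = mulOp f + mulOp g := by
  ext a; simp [add_mul]

theorem mulOp_smul (c : K) (f : F) : mulOp (K := K) (c • f) = c • mulOp f := by
  ext a; simp

theorem mulOp_one : mulOp (K := K) (1 : F) = 1 := by
  ext a; simp

variable (v : Place K F)
  (hres : ∀ f ∈ v.toValuationSubring,
    ∃ c : K, f = algebraMap K F c ∨ 0 < v.ord (f - algebraMap K F c))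

include hres in
theorem inE_mulOp (f : F) : InE (ringSub v) (mulOp (K := K) f) :=
  map_mulLeft_prec v hres f

/-- The local residue pairing `(f, g) ↦ res_v (f dg)`. -/
noncomputable def resPair : F →ₗ[K] F →ₗ[K] K :=
  LinearMap.mk₂ K (fun f g => res (ringSub v) (mulOp (K := K) f) (mulOp g))
    (fun f f' g => by
      rw [mulOp_add]
      exact res_add_left (mulOp_comm f g) (mulOp_comm f' g) (inE_mulOp v hres f)
        (inE_mulOp v hres f') (inE_mulOp v hres g))
    (fun c f g => by rw [mulOp_smul, res_smul_left, smul_eq_mul])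
    (fun f g g' => by
      rw [mulOp_add]
      exact res_add_right (mulOp_comm f g) (mulOp_comm f g') (inE_mulOp v hres f)
        (inE_mulOp v hres g) (inE_mulOp v hres g'))
    (fun c f g => by rw [mulOp_smul, res_smul_right, smul_eq_mul])

theorem resPair_apply (f g : F) :
    resPair v hres f g = res (ringSub v) (mulOp (K := K) f) (mulOp g) := rfl

theorem resPair_leibniz (f g h : F) :
    resPair v hres f (g * h) = resPair v hres (f * g) h + resPair v hres (f * h) g := by
  simp only [resPair_apply, mulOp_mul]
  exact res_leibniz (mulOp_comm f g) (mulOp_comm f h) (mulOp_comm g h) (inE_mulOp v hres f)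
    (inE_mulOp v hres g) (inE_mulOp v hres h)

/-- The residue at `v` as a `K`-linear form on differentials. -/
noncomputable def resΩ : Ω[F⁄K] →ₗ[K] K :=
  OmegaLift.lift (resPair v hres) (resPair_leibniz v hres)

theorem resΩ_smul_D (f g : F) :
    resΩ v hres (f • D K F g) = res (ringSub v) (mulOp (K := K) f) (mulOp g) :=
  OmegaLift.lift_smul_D _ _ f g

theorem resΩ_D (g : F) :
    resΩ v hres (D K F g) = res (ringSub v) (mulOp (K := K) 1) (mulOp g) := by
  rw [← resΩ_smul_D, one_smul]

end Fermat.Agent.RR.LocalRes
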