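/-
C-RR (LOC part 2, helper18): the two local properties of the residue needed by Serre duality:
regular differentials have residue zero, differentials with a simple pole have nonzero residue.
Output: `LocalRes.resΩ` satisfies the first three fields of `Duality.ResidueData`.
-/
import Mathlib
import Fermat.Prelude.Def_AlgebraicCurve_CanonicalDivisor
import Fermat.Agent.RR.LocalRes
import Fermat.Agent.X0.FFDiff

set_option autoImplicit false
set_option linter.unusedSectionVars false
set_option linter.style.haveILetI false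

namespace Fermat.Agent.RR.LocalResMain

open AlgebraicCurve KaehlerDifferential Fermat.Agent.RR Fermat.Agent.RR.Commens
  Fermat.Agent.RR.AbsResidue Fermat.Agent.RR.LocalPrep Fermat.Agent.RR.LocalRes
  Fermat.Agent.X0.FF

variable {K F : Type*} [Field K] [Field F] [Algebra K F]

section Local

variable (v : Place K F)
  (hres : ∀ f ∈ v.toValuationSubring,
    ∃ c : K, f = algebraMap K F c ∨ 0 < v.ord (f - algebraMap K F c))

/-- `res_v (a dt) = 0` for `a, t ∈ O_v`. -/
theorem resΩ_smul_D_eq_zero {a g : F} (ha : a ∈ v.toValuationSubring)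
    (hg : g ∈ v.toValuationSubring) : resΩ v hres (a • D K F g) = 0 := by
  rw [resΩ_smul_D]
  exact res_eq_zero_of_stable (mulOp_comm a g) (map_mulLeft_le v ha) (map_mulLeft_le v hg)

/-- `res_v (t⁻¹ dt) = 1` for a uniformizer `t`. -/
theorem resΩ_inv_smul_D_uniformizer {t : F} (ht : v.ord t = 1) :
    resΩ v hres (t⁻¹ • D K F t) = 1 := by
  have ht0 : t ≠ 0 := by rintro rfl; simp at ht
  have htmem : t ∈ v.toValuationSubring := ffp_mem_of_ord_nonneg v (by rw [ht]; exact zero_le_one)
  rw [resΩ_smul_D, res_inv_self (A := ringSub v) (f := mulOp t) (h := mulOp t⁻¹)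
    (by rw [← mulOp_mul, mul_inv_cancel₀ ht0, mulOp_one])
    (by rw [← mulOp_mul, inv_mul_cancel₀ ht0, mulOp_one]) (inE_mulOp v hres t⁻¹)
    (map_mulLeft_le v htmem)]
  have := finrank_quotient_uniformizer v hres ht
  unfold mulOp
  rw [this, Nat.cast_one]

/-- A differential `a dt` with `ord a = -1` has nonzero residue. -/
theorem resΩ_smul_D_ne_zero {t a : F} (ht : v.ord t = 1)
    (ha : v.ord a = -1) : resΩ v hres (a • D K F t) ≠ 0 := by
  have ht0 : t ≠ 0 := by rintro rfl; simp at ht
  have ha0 : a ≠ 0 := by rintro rfl; simp at ha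
  have htmem : t ∈ v.toValuationSubring := ffp_mem_of_ord_nonneg v (by rw [ht]; exact zero_le_one)
  set b : F := a * t with hb
  have hbord : v.ord b = 0 := by rw [hb, v.ord_mul ha0 ht0, ha, ht]; ring
  have hb0 : b ≠ 0 := mul_ne_zero ha0 ht0
  obtain ⟨c, hc⟩ := hres b (ffp_mem_of_ord_nonneg v hbord.ge)
  have hc0 : c ≠ 0 := by
    rintro rfl
    rw [map_zero, sub_zero] at hc
    rcases hc with hc | hc
    · exact hb0 hc
    · omega
  set a' : F := (b - algebraMap K F c) * t⁻¹ with ha'
  have ha'mem : a' ∈ v.toValuationSubring := by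
    rcases hc with hc | hc
    · rw [ha', hc, sub_self, zero_mul]; exact zero_mem _
    · have hne : b - algebraMap K F c ≠ 0 := by
        intro h0; rw [h0, v.ord_zero] at hc; exact lt_irrefl _ hc
      apply ffp_mem_of_ord_nonneg
      rw [ha', v.ord_mul hne (inv_ne_zero ht0), v.ord_inv, ht]
      omega
  have hdecomp : a = c • t⁻¹ + a' := by
    rw [ha', hb, Algebra.smul_def]
    field_simp
    ring
  rw [hdecomp, add_smul, map_add, smul_assoc, map_smul,
    resΩ_inv_smul_D_uniformizer v hres ht, resΩ_smul_D_eq_zero v hres ha'mem htmem,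
    add_zero, smul_eq_mul, mul_one]
  exact hc0

end Local

section Global

variable [IsAlgClosed K] [CharZero K] {x : F} (hx : IsGen K x)

include hx

/-- The residue hypothesis holds for function fields over an algebraically closed field. -/
theorem hres_of_isGen (v : Place K F) : ∀ f ∈ v.toValuationSubring,
    ∃ c : K, f = algebraMap K F c ∨ 0 < v.ord (f - algebraMap K F c) :=
  fun _ hf => ffp_exists_ord_sub_pos v x (ffg_isAlgebraic hx) hf

/-- The residue at `v`. -/
noncomputable def residue (v : Place K F) : Ω[F⁄K] →ₗ[K] K :=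
  resΩ v (hres_of_isGen hx v)

theorem residue_smul_D (v : Place K F) (f g : F) :
    residue hx v (f • D K F g) = res (ringSub v) (mulOp (K := K) f) (mulOp g) :=
  resΩ_smul_D v _ f g

/-- Regular differentials have residue zero. -/
theorem residue_eq_zero (v : Place K F) (ω : Ω[F⁄K])
    (h : 0 ≤ v.ordDifferential ω) : residue hx v ω = 0 := by
  haveI := dCoordGenerates hx v
  have hω := (v.differentialCoeff_smul_dCoord ω).symm
  rw [ffu_dCoord] at hω
  rw [hω]
  refine resΩ_smul_D_eq_zero v _ (ffp_mem_of_ord_nonneg v h) ?_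
  exact (ffu v).2

/-- Differentials with a simple pole have nonzero residue. -/
theorem residue_ne_zero (v : Place K F) (ω : Ω[F⁄K])
    (h : v.ordDifferential ω = -1) : residue hx v ω ≠ 0 := by
  haveI := dCoordGenerates hx v
  have hω := (v.differentialCoeff_smul_dCoord ω).symm
  rw [ffu_dCoord] at hω
  rw [hω]
  exact resΩ_smul_D_ne_zero v _ (ffu_ord v) h

/-- Nondegeneracy: if `ord_v ω = -1 - m` there is `a` of order `m` with `res_v (a ω) ≠ 0`. -/
theorem exists_residue_smul_ne_zero (v : Place K F)
    {ω : Ω[F⁄K]} (hω : ω ≠ 0) (m : ℤ) (h : v.ordDifferential ω = -1 - m) :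
    ∃ a : F, a ≠ 0 ∧ v.ord a = m ∧ residue hx v (a • ω) ≠ 0 := by
  have ht0 := ffu_ne_zero v
  refine ⟨((ffu v : v.toValuationSubring) : F) ^ m, zpow_ne_zero _ ht0, ?_, ?_⟩
  · rw [v.ord_zpow, ffu_ord, mul_one]
  · apply residue_ne_zero hx
    rw [ordDifferential_smul' hx v (zpow_ne_zero _ ht0) hω, v.ord_zpow, ffu_ord, h]
    ring

end Global

end Fermat.Agent.RR.LocalResMain
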