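import Mathlib
import Fermat.Agent.RR.FinPotent

/-!
# Traces of diagonal finite-potent operators on restricted products (C-RR, for (GLOB))

`V` is a `K`-space embedded in `ι → F` (`j : V →ₗ[K] (ι → F)` injective) containing all vectors
supported at one index (`IsRestrictedProd j`).  An endomorphism `Θ` of `V` is *diagonal* with
components `θ v : End K F` if `j (Θ x) v = θ v (j x v)`.

Main result `fpTrace_diag`: if `Θ` is finite potent and `θ v * θ v = 0` for all `v` outside a
finite set `S`, then `fpTrace Θ = ∑ v ∈ S, fpTrace (θ v)`.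
-/

set_option autoImplicit false

namespace Fermat.Agent.RR.DiagTrace

open Fermat.Agent.RR LinearMap

variable {K : Type*} [Field K] {ι : Type*} {F : Type*} [AddCommGroup F] [Module K F]
variable {V : Type*} [AddCommGroup V] [Module K V]

/-- `V` is a restricted product inside `ι → F`. -/
structure IsRestrictedProd (j : V →ₗ[K] (ι → F)) : Prop where
  inj : Function.Injective j
  single : ∀ (v : ι) (a : F), ∃ y : V, j y v = a ∧ ∀ w, w ≠ v → j y w = 0

/-- `Θ` is diagonal with components `θ`. -/
def IsDiag (j : V →ₗ[K] (ι → F)) (Θ : Module.End K V) (θ : ι → Module.End K F) : Prop :=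
  ∀ x v, j (Θ x) v = θ v (j x v)

namespace IsRestrictedProd

variable {j : V →ₗ[K] (ι → F)} (hj : IsRestrictedProd j)

include hj in
theorem ext_of_forall {x y : V} (h : ∀ v, j x v = j y v) : x = y :=
  hj.inj (funext h)

/-- The vector supported at `v` with value `a`. -/
noncomputable def sgl (v : ι) (a : F) : V := (hj.single v a).choose

theorem j_sgl_self (v : ι) (a : F) : j (hj.sgl v a) v = a := (hj.single v a).choose_spec.1

theorem j_sgl_of_ne (v : ι) (a : F) {w : ι} (h : w ≠ v) : j (hj.sgl v a) w = 0 :=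
  (hj.single v a).choose_spec.2 w h

/-- The cut operator at `v`: keeps the `v`-component and kills all others. -/
noncomputable def cutAt (v : ι) : Module.End K V where
  toFun x := hj.sgl v (j x v)
  map_add' x y := by
    apply hj.ext_of_forall
    intro w
    by_cases hw : w = v
    · subst hw
      simp only [map_add, Pi.add_apply, j_sgl_self]
    · simp only [map_add, Pi.add_apply, hj.j_sgl_of_ne _ _ hw, add_zero]
  map_smul' c x := by
    apply hj.ext_of_forall
    intro w
    by_cases hw : w = v
    · subst hw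
      simp only [map_smul, Pi.smul_apply, j_sgl_self, RingHom.id_apply]
    · simp only [map_smul, Pi.smul_apply, hj.j_sgl_of_ne _ _ hw, smul_zero, RingHom.id_apply]

theorem j_cutAt_self (v : ι) (x : V) : j (hj.cutAt v x) v = j x v := hj.j_sgl_self v _

theorem j_cutAt_of_ne (v : ι) (x : V) {w : ι} (h : w ≠ v) : j (hj.cutAt v x) w = 0 :=
  hj.j_sgl_of_ne v _ h

theorem cutAt_idem (v : ι) : IsIdempotentElem (hj.cutAt v) := by
  apply LinearMap.ext
  intro x
  apply hj.ext_of_forall
  intro w
  by_cases hw : w = v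
  · subst hw
    rw [Module.End.mul_apply, j_cutAt_self, j_cutAt_self]
  · rw [Module.End.mul_apply, hj.j_cutAt_of_ne _ _ hw, hj.j_cutAt_of_ne _ _ hw]

theorem cutAt_apply_of_mem_range {v : ι} {x : V} (hx : x ∈ range (hj.cutAt v)) :
    hj.cutAt v x = x := by
  obtain ⟨y, rfl⟩ := hx
  have := congrArg (fun f : Module.End K V => f y) (hj.cutAt_idem v).eq
  simpa using this

theorem j_of_mem_range {v : ι} {x : V} (hx : x ∈ range (hj.cutAt v)) {w : ι} (h : w ≠ v) :
    j x w = 0 := by
  rw [← hj.cutAt_apply_of_mem_range hx]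
  exact hj.j_cutAt_of_ne v x h

theorem j_of_mem_ker {v : ι} {x : V} (hx : x ∈ ker (hj.cutAt v)) : j x v = 0 := by
  have h := hj.j_cutAt_self v x
  rw [LinearMap.mem_ker.mp hx, map_zero] at h
  exact h.symm

/-- The `v`-component as a linear equivalence `range (cutAt v) ≃ F`. -/
noncomputable def rangeEquiv (v : ι) : range (hj.cutAt v) ≃ₗ[K] F :=
  LinearEquiv.ofBijective
    ((LinearMap.proj v ∘ₗ j) ∘ₗ (range (hj.cutAt v)).subtype)
    ⟨by
      rw [← LinearMap.ker_eq_bot, LinearMap.ker_eq_bot']
      intro x hx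
      have hxv : j (x : V) v = 0 := hx
      apply Subtype.ext
      apply hj.ext_of_forall
      intro w
      by_cases hw : w = v
      · subst hw
        rw [hxv]
        simp
      · rw [hj.j_of_mem_range x.2 hw]
        simp,
     by
      intro a
      refine ⟨⟨hj.sgl v a, ⟨hj.sgl v a, ?_⟩⟩, hj.j_sgl_self v a⟩
      apply hj.ext_of_forall
      intro w
      by_cases hw : w = v
      · subst hw
        rw [j_cutAt_self]
      · rw [hj.j_cutAt_of_ne _ _ hw, hj.j_sgl_of_ne _ _ hw]⟩

theorem rangeEquiv_apply (v : ι) (x : range (hj.cutAt v)) : hj.rangeEquiv v x = j (x : V) v := rfl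

/-! ### Diagonal operators -/

variable {Θ : Module.End K V} {θ : ι → Module.End K F}

include hj in
theorem cutAt_comm (hΘ : IsDiag j Θ θ) (v : ι) : Θ * hj.cutAt v = hj.cutAt v * Θ := by
  apply LinearMap.ext
  intro x
  apply hj.ext_of_forall
  intro w
  rw [Module.End.mul_apply, Module.End.mul_apply, hΘ]
  by_cases hw : w = v
  · subst hw
    rw [j_cutAt_self, j_cutAt_self, hΘ]
  · rw [hj.j_cutAt_of_ne _ _ hw, hj.j_cutAt_of_ne _ _ hw, map_zero]

include hj in
theorem map_range (hΘ : IsDiag j Θ θ) (v : ι) : ∀ x ∈ range (hj.cutAt v), Θ x ∈ range (hj.cutAt v) := by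
  rintro _ ⟨y, rfl⟩
  refine ⟨Θ y, ?_⟩
  have := congrArg (fun f : Module.End K V => f y) (hj.cutAt_comm hΘ v)
  simpa using this.symm

include hj in
theorem map_ker (hΘ : IsDiag j Θ θ) (v : ι) : ∀ x ∈ ker (hj.cutAt v), Θ x ∈ ker (hj.cutAt v) := by
  intro x hx
  rw [LinearMap.mem_ker] at hx ⊢
  have := congrArg (fun f : Module.End K V => f x) (hj.cutAt_comm hΘ v)
  simp only [Module.End.mul_apply] at this
  rw [← this, hx, map_zero]

include hj in
/-- A diagonal operator all of whose components have square zero has square zero. -/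
theorem sq_eq_zero (hΘ : IsDiag j Θ θ) (h : ∀ v, θ v * θ v = 0) : Θ ^ 2 = 0 := by
  apply LinearMap.ext
  intro x
  apply hj.ext_of_forall
  intro v
  rw [pow_two, Module.End.mul_apply, hΘ, hΘ, ← Module.End.mul_apply, h v]
  simp

include hj in
/-- The trace of the restriction of a diagonal operator to the `v`-th factor. -/
theorem fpTrace_restrict_range (hΘ : IsDiag j Θ θ) (v : ι) :
    fpTrace (Θ.restrict (hj.map_range hΘ v) : Module.End K (range (hj.cutAt v))) =
      fpTrace (θ v) := by
  refine fpTrace_conj (hj.rangeEquiv v) _ _ ?_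
  intro x
  rw [rangeEquiv_apply, rangeEquiv_apply]
  exact hΘ x v

end IsRestrictedProd

open IsRestrictedProd

/-- Finite potency is inherited by `Θ * Q` for `Q` commuting with `Θ`. -/
theorem isFinitePotent_mul_of_commute {Θ Q : Module.End K V} (h : IsFinitePotent Θ)
    (hc : Commute Θ Q) : IsFinitePotent (Θ * Q) := by
  rw [isFinitePotent_iff] at h ⊢
  obtain ⟨n, hn⟩ := h
  refine ⟨n, ?_⟩
  rw [hc.mul_pow]
  have hle : range (Θ ^ n * Q ^ n) ≤ range (Θ ^ n) := by
    rintro _ ⟨x, rfl⟩
    exact ⟨(Q ^ n) x, rfl⟩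
  exact Submodule.finiteDimensional_of_le hle

/-- **Trace of a diagonal finite-potent operator**: only the finitely many components which are
not of square zero contribute. -/
theorem fpTrace_diag {j : V →ₗ[K] (ι → F)} (hj : IsRestrictedProd j) (S : Finset ι) :
    ∀ (Θ : Module.End K V) (θ : ι → Module.End K F), IsDiag j Θ θ → IsFinitePotent Θ →
      (∀ v, v ∉ S → θ v * θ v = 0) → fpTrace Θ = ∑ v ∈ S, fpTrace (θ v) := by
  classical
  induction S using Finset.induction_on with
  | empty =>
    intro Θ θ hΘ _ h0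
    rw [Finset.sum_empty]
    exact fpTrace_eq_zero_of_pow_eq_zero (hj.sq_eq_zero hΘ fun v => h0 v (Finset.notMem_empty v))
  | insert v S hvS ih =>
    intro Θ θ hΘ hfp h0
    rw [Finset.sum_insert hvS]
    have hc := (hj.cutAt_idem v).isCompl
    -- split `Θ`
    rw [fpTrace_eq_add_of_isCompl hfp hc (hj.map_range hΘ v) (hj.map_ker hΘ v),
      hj.fpTrace_restrict_range hΘ v]
    congr 1
    -- the auxiliary operator `Θ' = Θ (1 - P)`
    set Q : Module.End K V := 1 - hj.cutAt v with hQ
    have hcomm : Commute Θ Q := by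
      show Θ * Q = Q * Θ
      rw [hQ, mul_sub, sub_mul, mul_one, one_mul, hj.cutAt_comm hΘ v]
    have hfp' : IsFinitePotent (Θ * Q) := isFinitePotent_mul_of_commute hfp hcomm
    have hΘ' : IsDiag j (Θ * Q) (Function.update θ v 0) := by
      intro x w
      rw [Module.End.mul_apply, hΘ, hQ, LinearMap.sub_apply, Module.End.one_apply, map_sub,
        Pi.sub_apply]
      by_cases hw : w = v
      · subst hw
        rw [hj.j_cutAt_self, sub_self, map_zero, Function.update_self]
        simp
      · rw [hj.j_cutAt_of_ne _ _ hw, sub_zero, Function.update_of_ne hw]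
    have h0' : ∀ w, w ∉ S → Function.update θ v 0 w * Function.update θ v 0 w = 0 := by
      intro w hw
      by_cases hwv : w = v
      · subst hwv
        rw [Function.update_self, mul_zero]
      · rw [Function.update_of_ne hwv]
        exact h0 w (by rw [Finset.mem_insert, not_or]; exact ⟨hwv, hw⟩)
    have e1 := ih (Θ * Q) (Function.update θ v 0) hΘ' hfp' h0'
    have e2 : ∑ w ∈ S, fpTrace (Function.update θ v 0 w) = ∑ w ∈ S, fpTrace (θ w) := by
      refine Finset.sum_congr rfl fun w hw => ?_
      have hwv : w ≠ v := fun h => hvS (by rw [← h]; exact hw)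
      rw [Function.update_of_ne hwv]
    rw [← e2, ← e1,
      fpTrace_eq_add_of_isCompl hfp' hc (hj.map_range hΘ' v) (hj.map_ker hΘ' v)]
    have z1 : ((Θ * Q).restrict (hj.map_range hΘ' v) : Module.End K (range (hj.cutAt v))) = 0 := by
      apply LinearMap.ext
      intro x
      apply Subtype.ext
      show (Θ * Q) (x : V) = 0
      rw [Module.End.mul_apply, hQ, LinearMap.sub_apply, Module.End.one_apply,
        hj.cutAt_apply_of_mem_range x.2, sub_self, map_zero]
    have z2 : ((Θ * Q).restrict (hj.map_ker hΘ' v) : Module.End K (ker (hj.cutAt v))) =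
        Θ.restrict (hj.map_ker hΘ v) := by
      apply LinearMap.ext
      intro x
      apply Subtype.ext
      show (Θ * Q) (x : V) = Θ (x : V)
      rw [Module.End.mul_apply, hQ, LinearMap.sub_apply, Module.End.one_apply,
        LinearMap.mem_ker.mp x.2, sub_zero]
    rw [z1, z2, fpTrace_zero, zero_add]

end Fermat.Agent.RR.DiagTrace
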