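import Mathlib
import Fermat.Prelude.Def_AlgebraicCurve_Repartitions
import Fermat.Agent.RR.FinPotent
import Fermat.Agent.RR.Commens
import Fermat.Agent.RR.DiagTrace
import Fermat.Agent.X0.FFPlace

/-!
# The residue theorem (C-RR, piece (GLOB), helper9)

`V = repartitions K F` (adeles), `A = A(0) = repartitionsOf 0`.  From projections
`π v : F → O_v` we build the diagonal projection `diagProj π` of `V` onto `A`.  For `f g : F` the
commutator `[diagProj π ∘ f, g]` on `V` is diagonal with components `[π v ∘ f, g]` on `F`, and
the components at places where `f, g` are regular have square zero.  Hence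
(`fpTrace_globalComm`)

  `fpTrace [diagProj π ∘ f, g] = ∑ v ∈ S, fpTrace [π v ∘ f, g]`.

With Tate's (GLOB0) (the left side vanishes) this is the residue theorem `∑ᵥ res_v (f dg) = 0`;
`finsum_res_eq_zero` / `finsum_resΩ_eq_zero` give the final forms against the (TRES)/(LOC)
statements as explicit hypotheses.
-/

set_option autoImplicit false

noncomputable section

namespace Fermat.Agent.RR.ResidueThm

open AlgebraicCurve Fermat.Agent.RR Fermat.Agent.RR.Commens Fermat.Agent.RR.DiagTrace
open Fermat.Agent.X0.FF

variable {K F : Type*} [Field K] [Field F] [Algebra K F]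

/-! ### Local objects -/

/-- The valuation ring of `v` as a `K`-subspace of `F`. -/
def rt_Ov (v : Place K F) : Submodule K F where
  carrier := {x | x ∈ v.toValuationSubring}
  zero_mem' := v.toValuationSubring.zero_mem
  add_mem' := fun {a b} ha hb => v.toValuationSubring.add_mem a b ha hb
  smul_mem' := fun c x hx => by
    show c • x ∈ v.toValuationSubring
    rw [Algebra.smul_def]
    exact v.toValuationSubring.mul_mem _ _ (v.algebraMap_mem' c) hx

theorem rt_mem_Ov {v : Place K F} {x : F} : x ∈ rt_Ov v ↔ x ∈ v.toValuationSubring := Iff.rfl

/-- Multiplication by `f` on `F`, as a `K`-linear endomorphism. -/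
def rt_mulF (f : F) : Module.End K F := LinearMap.mulLeft K f

@[simp] theorem rt_mulF_apply (f x : F) : rt_mulF (K := K) f x = f * x := rfl

/-- The local commutator `[π ∘ f, g]` on `F`. -/
def rt_localComm (π : Module.End K F) (f g : F) : Module.End K F :=
  π * rt_mulF f * rt_mulF g - rt_mulF g * π * rt_mulF f

theorem rt_localComm_apply (π : Module.End K F) (f g x : F) :
    rt_localComm π f g x = π (f * (g * x)) - g * π (f * x) := rfl

/-- At a place where `f` and `g` are regular, the local commutator has square zero. -/
theorem rt_localComm_sq {v : Place K F} {π : Module.End K F} (hπ : IsProj (rt_Ov v) π) {f g : F}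
    (hf : f ∈ v.toValuationSubring) (hg : g ∈ v.toValuationSubring) :
    rt_localComm π f g * rt_localComm π f g = 0 := by
  have hmem : ∀ x, rt_localComm π f g x ∈ rt_Ov v := by
    intro x
    rw [rt_localComm_apply]
    refine Submodule.sub_mem _ (hπ.range_le _) ?_
    exact v.toValuationSubring.mul_mem _ _ hg (hπ.range_le _)
  have hzero : ∀ x ∈ rt_Ov v, rt_localComm π f g x = 0 := by
    intro x hx
    rw [rt_localComm_apply]
    have h1 : f * x ∈ rt_Ov v := v.toValuationSubring.mul_mem _ _ hf hx
    have h2 : f * (g * x) ∈ rt_Ov v :=
      v.toValuationSubring.mul_mem _ _ hf (v.toValuationSubring.mul_mem _ _ hg hx)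
    rw [hπ.apply_mem _ h1, hπ.apply_mem _ h2]
    ring
  apply LinearMap.ext
  intro x
  rw [Module.End.mul_apply, hzero _ (hmem x)]
  rfl

/-! ### Adeles as a restricted product -/

/-- The inclusion of the adeles into the full product. -/
def rt_incl : ↥(repartitions K F) →ₗ[K] (Place K F → F) where
  toFun α := (α : Place K F → F)
  map_add' _ _ := rfl
  map_smul' _ _ := rfl

@[simp] theorem rt_incl_apply (α : ↥(repartitions K F)) (v : Place K F) :
    rt_incl α v = (α : Place K F → F) v := rfl

theorem rt_isRestrictedProd : IsRestrictedProd (rt_incl (K := K) (F := F)) := by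
  classical
  refine ⟨fun α β h => Subtype.ext h, fun v a => ?_⟩
  have hmem : (fun w : Place K F => if w = v then a else 0) ∈ repartitions K F := by
    apply mem_repartitions_of_finite_ord
    refine (Set.finite_singleton v).subset ?_
    intro w hw
    rw [Set.mem_ofPred_eq] at hw
    by_contra hne
    rw [Set.mem_singleton_iff] at hne
    rw [if_neg hne, Place.ord_zero] at hw
    exact lt_irrefl 0 hw
  refine ⟨⟨_, hmem⟩, ?_, ?_⟩
  · simp
  · intro w hw
    simp [hw]

/-- Multiplication by `f` on the adeles. -/
def rt_mulR (f : F) : Module.End K ↥(repartitions K F) where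
  toFun α := f • α
  map_add' α β := smul_add f α β
  map_smul' c α := smul_comm f c α

@[simp] theorem rt_mulR_apply (f : F) (α : ↥(repartitions K F)) (v : Place K F) :
    ((rt_mulR (K := K) f α : ↥(repartitions K F)) : Place K F → F) v =
      f * (α : Place K F → F) v := rfl

/-- The diagonal projection of the adeles onto `A(0)` built from local projections. -/
def rt_diagProj (π : Place K F → Module.End K F) (hπ : ∀ v, IsProj (rt_Ov v) (π v)) :
    Module.End K ↥(repartitions K F) where
  toFun α := ⟨fun v => π v ((α : Place K F → F) v), by
    apply mem_repartitions_of_finite_ord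
    convert Set.finite_empty
    ext v
    simp only [Set.mem_ofPred_eq, Set.mem_empty_iff_false, iff_false, not_lt]
    exact ffp_ord_nonneg_of_mem v ((hπ v).range_le _)⟩
  map_add' α β := by
    apply Subtype.ext
    funext v
    show π v (((α + β : ↥(repartitions K F)) : Place K F → F) v) = _
    exact map_add (π v) _ _
  map_smul' c α := by
    apply Subtype.ext
    funext v
    show π v (((c • α : ↥(repartitions K F)) : Place K F → F) v) = _
    exact map_smul (π v) c _

@[simp] theorem rt_diagProj_apply (π : Place K F → Module.End K F)
    (hπ : ∀ v, IsProj (rt_Ov v) (π v)) (α : ↥(repartitions K F)) (v : Place K F) :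
    ((rt_diagProj π hπ α : ↥(repartitions K F)) : Place K F → F) v =
      π v ((α : Place K F → F) v) := rfl

theorem rt_mem_valuationSubring_of_adic_le {v : Place K F} {x : F}
    (h : v.adicValuation x ≤ 1) : x ∈ v.toValuationSubring := by
  rcases (v.adicValuation_le_one_iff).mp h with h0 | h0
  · rw [h0]; exact v.toValuationSubring.zero_mem
  · exact ffp_mem_of_ord_nonneg v h0

/-- The diagonal projection is a projection onto `A(0)`. -/
theorem rt_isProj_diagProj (π : Place K F → Module.End K F)
    (hπ : ∀ v, IsProj (rt_Ov v) (π v)) :
    IsProj (repartitionsOf (0 : Divisor K F)) (rt_diagProj π hπ) := by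
  constructor
  · intro α v
    show v.adicValuation (π v ((α : Place K F → F) v)) ≤ WithZero.exp ((0 : Divisor K F) v)
    have := v.adicValuation_le_one_of_mem ((hπ v).range_le ((α : Place K F → F) v))
    simpa using this
  · intro α hα
    apply Subtype.ext
    funext v
    have h1 : v.adicValuation ((α : Place K F → F) v) ≤ 1 := by
      have := hα v
      simpa using this
    exact (hπ v).apply_mem _ (rt_mem_valuationSubring_of_adic_le h1)

/-- The global commutator `[Π ∘ f, g]` on the adeles. -/
def rt_globalComm (P : Module.End K ↥(repartitions K F)) (f g : F) :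
    Module.End K ↥(repartitions K F) :=
  P * rt_mulR f * rt_mulR g - rt_mulR g * P * rt_mulR f

/-- The global commutator for a diagonal projection is diagonal. -/
theorem rt_isDiag_globalComm (π : Place K F → Module.End K F)
    (hπ : ∀ v, IsProj (rt_Ov v) (π v)) (f g : F) :
    IsDiag rt_incl (rt_globalComm (rt_diagProj π hπ) f g) (fun v => rt_localComm (π v) f g) := by
  intro α v
  rfl

/-- **Local-global decomposition of the trace.** -/
theorem fpTrace_globalComm (π : Place K F → Module.End K F)
    (hπ : ∀ v, IsProj (rt_Ov v) (π v)) (f g : F) (S : Finset (Place K F))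
    (hS : ∀ v, v ∉ S → f ∈ v.toValuationSubring ∧ g ∈ v.toValuationSubring)
    (hfp : IsFinitePotent (rt_globalComm (rt_diagProj π hπ) f g)) :
    fpTrace (rt_globalComm (rt_diagProj π hπ) f g) =
      ∑ v ∈ S, fpTrace (rt_localComm (π v) f g) :=
  fpTrace_diag rt_isRestrictedProd S _ _ (rt_isDiag_globalComm π hπ f g) hfp
    (fun v hv => rt_localComm_sq (hπ v) (hS v hv).1 (hS v hv).2)

/-! ### The residue theorem against the (TRES)/(GLOB0)/(C2) statements -/

/-- What the residue theorem needs from Tate's abstract residues: local residues computed by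
any projection onto `O_v`; the global commutator w.r.t. any projection onto `A(0)` is finite
potent with trace `0` (= (GLOB0) + independence of the projection); elements of `F` have
finitely many poles. -/
structure ResidueData (K F : Type*) [Field K] [Field F] [Algebra K F] where
  /-- the local residue `res_v (f dg)` -/
  res : Place K F → F → F → K
  res_eq : ∀ (v : Place K F) (f g : F) (π : Module.End K F), IsProj (rt_Ov v) π →
    res v f g = fpTrace (rt_localComm π f g)
  global_fp : ∀ (f g : F) (P : Module.End K ↥(repartitions K F)),
    IsProj (repartitionsOf (0 : Divisor K F)) P → IsFinitePotent (rt_globalComm P f g)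
  global_zero : ∀ (f g : F) (P : Module.End K ↥(repartitions K F)),
    IsProj (repartitionsOf (0 : Divisor K F)) P → fpTrace (rt_globalComm P f g) = 0
  finite_poles : ∀ f : F, {v : Place K F | v.ord f < 0}.Finite

namespace ResidueData

variable (R : ResidueData K F)

/-- The residue of `f dg` vanishes at places where `f` and `g` are regular. -/
theorem res_eq_zero_of_mem {v : Place K F} {f g : F} (hf : f ∈ v.toValuationSubring)
    (hg : g ∈ v.toValuationSubring) : R.res v f g = 0 := by
  obtain ⟨π, hπ⟩ := exists_isProj (rt_Ov v)
  rw [R.res_eq v f g π hπ]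
  refine fpTrace_eq_zero_of_pow_eq_zero (n := 2) ?_
  rw [pow_two]
  exact rt_localComm_sq hπ hf hg

open scoped Classical in
/-- The finite set of poles of `f` and `g`. -/
def poleSet (f g : F) : Finset (Place K F) :=
  (R.finite_poles f).toFinset ∪ (R.finite_poles g).toFinset

open scoped Classical in
theorem mem_of_notMem_poleSet {f g : F} {v : Place K F} (hv : v ∉ R.poleSet f g) :
    f ∈ v.toValuationSubring ∧ g ∈ v.toValuationSubring := by
  rw [poleSet, Finset.mem_union, not_or, Set.Finite.mem_toFinset, Set.Finite.mem_toFinset,
    Set.mem_ofPred_eq, Set.mem_ofPred_eq, not_lt, not_lt] at hv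
  exact ⟨ffp_mem_of_ord_nonneg v hv.1, ffp_mem_of_ord_nonneg v hv.2⟩

theorem support_res_subset (f g : F) :
    Function.support (fun v => R.res v f g) ⊆ (R.poleSet f g : Set (Place K F)) := by
  intro v hv
  by_contra hnot
  have h := R.mem_of_notMem_poleSet (f := f) (g := g) (v := v) (by simpa using hnot)
  exact hv (R.res_eq_zero_of_mem h.1 h.2)

theorem finite_support_res (f g : F) : (Function.support (fun v => R.res v f g)).Finite :=
  (R.poleSet f g).finite_toSet.subset (R.support_res_subset f g)

/-- **Residue theorem** for `f dg`. -/
theorem finsum_res_eq_zero (f g : F) : ∑ᶠ v, R.res v f g = 0 := by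
  classical
  choose π hπ using fun v : Place K F => exists_isProj (rt_Ov v)
  have hP := rt_isProj_diagProj π hπ
  have h1 := fpTrace_globalComm π hπ f g (R.poleSet f g)
    (fun v hv => R.mem_of_notMem_poleSet hv) (R.global_fp f g _ hP)
  rw [R.global_zero f g _ hP] at h1
  rw [finsum_eq_sum_of_support_subset _ (R.support_res_subset f g)]
  rw [h1]
  exact Finset.sum_congr rfl fun v _ => R.res_eq v f g (π v) (hπ v)

open KaehlerDifferential in
/-- **Residue theorem** for differentials: finiteness of the support. -/
theorem finite_support_resΩ (resΩ : Place K F → Ω[F⁄K] →ₗ[K] K)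
    (hΩ : ∀ (v : Place K F) (f g : F), resΩ v (f • KaehlerDifferential.D K F g) = R.res v f g)
    (ω : Ω[F⁄K]) : (Function.support (fun v => resΩ v ω)).Finite := by
  have key : ∀ ω : Ω[F⁄K], ∀ c : F, (Function.support (fun v => resΩ v (c • ω))).Finite := by
    intro ω
    have hω : ω ∈ Submodule.span F (Set.range (KaehlerDifferential.D K F)) := by
      rw [KaehlerDifferential.span_range_derivation]; exact Submodule.mem_top
    induction hω using Submodule.span_induction with
    | mem x hx =>
      obtain ⟨g, rfl⟩ := hx
      intro c
      simp only [hΩ]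
      exact R.finite_support_res c g
    | zero =>
      intro c
      simp
    | add x y _ _ hx hy =>
      intro c
      refine ((hx c).union (hy c)).subset ?_
      intro v hv
      rw [Function.mem_support, smul_add, map_add] at hv
      by_contra hnot
      rw [Set.mem_union, not_or, Function.mem_support, Function.mem_support, not_not,
        not_not] at hnot
      exact hv (by rw [hnot.1, hnot.2, add_zero])
    | smul a x _ hx =>
      intro c
      simp only [smul_smul]
      exact hx (c * a)
  have := key ω 1
  simpa using this

open KaehlerDifferential in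
/-- **Residue theorem**: `∑ᵥ res_v ω = 0`. -/
theorem finsum_resΩ_eq_zero (resΩ : Place K F → Ω[F⁄K] →ₗ[K] K)
    (hΩ : ∀ (v : Place K F) (f g : F), resΩ v (f • KaehlerDifferential.D K F g) = R.res v f g)
    (ω : Ω[F⁄K]) : ∑ᶠ v, resΩ v ω = 0 := by
  have key : ∀ ω : Ω[F⁄K], ∀ c : F, ∑ᶠ v, resΩ v (c • ω) = 0 := by
    intro ω
    have hω : ω ∈ Submodule.span F (Set.range (KaehlerDifferential.D K F)) := by
      rw [KaehlerDifferential.span_range_derivation]; exact Submodule.mem_top
    induction hω using Submodule.span_induction with
    | mem x hx =>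
      obtain ⟨g, rfl⟩ := hx
      intro c
      simp only [hΩ]
      exact R.finsum_res_eq_zero c g
    | zero =>
      intro c
      simp
    | add x y _ _ hx hy =>
      intro c
      simp only [smul_add, map_add]
      rw [finsum_add_distrib (R.finite_support_resΩ resΩ hΩ (c • x))
        (R.finite_support_resΩ resΩ hΩ (c • y)), hx c, hy c, add_zero]
    | smul a x _ hx =>
      intro c
      simp only [smul_smul]
      exact hx (c * a)
  have := key ω 1
  simpa using this

end ResidueData

end Fermat.Agent.RR.ResidueThm
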