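/-
C-RR (helper18): glue between the local residues (`RR/LocalResMain.lean`, Tate's `res` on
`V = F`, `A = O_v`) and the residue theorem (`RR/ResidueThm.lean`, helper9).  Given the two global
facts (GLOB0) about the adelic commutator, the residue theorem holds for `LocalResMain.residue`
and `Duality.ResidueData K F` is inhabited.
-/
import Mathlib
import Fermat.Agent.RR.LocalResMain
import Fermat.Agent.RR.ResidueThm
import Fermat.Agent.RR.Duality
import Fermat.Agent.X0.FFGenus

set_option autoImplicit false
set_option linter.unusedSectionVars false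

namespace Fermat.Agent.RR.ResidueLocalInst

open AlgebraicCurve KaehlerDifferential Fermat.Agent.RR Fermat.Agent.RR.Commens
  Fermat.Agent.RR.AbsResidue Fermat.Agent.RR.LocalPrep Fermat.Agent.RR.LocalRes
  Fermat.Agent.RR.LocalResMain Fermat.Agent.RR.ResidueThm Fermat.Agent.X0.FF

variable {K F : Type*} [Field K] [Field F] [Algebra K F]

theorem rt_Ov_eq (v : Place K F) : rt_Ov v = ringSub v := rfl

theorem rt_mulF_eq (f : F) : rt_mulF (K := K) f = mulOp f := rfl

/-- The local residue is computed by the local commutator for any projection onto `O_v`. -/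
theorem res_eq_fpTrace_localComm (v : Place K F)
    (hres : ∀ f ∈ v.toValuationSubring,
      ∃ c : K, f = algebraMap K F c ∨ 0 < v.ord (f - algebraMap K F c))
    (f g : F) {π : Module.End K F} (hπ : IsProj (rt_Ov v) π) :
    res (ringSub v) (mulOp (K := K) f) (mulOp g) = fpTrace (rt_localComm π f g) := by
  rw [res_eq_of_isProj (mulOp_comm f g) (inE_mulOp v hres f) (inE_mulOp v hres g)
    (A := ringSub v) (π := π) hπ]
  unfold rt_localComm
  rw [rt_mulF_eq, rt_mulF_eq, mul_assoc (mulOp g) π (mulOp f)]

variable [IsAlgClosed K] [CharZero K] {x : F} (hx : IsGen K x)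

include hx in
theorem finite_poles (f : F) : {v : Place K F | v.ord f < 0}.Finite := by
  rcases eq_or_ne f 0 with rfl | hf
  · simp
  · exact (ffq_finite_support_ord (Fermat.Agent.X0.FFGenus.ff1Data hx) hf).subset fun v hv => by
      show v.ord f ≠ 0
      have : v.ord f < 0 := hv
      omega

/-- helper9's `ResidueThm.ResidueData` from the two global facts. -/
noncomputable def residueThmData
    (gfp : ∀ (f g : F) (P : Module.End K ↥(repartitions K F)),
      IsProj (repartitionsOf (0 : Divisor K F)) P → IsFinitePotent (rt_globalComm P f g))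
    (gz : ∀ (f g : F) (P : Module.End K ↥(repartitions K F)),
      IsProj (repartitionsOf (0 : Divisor K F)) P → fpTrace (rt_globalComm P f g) = 0) :
    ResidueThm.ResidueData K F where
  res v f g := res (ringSub v) (mulOp (K := K) f) (mulOp g)
  res_eq v f g _ hπ := res_eq_fpTrace_localComm v (hres_of_isGen hx v) f g hπ
  global_fp := gfp
  global_zero := gz
  finite_poles := finite_poles hx

/-- **Residue theorem** for `LocalResMain.residue`, given the global facts. -/
theorem finsum_residue_eq_zero
    (gfp : ∀ (f g : F) (P : Module.End K ↥(repartitions K F)),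
      IsProj (repartitionsOf (0 : Divisor K F)) P → IsFinitePotent (rt_globalComm P f g))
    (gz : ∀ (f g : F) (P : Module.End K ↥(repartitions K F)),
      IsProj (repartitionsOf (0 : Divisor K F)) P → fpTrace (rt_globalComm P f g) = 0)
    (ω : Ω[F⁄K]) : ∑ᶠ v : Place K F, residue hx v ω = 0 :=
  (residueThmData hx gfp gz).finsum_resΩ_eq_zero (residue hx)
    (fun v f g => residue_smul_D hx v f g) ω

/-- The residue data consumed by Serre duality. -/
noncomputable def dualityResidueData
    (gfp : ∀ (f g : F) (P : Module.End K ↥(repartitions K F)),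
      IsProj (repartitionsOf (0 : Divisor K F)) P → IsFinitePotent (rt_globalComm P f g))
    (gz : ∀ (f g : F) (P : Module.End K ↥(repartitions K F)),
      IsProj (repartitionsOf (0 : Divisor K F)) P → fpTrace (rt_globalComm P f g) = 0) :
    Duality.ResidueData K F where
  res := residue hx
  res_eq_zero v ω _ h := residue_eq_zero hx v ω h
  res_ne_zero v ω _ h := residue_ne_zero hx v ω h
  sum_res := finsum_residue_eq_zero hx gfp gz

end Fermat.Agent.RR.ResidueLocalInst
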