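import Mathlib
import Fermat.Prelude.Def_AlgebraicCurve_Repartitions
import Fermat.Agent.RR.FinPotent
import Fermat.Agent.RR.Commens
import Fermat.Agent.RR.AbsResidue
import Fermat.Agent.RR.ResidueThm
import Fermat.Agent.RR.Adeles
import Fermat.Agent.RR.H1Finite
import Fermat.Agent.RR.LSpace
import Fermat.Agent.RR.Riemann
import Fermat.Agent.RR.LHypGen
import Fermat.Agent.RR.ResidueLocalInst
import Fermat.Agent.RR.Duality

/-!
# (GLOB0) and the residue theorem, hypothesis-free (C-RR, helper9)

* `rg_res_eq_zero_of_compl` : Tate's vanishing criterion (GLOB0), abstract: if `B` is stable under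
  the commuting `f, g`, `A ⊓ B` is finite-dimensional and `A ⊔ B` has finite codimension, then
  `res A f g = 0`.  Proof: Tate's Theorem 1 with the admissible pair `((1 - π_B) f, g)`, where
  `π_B` is the projection onto `B` along `W1 ⊔ W3` (`W1` a complement of `A ⊓ B` in `A`, `W3` a
  complement of `A ⊔ B`), gives `res A f g = - res B f g`, which vanishes by (R2).
* concrete half: `V` = adeles, `A = A(0)`, `B = F` (principal adeles):
  `rg_inE_mulR`, `rg_global_fp`, `rg_global_zero`.
* `residueData hx : Duality.ResidueData K F` and `finsum_residue_eq_zero hx`.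
-/

set_option autoImplicit false

namespace Fermat.Agent.RR.ResidueGlob

open AlgebraicCurve Fermat.Agent.RR Fermat.Agent.RR.Commens Fermat.Agent.RR.AbsResidue
  Fermat.Agent.RR.ResidueThm Fermat.Agent.X0.FF

section Abstract

variable {K V : Type*} [Field K] [AddCommGroup V] [Module K V]

/-- If `(A + B) / A` is finite-dimensional then `B ≺ A`. -/
theorem rg_prec_of_finite_map_mkQ {A B : Submodule K V}
    (h : Module.Finite K ↥(B.map A.mkQ)) : B ≺ A := by
  -- a section of `B → B.map A.mkQ`
  let q : ↥B →ₗ[K] ↥(B.map A.mkQ) :=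
    (A.mkQ ∘ₗ B.subtype).codRestrict (B.map A.mkQ) (fun b => ⟨b.1, b.2, rfl⟩)
  have hq : Function.Surjective q := by
    rintro ⟨_, b, hb, rfl⟩
    exact ⟨⟨b, hb⟩, rfl⟩
  obtain ⟨σ, hσ⟩ := LinearMap.exists_rightInverse_of_surjective q (LinearMap.range_eq_top.mpr hq)
  refine ⟨LinearMap.range (B.subtype ∘ₗ σ), inferInstance, ?_⟩
  intro b hb
  have h1 : q (σ (q ⟨b, hb⟩)) = q ⟨b, hb⟩ := by
    have := LinearMap.congr_fun hσ (q ⟨b, hb⟩)
    simpa using this
  have h2 : A.mkQ ((σ (q ⟨b, hb⟩) : V)) = A.mkQ b := congrArg Subtype.val h1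
  have h3 : b - (σ (q ⟨b, hb⟩) : V) ∈ A := by
    rw [← Submodule.Quotient.mk_eq_zero, Submodule.Quotient.mk_sub]
    rw [Submodule.mkQ_apply, Submodule.mkQ_apply] at h2
    rw [h2, sub_self]
  have h4 : b = (b - (σ (q ⟨b, hb⟩) : V)) + (σ (q ⟨b, hb⟩) : V) := by abel
  rw [h4]
  exact Submodule.add_mem_sup h3 ⟨q ⟨b, hb⟩, rfl⟩

/-- **(GLOB0)** Tate's vanishing criterion: if `B` is stable under the commuting `f, g ∈ E(A)`,
`A ⊓ B` is finite-dimensional and `A ⊔ B` has finite codimension, then `res A f g = 0`. -/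
theorem rg_res_eq_zero_of_compl {A B : Submodule K V} {f g : Module.End K V}
    (hfg : f * g = g * f) (hf : InE A f) (hg : InE A g) (hfB : B.map f ≤ B) (hgB : B.map g ≤ B)
    (hinf : Module.Finite K ↥(A ⊓ B)) (hsup : Module.Finite K (V ⧸ (A ⊔ B))) :
    res A f g = 0 := by
  -- a complement `W1` of `A ⊓ B` in `A`
  obtain ⟨C0, hC0⟩ := Submodule.exists_isCompl (A ⊓ B)
  set W1 : Submodule K V := C0 ⊓ A with hW1
  have hW1A : W1 ≤ A := inf_le_right
  have hW1B : Disjoint B W1 := by
    rw [disjoint_iff]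
    have : B ⊓ W1 ≤ (A ⊓ B) ⊓ C0 := by
      intro x hx
      exact ⟨⟨hx.2.2, hx.1⟩, hx.2.1⟩
    exact le_bot_iff.mp (this.trans (le_of_eq hC0.inf_eq_bot))
  have hAW1 : (A ⊓ B) ⊔ W1 = A := by
    rw [hW1, ← sup_inf_assoc_of_le C0 (inf_le_left : A ⊓ B ≤ A), hC0.sup_eq_top, top_inf_eq]
  have hBW1 : B ⊔ W1 = A ⊔ B := by
    apply le_antisymm
    · exact sup_le le_sup_right (hW1A.trans le_sup_left)
    · refine sup_le ?_ le_sup_left
      rw [← hAW1]
      exact sup_le (inf_le_right.trans le_sup_left) le_sup_right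
  -- a complement `W3` of `A ⊔ B`
  obtain ⟨W3, hW3⟩ := Submodule.exists_isCompl (A ⊔ B)
  have : Module.Finite K ↥W3 :=
    Module.Finite.equiv (Submodule.quotientEquivOfIsCompl (A ⊔ B) W3 hW3)
  have hBC : IsCompl B (W1 ⊔ W3) := by
    constructor
    · exact hW1B.disjoint_sup_right_of_disjoint_sup_left (by rw [hBW1]; exact hW3.disjoint)
    · rw [codisjoint_iff, ← sup_assoc, hBW1]
      exact hW3.sup_eq_top
  set π : Module.End K V := B.projection (W1 ⊔ W3) hBC with hπdef
  have hπ : IsProj B π :=
    ⟨fun v => Submodule.projection_apply_mem hBC v,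
      fun a ha => Submodule.projection_apply_of_mem_left hBC ha⟩
  have hπC : ∀ x, x - π x ∈ W1 ⊔ W3 := by
    intro x
    rw [← Submodule.projection_eq_self_sub_projection hBC]
    exact Submodule.projection_apply_mem hBC.symm x
  -- `π ∈ E₂(A)`
  have hπ2 : InE2 A π := by
    have hle : A.map π ≤ A ⊓ B := by
      rintro _ ⟨a, ha, rfl⟩
      rw [← hAW1] at ha
      obtain ⟨w0, hw0, w1, hw1, rfl⟩ := Submodule.mem_sup.mp ha
      have e1 : π w0 = w0 := hπ.apply_mem w0 hw0.2
      have e2 : π w1 = 0 :=
        Submodule.projection_apply_of_mem_right hBC (Submodule.mem_sup_left hw1)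
      rw [map_add, e1, e2, add_zero]
      exact hw0
    exact (prec_of_finite (A ⊓ B) ⊥).mono_left hle
  -- `(1 - π) f ∈ E₁(A)`
  have h1 : InE1 A ((1 - π) * f) := by
    refine ⟨W3, inferInstance, ?_⟩
    rintro _ ⟨x, -, rfl⟩
    have := hπC (f x)
    rw [Module.End.mul_apply, LinearMap.sub_apply, Module.End.one_apply]
    exact (sup_le_sup_right hW1A W3) this
  have hadm : Adm A f g ((1 - π) * f) g := by
    refine ⟨h1.inE, hg, ?_, ?_⟩
    · have : (1 - π) * f - f = -(π * f) := by rw [sub_mul, one_mul]; abel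
      rw [this]
      exact (hπ2.mul_right hf).neg
    · rw [sub_self]; exact inE2_zero
  rw [res_eq_fpTrace_commutator hfg hf hg hadm (Or.inl h1)]
  have key : (1 - π) * f * g - g * ((1 - π) * f) = -(π * f * g - g * (π * f)) := by
    have e : f * g - g * f = 0 := sub_eq_zero.mpr hfg
    calc (1 - π) * f * g - g * ((1 - π) * f)
        = (f * g - g * f) - (π * f * g - g * (π * f)) := by noncomm_ring
      _ = _ := by rw [e, zero_sub]
  rw [key, fpTrace_neg, neg_eq_zero,
    ← res_eq_of_isProj hfg (prec_of_le hfB) (prec_of_le hgB) hπ]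
  exact res_eq_zero_of_stable hfg hfB hgB

end Abstract

section Global

variable {K F : Type*} [Field K] [Field F] [Algebra K F]

theorem rg_mulR_comm (f g : F) :
    rt_mulR (K := K) f * rt_mulR g = rt_mulR g * rt_mulR f := by
  apply LinearMap.ext
  intro α
  apply Subtype.ext
  funext v
  show f * (g * (α : Place K F → F) v) = g * (f * (α : Place K F → F) v)
  ring

theorem rg_mulR_zero : rt_mulR (K := K) (0 : F) = 0 := by
  apply LinearMap.ext
  intro α
  apply Subtype.ext
  funext v
  show (0 : F) * (α : Place K F → F) v = 0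
  rw [zero_mul]

/-- `f • A(0) ≤ A(D)` as soon as `D` dominates the poles of `f`. -/
theorem rg_map_mulR_le (D : Divisor K F) {f : F} (hf : f ≠ 0) (hD : ∀ v : Place K F, -D v ≤ v.ord f) :
    (repartitionsOf (0 : Divisor K F)).map (rt_mulR f) ≤ repartitionsOf D := by
  rintro _ ⟨α, hα, rfl⟩
  rw [mem_repartitionsOf_iff]
  intro v
  have h0 := (mem_repartitionsOf_iff.mp hα) v
  rw [rt_mulR_apply]
  rcases h0 with h0 | h0
  · left; rw [h0, mul_zero]
  · by_cases hα0 : (α : Place K F → F) v = 0
    · left; rw [hα0, mul_zero]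
    · right
      rw [v.ord_mul hf hα0]
      have h1 := hD v
      have h2 : (0 : Divisor K F) v = 0 := rfl
      rw [h2, neg_zero] at h0
      omega

/-- Multiplication by `f` maps `A(0)` into a subspace commensurable with `A(0)`. -/
theorem rg_inE_mulR (H : FF1Data K F) (HL : LSpace.LHyp K F) (f : F) :
    InE (repartitionsOf (0 : Divisor K F)) (rt_mulR f) := by
  by_cases hf : f = 0
  · rw [hf, rg_mulR_zero]; exact inE_zero
  · have hle := rg_map_mulR_le (Riemann.poleDiv HL hf) hf (fun v => by
      rw [Riemann.poleDiv_apply]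
      have := le_max_right 0 (-(v.ord f))
      omega)
    have hfin := (Adeles.finrank_repartitionsOf H (Riemann.poleDiv_nonneg HL hf)).1
    exact (rg_prec_of_finite_map_mkQ hfin).mono_left hle

/-- The principal repartitions are stable under multiplication by `f`. -/
theorem rg_map_mulR_principal_le (f : F) :
    (principalRepartitions K F).map (rt_mulR f) ≤ principalRepartitions K F := by
  rintro _ ⟨α, hα, rfl⟩
  obtain ⟨h, hh⟩ := mem_principalRepartitions_iff.mp hα
  refine mem_principalRepartitions_iff.mpr ⟨f * h, ?_⟩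
  funext v
  rw [rt_mulR_apply, hh]

theorem rg_finite_inf (HL : LSpace.LHyp K F) :
    Module.Finite K ↥(repartitionsOf (0 : Divisor K F) ⊓ principalRepartitions K F) := by
  rw [← Adeles.map_diag_riemannRochSpace]
  have := LSpace.finiteDimensional_L HL (0 : Divisor K F)
  infer_instance

variable (H : FF1Data K F) (HL : LSpace.LHyp K F)
  (hR : ∃ γ : ℤ, ∀ D : Divisor K F,
    Divisor.degree D + 1 - γ ≤ (Module.finrank K (riemannRochSpace D) : ℤ))

include H HL in
/-- The global commutator `[P f, g]` on the adeles is finite potent. -/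
theorem rg_global_fp (f g : F) (P : Module.End K ↥(repartitions K F))
    (hP : IsProj (repartitionsOf (0 : Divisor K F)) P) :
    IsFinitePotent (rt_globalComm P f g) := by
  have h0 : InE0 (repartitionsOf (0 : Divisor K F))
      (P * rt_mulR f * rt_mulR g - rt_mulR g * (P * rt_mulR f)) :=
    commutator_proj_inE0 (rg_mulR_comm f g) (rg_inE_mulR H HL f) (rg_inE_mulR H HL g) hP
  have h1 : rt_globalComm P f g =
      P * rt_mulR f * rt_mulR g - rt_mulR g * (P * rt_mulR f) := by
    rw [rt_globalComm, mul_assoc (rt_mulR g)]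
  rw [h1, isFinitePotent_iff]
  refine ⟨2, ?_⟩
  rw [pow_two]
  exact h0.finite_range_mul h0

include H HL hR in
/-- **(GLOB0) for the adeles**: the trace of the global commutator vanishes. -/
theorem rg_global_zero (f g : F) (P : Module.End K ↥(repartitions K F))
    (hP : IsProj (repartitionsOf (0 : Divisor K F)) P) :
    fpTrace (rt_globalComm P f g) = 0 := by
  have h1 : rt_globalComm P f g =
      P * rt_mulR f * rt_mulR g - rt_mulR g * (P * rt_mulR f) := by
    rw [rt_globalComm, mul_assoc (rt_mulR g)]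
  rw [h1, ← res_eq_of_isProj (rg_mulR_comm f g) (rg_inE_mulR H HL f) (rg_inE_mulR H HL g) hP]
  exact rg_res_eq_zero_of_compl (rg_mulR_comm f g) (rg_inE_mulR H HL f) (rg_inE_mulR H HL g)
    (rg_map_mulR_principal_le f) (rg_map_mulR_principal_le g) (rg_finite_inf HL)
    (H1Finite.finite_H1 H HL hR 0)

end Global

section Gen

variable {K F : Type*} [Field K] [Field F] [Algebra K F] [IsAlgClosed K] [CharZero K] {x : F}

theorem rg_global_fp_of_isGen (hx : IsGen K x) (f g : F) (P : Module.End K ↥(repartitions K F))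
    (hP : IsProj (repartitionsOf (0 : Divisor K F)) P) :
    IsFinitePotent (rt_globalComm P f g) :=
  rg_global_fp (Fermat.Agent.X0.FFGenus.ff1Data hx) (LHypGen.lHyp_of_isGen hx) f g P hP

theorem rg_global_zero_of_isGen (hx : IsGen K x) (f g : F)
    (P : Module.End K ↥(repartitions K F))
    (hP : IsProj (repartitionsOf (0 : Divisor K F)) P) :
    fpTrace (rt_globalComm P f g) = 0 :=
  rg_global_zero (Fermat.Agent.X0.FFGenus.ff1Data hx) (LHypGen.lHyp_of_isGen hx)
    (LHypGen.riemann_inequality_of_isGen hx) f g P hP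

end Gen

section Final

open KaehlerDifferential

variable {K F : Type*} [Field K] [Field F] [Algebra K F] [IsAlgClosed K] [CharZero K] {x : F}

/-- **The residue theorem**: `∑ᵥ res_v ω = 0`, hypothesis-free for `IsGen K x`. -/
theorem finsum_residue_eq_zero (hx : IsGen K x) (ω : Ω[F⁄K]) :
    ∑ᶠ v : Place K F, LocalResMain.residue hx v ω = 0 :=
  ResidueLocalInst.finsum_residue_eq_zero hx (rg_global_fp_of_isGen hx)
    (rg_global_zero_of_isGen hx) ω

/-- The residue data consumed by Serre duality, hypothesis-free for `IsGen K x`. -/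
noncomputable def residueData (hx : IsGen K x) : Duality.ResidueData K F :=
  ResidueLocalInst.dualityResidueData hx (rg_global_fp_of_isGen hx) (rg_global_zero_of_isGen hx)

end Final

end Fermat.Agent.RR.ResidueGlob
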