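/-
C-RR (GLOB0 for the adeles), helper8.  The two global facts consumed by
`RR/ResidueLocalInst.lean` (helper18) and `RR/ResidueThm.lean` (helper9): for every projection
`P` of the repartitions onto `A(0)`, the commutator `[P f, g]` is finite potent with trace `0`.
This is Tate's vanishing theorem `GlobZero8.res_eq_zero_of_stable_compl` applied to
`V = repartitions`, `A = A(0)`, `A' = F` (principal repartitions): `A(0) ⊓ F = L(0)` and
`V ⧸ (A(0) ⊔ F) = H¹(0)` are finite-dimensional.
-/
import Mathlib
import Fermat.Agent.RR.GlobZero8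
import Fermat.Agent.RR.ResidueLocalInst
import Fermat.Agent.RR.H1Finite
import Fermat.Agent.RR.LHypGen

set_option autoImplicit false

namespace Fermat.Agent.RR.GlobAdele

open AlgebraicCurve Fermat.Agent.RR Fermat.Agent.RR.Commens Fermat.Agent.RR.AbsResidue
  Fermat.Agent.RR.ResidueThm Fermat.Agent.X0.FF

variable {K F : Type*} [Field K] [Field F] [Algebra K F]

/-! ### Generalities -/

/-- If the image of `B` in `V ⧸ A` is finite-dimensional then `B ≺ A`. -/
theorem prec_of_finite_map_mkQ {V : Type*} [AddCommGroup V] [Module K V] (A B : Submodule K V)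
    (h : Module.Finite K ↥(B.map A.mkQ)) : B ≺ A := by
  -- the restriction of `mkQ` to `B`, onto its image
  set q : ↥B →ₗ[K] ↥(B.map A.mkQ) :=
    (A.mkQ.domRestrict B).codRestrict (B.map A.mkQ) (fun b => ⟨b.1, b.2, rfl⟩) with hq
  have hqs : Function.Surjective q := by
    rintro ⟨_, b, hb, rfl⟩
    exact ⟨⟨b, hb⟩, rfl⟩
  obtain ⟨σ, hσ⟩ := q.exists_rightInverse_of_surjective (LinearMap.range_eq_top.mpr hqs)
  refine ⟨LinearMap.range (B.subtype ∘ₗ σ), inferInstance, fun b hb => ?_⟩
  have h1 : q (σ (q ⟨b, hb⟩)) = q ⟨b, hb⟩ := by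
    have := congrArg (fun φ : ↥(B.map A.mkQ) →ₗ[K] ↥(B.map A.mkQ) => φ (q ⟨b, hb⟩)) hσ
    simpa using this
  have h2 : A.mkQ ((σ (q ⟨b, hb⟩) : V)) = A.mkQ b := congrArg Subtype.val h1
  have h3 : b - (σ (q ⟨b, hb⟩) : V) ∈ A := by
    have h4 : A.mkQ (b - (σ (q ⟨b, hb⟩) : V)) = 0 := by rw [map_sub, h2, sub_self]
    exact (Submodule.Quotient.mk_eq_zero A).mp h4
  have : b = (b - (σ (q ⟨b, hb⟩) : V)) + (σ (q ⟨b, hb⟩) : V) := by abel
  rw [this]
  exact Submodule.add_mem_sup h3 ⟨q ⟨b, hb⟩, rfl⟩

/-! ### The global facts from three hypotheses -/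

section Abstract

variable
  (hprec : ∀ f : F, (repartitionsOf (0 : Divisor K F)).map (rt_mulR (K := K) f) ≺
    repartitionsOf (0 : Divisor K F))
  (hinf : Module.Finite K ↥(repartitionsOf (0 : Divisor K F) ⊓ principalRepartitions K F))
  (hsup : Module.Finite K (H1 (0 : Divisor K F)))

theorem rt_mulR_comm (f g : F) :
    rt_mulR (K := K) f * rt_mulR g = rt_mulR g * rt_mulR f := by
  apply LinearMap.ext
  intro α
  apply Subtype.ext
  funext v
  show f * (g * (α : Place K F → F) v) = g * (f * (α : Place K F → F) v)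
  ring

theorem map_rt_mulR_principal_le (f : F) :
    (principalRepartitions K F).map (rt_mulR (K := K) f) ≤ principalRepartitions K F := by
  rintro _ ⟨α, hα, rfl⟩
  obtain ⟨a, ha⟩ := mem_principalRepartitions_iff.mp hα
  refine mem_principalRepartitions_iff.mpr ⟨f * a, ?_⟩
  funext v
  show f * (α : Place K F → F) v = f * a
  rw [ha]

theorem rt_globalComm_eq (P : Module.End K ↥(repartitions K F)) (f g : F) :
    rt_globalComm P f g = P * rt_mulR f * rt_mulR g - rt_mulR g * (P * rt_mulR f) := by
  unfold rt_globalComm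
  rw [mul_assoc (rt_mulR g) P (rt_mulR f)]

include hprec in
/-- The global commutator is finite potent. -/
theorem global_fp_of (f g : F) (P : Module.End K ↥(repartitions K F))
    (hP : IsProj (repartitionsOf (0 : Divisor K F)) P) :
    IsFinitePotent (rt_globalComm P f g) := by
  rw [rt_globalComm_eq]
  have h0 := commutator_proj_inE0 (rt_mulR_comm f g) (hprec f) (hprec g) hP
  rw [isFinitePotent_iff]
  refine ⟨2, ?_⟩
  rw [pow_two]
  exact h0.finite_range_mul h0

include hprec hinf hsup in
/-- The global commutator has trace zero (residue theorem, abstract form). -/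
theorem global_zero_of (f g : F) (P : Module.End K ↥(repartitions K F))
    (hP : IsProj (repartitionsOf (0 : Divisor K F)) P) :
    fpTrace (rt_globalComm P f g) = 0 := by
  rw [rt_globalComm_eq, ← res_eq_of_isProj (rt_mulR_comm f g) (hprec f) (hprec g) hP]
  exact GlobZero8.res_eq_zero_of_stable_compl (rt_mulR_comm f g) (hprec f) (hprec g)
    (map_rt_mulR_principal_le f) (map_rt_mulR_principal_le g) hinf hsup

end Abstract

/-! ### The three hypotheses -/

section Hyps

variable (H : FF1Data K F) (HL : LSpace.LHyp K F)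

/-- `f • A(0) ⊆ A(D)` for a suitable divisor `D ≥ 0`. -/
theorem exists_divisor_map_le (hfin : ∀ f : F, {v : Place K F | v.ord f < 0}.Finite) (f : F) :
    ∃ D : Divisor K F, 0 ≤ D ∧
      (repartitionsOf (0 : Divisor K F)).map (rt_mulR (K := K) f) ≤ repartitionsOf D := by
  classical
  refine ⟨Finsupp.onFinset (hfin f).toFinset (fun v => max 0 (-(v.ord f))) ?_, ?_, ?_⟩
  · intro v hv
    rw [Set.Finite.mem_toFinset, Set.mem_ofPred_eq]
    by_contra hnot
    push Not at hnot
    apply hv
    rw [max_eq_left (by omega)]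
  · intro v
    simp
  · rintro _ ⟨α, hα, rfl⟩
    replace hα := SetLike.mem_coe.mp hα
    rw [mem_repartitionsOf_iff] at hα ⊢
    intro v
    show f * (α : Place K F → F) v = 0 ∨ _ ≤ v.ord (f * (α : Place K F → F) v)
    rcases hα v with h0 | h0
    · left; rw [h0, mul_zero]
    · rcases eq_or_ne f 0 with rfl | hf
      · left; rw [zero_mul]
      rcases eq_or_ne ((α : Place K F → F) v) 0 with h1 | h1
      · left; rw [h1, mul_zero]
      right
      rw [Place.ord_mul v hf h1, Finsupp.onFinset_apply]
      simp only [Finsupp.coe_zero, Pi.zero_apply, neg_zero] at h0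
      have := le_max_right 0 (-(v.ord f))
      omega

include H in
theorem map_rt_mulR_prec (hfin : ∀ f : F, {v : Place K F | v.ord f < 0}.Finite) (f : F) :
    (repartitionsOf (0 : Divisor K F)).map (rt_mulR (K := K) f) ≺
      repartitionsOf (0 : Divisor K F) := by
  obtain ⟨D, hD, hle⟩ := exists_divisor_map_le hfin f
  exact (prec_of_le hle).trans
    (prec_of_finite_map_mkQ _ _ (Adeles.finrank_repartitionsOf H hD).1)

include HL in
theorem finite_inf_principal :
    Module.Finite K ↥(repartitionsOf (0 : Divisor K F) ⊓ principalRepartitions K F) := by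
  rw [← Adeles.map_diag_riemannRochSpace]
  have := LSpace.finiteDimensional_L HL (0 : Divisor K F)
  infer_instance

end Hyps

/-! ### Hypothesis-free forms for `IsGen K x` -/

section Gen

variable [IsAlgClosed K] [CharZero K] {x : F} (hx : IsGen K x)

include hx in
theorem global_fp (f g : F) (P : Module.End K ↥(repartitions K F))
    (hP : IsProj (repartitionsOf (0 : Divisor K F)) P) :
    IsFinitePotent (rt_globalComm P f g) :=
  global_fp_of (map_rt_mulR_prec (Fermat.Agent.X0.FFGenus.ff1Data hx)
    (ResidueLocalInst.finite_poles hx)) f g P hP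

include hx in
theorem global_zero (f g : F) (P : Module.End K ↥(repartitions K F))
    (hP : IsProj (repartitionsOf (0 : Divisor K F)) P) :
    fpTrace (rt_globalComm P f g) = 0 :=
  global_zero_of (map_rt_mulR_prec (Fermat.Agent.X0.FFGenus.ff1Data hx)
      (ResidueLocalInst.finite_poles hx))
    (finite_inf_principal (LHypGen.lHyp_of_isGen hx))
    (H1Finite.finite_H1 (Fermat.Agent.X0.FFGenus.ff1Data hx) (LHypGen.lHyp_of_isGen hx)
      (LHypGen.riemann_inequality_of_isGen hx) 0) f g P hP

/-- **Residue theorem** for `LocalResMain.residue`, hypothesis-free. -/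
theorem finsum_residue_eq_zero (ω : Ω[F⁄K]) :
    ∑ᶠ v : Place K F, LocalResMain.residue hx v ω = 0 :=
  ResidueLocalInst.finsum_residue_eq_zero hx (global_fp hx) (global_zero hx) ω

/-- The residue data consumed by Serre duality, hypothesis-free. -/
noncomputable def dualityResidueData : Duality.ResidueData K F :=
  ResidueLocalInst.dualityResidueData hx (global_fp hx) (global_zero hx)

end Gen

end Fermat.Agent.RR.GlobAdele
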