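/-
PROGRAM C-RR (helper15): repartitions (adèles) of a function field, pieces (RIEM) C2 + C3.

* `mem_repartitions_iff`: a family `α : Place K F → F` is a repartition iff it has finitely many
  poles (given that every element of `F` has finitely many poles);
* the one-place step: `A(D + v) / A(D) ≃ k(v)` (evaluation of `α_v t ^ (D v + 1)` in the residue
  field);
* the exact sequence `0 → L(D')/L(D) → A(D')/A(D) → ker (H¹(D) → H¹(D')) → 0` in dimension form:
  `(l(D') - l(D)) + dim ker (H¹(D) → H¹(D')) = deg D' - deg D` for `D ≤ D'`.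
-/
import Mathlib
import Fermat.Prelude.Def_AlgebraicCurve_Repartitions
import Fermat.Agent.X0.FFPlace

set_option autoImplicit false

open AlgebraicCurve

namespace Fermat.Agent.RR.Repart

/-! ### Linear algebra -/

section LinAlg

variable {K : Type*} [Field K] {M N N' W : Type*} [AddCommGroup M] [Module K M]
  [AddCommGroup N] [Module K N] [AddCommGroup N'] [Module K N'] [AddCommGroup W] [Module K W]

/-- The kernel of a composite `g ∘ f` with `f` surjective is an extension of `ker g` by `ker f`. -/
theorem finrank_ker_comp (f : M →ₗ[K] N) (g : N →ₗ[K] N') (hf : Function.Surjective f)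
    [Module.Finite K (LinearMap.ker f)] [Module.Finite K (LinearMap.ker g)] :
    Module.Finite K (LinearMap.ker (g ∘ₗ f)) ∧
      Module.finrank K (LinearMap.ker (g ∘ₗ f)) =
        Module.finrank K (LinearMap.ker f) + Module.finrank K (LinearMap.ker g) := by
  -- the restriction of `f` to `ker (g ∘ f)`, with values in `ker g`
  let h : LinearMap.ker (g ∘ₗ f) →ₗ[K] LinearMap.ker g :=
    (f.domRestrict (LinearMap.ker (g ∘ₗ f))).codRestrict (LinearMap.ker g) (by
      intro x
      have := x.2
      rw [LinearMap.mem_ker, LinearMap.comp_apply] at this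
      exact this)
  have hsurj : Function.Surjective h := by
    rintro ⟨n, hn⟩
    obtain ⟨m, rfl⟩ := hf n
    exact ⟨⟨m, by rw [LinearMap.mem_ker, LinearMap.comp_apply]; exact hn⟩, rfl⟩
  -- `ker h ≃ ker f`
  have hle : LinearMap.ker f ≤ LinearMap.ker (g ∘ₗ f) := by
    intro x hx
    rw [LinearMap.mem_ker] at hx
    rw [LinearMap.mem_ker, LinearMap.comp_apply, hx, map_zero]
  let e : LinearMap.ker h ≃ₗ[K] LinearMap.ker f :=
    { toFun := fun x => ⟨x.1.1, by
        have := x.2
        rw [LinearMap.mem_ker] at this
        have h2 := congrArg Subtype.val this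
        exact h2⟩
      map_add' := fun _ _ => rfl
      map_smul' := fun _ _ => rfl
      invFun := fun x => ⟨⟨x.1, hle x.2⟩, by
        rw [LinearMap.mem_ker]
        apply Subtype.ext
        exact x.2⟩
      left_inv := fun _ => rfl
      right_inv := fun _ => rfl }
  have hfin1 : Module.Finite K (LinearMap.ker h) := Module.Finite.equiv e.symm
  have hfin2 : Module.Finite K (LinearMap.ker (g ∘ₗ f) ⧸ LinearMap.ker h) :=
    Module.Finite.equiv (h.quotKerEquivOfSurjective hsurj).symm
  have hfin : Module.Finite K (LinearMap.ker (g ∘ₗ f)) :=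
    Module.Finite.of_submodule_quotient (LinearMap.ker h)
  refine ⟨hfin, ?_⟩
  have h1 := LinearMap.finrank_range_add_finrank_ker h
  rw [LinearMap.range_eq_top.mpr hsurj, finrank_top, e.finrank_eq] at h1
  omega

/-- **Kernel of a factor map.** Let `X ≤ Y` and `P` be submodules of `M` and `φ : Y → W` a
surjective linear map with kernel `X`. Then the kernel of `M ⧸ (X ⊔ P) → M ⧸ (Y ⊔ P)` is
isomorphic to `W ⧸ φ (Y ⊓ P)`. -/
noncomputable def kerFactorEquiv {X Y : Submodule K M} (P : Submodule K M) (hXY : X ≤ Y)
    (φ : ↥Y →ₗ[K] W) (hφ : Function.Surjective φ) (hker : LinearMap.ker φ = X.submoduleOf Y) :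
    LinearMap.ker (Submodule.factor (sup_le_sup_right hXY P)) ≃ₗ[K]
      (W ⧸ (P.submoduleOf Y).map φ) := by
  set I : Submodule K W := (P.submoduleOf Y).map φ with hI
  let ψ : ↥Y →ₗ[K] M ⧸ (X ⊔ P) := (X ⊔ P).mkQ ∘ₗ Y.subtype
  let χ : ↥Y →ₗ[K] W ⧸ I := I.mkQ ∘ₗ φ
  have hχ : Function.Surjective χ := (Submodule.mkQ_surjective I).comp hφ
  have hkerχ : LinearMap.ker χ = P.submoduleOf Y ⊔ X.submoduleOf Y := by
    rw [LinearMap.ker_comp, Submodule.ker_mkQ, hI, Submodule.comap_map_eq, hker]
  have hkerψ : LinearMap.ker ψ = P.submoduleOf Y ⊔ X.submoduleOf Y := by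
    ext y
    rw [LinearMap.mem_ker, LinearMap.comp_apply, Submodule.mkQ_apply,
      Submodule.Quotient.mk_eq_zero, Submodule.subtype_apply]
    constructor
    · intro hy
      obtain ⟨x, hx, p, hp, hxp⟩ := Submodule.mem_sup.mp hy
      have hpY : p ∈ Y := by
        have : p = (y : M) - x := by rw [← hxp]; abel
        rw [this]
        exact Y.sub_mem y.2 (hXY hx)
      refine Submodule.mem_sup.mpr ⟨⟨p, hpY⟩, hp, ⟨x, hXY hx⟩, hx, ?_⟩
      apply Subtype.ext
      show p + x = (y : M)
      rw [← hxp, add_comm]
    · intro hy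
      obtain ⟨p, hp, x, hx, hxp⟩ := Submodule.mem_sup.mp hy
      have : (y : M) = (x : M) + (p : M) := by
        rw [← hxp]; show (p : M) + (x : M) = _; rw [add_comm]
      rw [this]
      exact Submodule.add_mem _ (Submodule.mem_sup_left hx) (Submodule.mem_sup_right hp)
  have hrange : LinearMap.range ψ = LinearMap.ker (Submodule.factor (sup_le_sup_right hXY P)) := by
    ext z
    obtain ⟨m, rfl⟩ := Submodule.mkQ_surjective _ z
    have hz : (Submodule.factor (sup_le_sup_right hXY P)) ((X ⊔ P).mkQ m) = 0 ↔ m ∈ Y ⊔ P := by
      rw [Submodule.factor_mk, Submodule.mkQ_apply, Submodule.Quotient.mk_eq_zero]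
    rw [LinearMap.mem_ker, hz]
    constructor
    · rintro ⟨y, hy⟩
      have h1 : (X ⊔ P).mkQ ((y : M) - m) = 0 := by
        rw [map_sub]
        have : (X ⊔ P).mkQ (y : M) = (X ⊔ P).mkQ m := hy
        rw [this, sub_self]
      rw [Submodule.mkQ_apply, Submodule.Quotient.mk_eq_zero] at h1
      have h2 : m = (y : M) - ((y : M) - m) := by abel
      rw [h2]
      exact Submodule.sub_mem _ (Submodule.mem_sup_left y.2)
        (sup_le_sup_right hXY P h1)
    · intro hm
      obtain ⟨y, hy, p, hp, hyp⟩ := Submodule.mem_sup.mp hm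
      refine ⟨⟨y, hy⟩, ?_⟩
      show (X ⊔ P).mkQ y = (X ⊔ P).mkQ m
      rw [← sub_eq_zero, ← map_sub, Submodule.mkQ_apply, Submodule.Quotient.mk_eq_zero]
      have : y - m = -p := by rw [← hyp]; abel
      rw [this]
      exact Submodule.neg_mem _ (Submodule.mem_sup_right hp)
  exact ((LinearEquiv.ofEq _ _ hrange).symm.trans ψ.quotKerEquivRange.symm).trans
    ((Submodule.quotEquivOfEq _ _ (hkerψ.trans hkerχ.symm)).trans
      (χ.quotKerEquivOfSurjective hχ))

end LinAlg

/-! ### Repartitions have finitely many poles -/

section Poles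

open Fermat.Agent.X0.FF

variable {K F : Type*} [Field K] [Field F] [Algebra K F]

theorem ord_neg_iff_not_mem (v : Place K F) (x : F) :
    v.ord x < 0 ↔ x ∉ v.toValuationSubring := by
  rw [ffp_mem_iff_ord_nonneg, not_le]

/-- A family `α` is a repartition iff it has finitely many poles, provided every element of `F`
has finitely many poles. -/
theorem mem_repartitions_iff (hfin : ∀ f : F, {v : Place K F | v.ord f < 0}.Finite)
    (α : Place K F → F) :
    α ∈ repartitions K F ↔ {v : Place K F | v.ord (α v) < 0}.Finite := by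
  constructor
  · intro hα
    unfold repartitions at hα
    induction hα using Algebra.adjoin_induction with
    | mem x hx =>
      have : {v : Place K F | v.ord (x v) < 0} =
          {v : Place K F | ¬v.adicValuation (x v) ≤ 1} :=
        Set.ext fun v => (v.not_adicValuation_le_one_iff).symm
      rw [this]; exact hx
    | algebraMap f => exact hfin f
    | add x y _ _ hx hy =>
      refine (hx.union hy).subset ?_
      intro v hv
      simp only [Set.mem_ofPred_eq, ord_neg_iff_not_mem] at hv
      by_contra hcon
      simp only [Set.mem_union, Set.mem_ofPred_eq, ord_neg_iff_not_mem, not_or, not_not] at hcon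
      exact hv (add_mem hcon.1 hcon.2)
    | mul x y _ _ hx hy =>
      refine (hx.union hy).subset ?_
      intro v hv
      simp only [Set.mem_ofPred_eq, ord_neg_iff_not_mem] at hv
      by_contra hcon
      simp only [Set.mem_union, Set.mem_ofPred_eq, ord_neg_iff_not_mem, not_or, not_not] at hcon
      exact hv (mul_mem hcon.1 hcon.2)
  · exact mem_repartitions_of_finite_ord

end Poles

/-! ### The one-place step `A(D + v) / A(D) ≃ k(v)` -/

section Step

open Fermat.Agent.X0.FF IsLocalRing

variable {K F : Type*} [Field K] [Field F] [Algebra K F]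

/-- The divisor `D + v`. -/
noncomputable def addPlace (D : Divisor K F) (v : Place K F) : Divisor K F :=
  D + Finsupp.single v 1

theorem addPlace_apply_self (D : Divisor K F) (v : Place K F) : addPlace D v v = D v + 1 := by
  simp [addPlace]

theorem addPlace_apply_of_ne (D : Divisor K F) {v w : Place K F} (h : w ≠ v) :
    addPlace D v w = D w := by
  classical
  simp [addPlace, h.symm]

theorem le_addPlace (D : Divisor K F) (v : Place K F) : D ≤ addPlace D v := by
  classical
  intro w
  by_cases h : w = v
  · subst h; rw [addPlace_apply_self]; omega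
  · rw [addPlace_apply_of_ne D h]

theorem degree_addPlace (D : Divisor K F) (v : Place K F) :
    Divisor.degree (addPlace D v) = Divisor.degree D + v.deg := by
  rw [addPlace, map_add, Divisor.degree_single, one_mul]

variable (v : Place K F) (D : Divisor K F) (t : F) (ht : v.ord t = 1)

include ht in
theorem t_ne_zero : t ≠ 0 := by
  rintro rfl
  simp at ht

include ht in
/-- For `α ∈ A(D + v)` the element `α_v t ^ (D v + 1)` is integral at `v`. -/
theorem scaled_mem {α : ↥(repartitions K F)} (hα : α ∈ repartitionsOf (addPlace D v)) :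
    (α : Place K F → F) v * t ^ (D v + 1) ∈ v.toValuationSubring := by
  rcases (mem_repartitionsOf_iff.mp hα) v with h0 | h
  · rw [h0, zero_mul]; exact zero_mem _
  · by_cases h0 : (α : Place K F → F) v = 0
    · rw [h0, zero_mul]; exact zero_mem _
    apply ffp_mem_of_ord_nonneg
    rw [v.ord_mul h0 (zpow_ne_zero _ (t_ne_zero v t ht)), v.ord_zpow, ht, mul_one]
    rw [addPlace_apply_self] at h
    omega

/-- The `v`-component of an element of `A(D)`. -/
def comp {D' : Divisor K F} (α : ↥(repartitionsOf D')) : F :=
  ((α : ↥(repartitions K F)) : Place K F → F) v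

theorem comp_add {D' : Divisor K F} (α β : ↥(repartitionsOf D')) :
    comp v (α + β) = comp v α + comp v β := rfl

theorem comp_smul {D' : Divisor K F} (c : K) (α : ↥(repartitionsOf D')) :
    comp v (c • α) = algebraMap K F c * comp v α := by
  show c • (((α : ↥(repartitions K F)) : Place K F → F) v) = _
  rw [Algebra.smul_def]
  rfl

/-- The evaluation map `A(D + v) → k(v)`, `α ↦ (α_v t ^ (D v + 1) mod 𝔪_v)`. -/
noncomputable def evalMap : ↥(repartitionsOf (addPlace D v)) →ₗ[K] v.ResidueField where
  toFun α := residue v.toValuationSubring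
    ⟨comp v α * t ^ (D v + 1), scaled_mem v D t ht α.2⟩
  map_add' α β := by
    rw [← map_add]
    congr 1
    apply Subtype.ext
    show comp v (α + β) * t ^ (D v + 1) = comp v α * t ^ (D v + 1) + comp v β * t ^ (D v + 1)
    rw [comp_add, add_mul]
  map_smul' c α := by
    rw [RingHom.id_apply, Algebra.smul_def, ← ResidueField.algebraMap_eq,
      IsScalarTower.algebraMap_apply K v.toValuationSubring (ResidueField v.toValuationSubring),
      ResidueField.algebraMap_eq, ← map_mul]
    congr 1
    apply Subtype.ext
    show comp v (c • α) * t ^ (D v + 1) = algebraMap K F c * (comp v α * t ^ (D v + 1))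
    rw [comp_smul, mul_assoc]

theorem evalMap_apply (α : ↥(repartitionsOf (addPlace D v))) :
    evalMap v D t ht α = residue v.toValuationSubring
      ⟨comp v α * t ^ (D v + 1), scaled_mem v D t ht α.2⟩ := rfl

/-- The kernel of the evaluation map is `A(D)`. -/
theorem ker_evalMap :
    LinearMap.ker (evalMap v D t ht) =
      (repartitionsOf D).submoduleOf (repartitionsOf (addPlace D v)) := by
  classical
  ext α
  rw [LinearMap.mem_ker, evalMap_apply, residue_eq_zero_iff]
  show _ ↔ (α : ↥(repartitions K F)) ∈ repartitionsOf D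
  rw [mem_repartitionsOf_iff]
  have hα := mem_repartitionsOf_iff.mp α.2
  have ht0 := t_ne_zero v t ht
  constructor
  · intro hmem w
    by_cases hw : w = v
    · subst hw
      by_cases h0 : comp w α = 0
      · exact Or.inl h0
      · right
        have hx0 : (⟨comp w α * t ^ (D w + 1), scaled_mem w D t ht α.2⟩ :
            w.toValuationSubring) ≠ 0 := by
          intro h
          have := congrArg Subtype.val h
          exact mul_ne_zero h0 (zpow_ne_zero _ ht0) this
        have := (ffp_mem_maximalIdeal_iff w _ hx0).mp hmem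
        rw [w.ord_mul h0 (zpow_ne_zero _ ht0), w.ord_zpow, ht, mul_one] at this
        show -D w ≤ w.ord (comp w α)
        omega
    · have := hα w
      rwa [addPlace_apply_of_ne D hw] at this
  · intro h
    by_cases h0 : comp v α = 0
    · have : (⟨comp v α * t ^ (D v + 1), scaled_mem v D t ht α.2⟩ :
          v.toValuationSubring) = 0 := by
        apply Subtype.ext
        show comp v α * t ^ (D v + 1) = 0
        rw [h0, zero_mul]
      rw [this]; exact zero_mem _
    · have hx0 : (⟨comp v α * t ^ (D v + 1), scaled_mem v D t ht α.2⟩ :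
          v.toValuationSubring) ≠ 0 := by
        intro h'
        have := congrArg Subtype.val h'
        exact mul_ne_zero h0 (zpow_ne_zero _ ht0) this
      rw [ffp_mem_maximalIdeal_iff v _ hx0]
      show 0 < v.ord (comp v α * t ^ (D v + 1))
      rw [v.ord_mul h0 (zpow_ne_zero _ ht0), v.ord_zpow, ht, mul_one]
      rcases h v with h1 | h1
      · exact absurd h1 h0
      · have : -D v ≤ v.ord (comp v α) := h1
        omega

/-- The evaluation map is surjective. -/
theorem evalMap_surjective : Function.Surjective (evalMap v D t ht) := by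
  classical
  intro r
  obtain ⟨a, rfl⟩ := residue_surjective r
  have ht0 := t_ne_zero v t ht
  set β : Place K F → F := fun w => if w = v then (a : F) * t ^ (-(D v + 1)) else 0 with hβ
  have hβv : β v = (a : F) * t ^ (-(D v + 1)) := by simp [hβ]
  have hβw : ∀ w, w ≠ v → β w = 0 := fun w hw => by simp [hβ, hw]
  have hβrep : β ∈ repartitions K F := by
    apply mem_repartitions_of_finite_ord
    refine (Set.finite_singleton v).subset ?_
    intro w hw
    by_contra hne
    rw [Set.mem_singleton_iff] at hne
    rw [Set.mem_ofPred_eq, hβw w hne] at hw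
    simp at hw
  have hβD : (⟨β, hβrep⟩ : ↥(repartitions K F)) ∈ repartitionsOf (addPlace D v) := by
    rw [mem_repartitionsOf_iff]
    intro w
    by_cases hw : w = v
    · subst hw
      show β w = 0 ∨ -addPlace D w w ≤ w.ord (β w)
      rw [hβv, addPlace_apply_self]
      by_cases ha : (a : F) = 0
      · left; rw [ha, zero_mul]
      · right
        rw [w.ord_mul ha (zpow_ne_zero _ ht0), w.ord_zpow, ht, mul_one]
        have := ffp_ord_nonneg_of_mem w a.2
        omega
    · left; exact hβw w hw
  refine ⟨⟨⟨β, hβrep⟩, hβD⟩, ?_⟩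
  rw [evalMap_apply]
  congr 1
  apply Subtype.ext
  show β v * t ^ (D v + 1) = (a : F)
  rw [hβv, mul_assoc, ← zpow_add₀ ht0, neg_add_cancel, zpow_zero, mul_one]

end Step

/-! ### The diagonal embedding `L(D) → A(D)` -/

section Diag

open Fermat.Agent.X0.FF IsLocalRing

variable {K F : Type*} [Field K] [Field F] [Algebra K F]

/-- The constant repartition attached to `f : F`. -/
noncomputable def const (f : F) : ↥(repartitions K F) := algebraMap F ↥(repartitions K F) f

theorem const_apply (f : F) (v : Place K F) : ((const f : ↥(repartitions K F)) : Place K F → F) v = f :=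
  rfl

theorem const_mem_repartitionsOf_iff {D : Divisor K F} {f : F} :
    (const f : ↥(repartitions K F)) ∈ repartitionsOf D ↔ f ∈ riemannRochSpace D := by
  rw [mem_repartitionsOf_iff, mem_riemannRochSpace_iff]
  rfl

theorem mem_principalRepartitions_iff_const {α : ↥(repartitions K F)} :
    α ∈ principalRepartitions K F ↔ ∃ f : F, α = const f := by
  rw [mem_principalRepartitions_iff]
  constructor
  · rintro ⟨f, hf⟩
    exact ⟨f, Subtype.ext hf⟩
  · rintro ⟨f, rfl⟩
    exact ⟨f, rfl⟩

/-- The diagonal embedding `L(D) → A(D)`. -/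
noncomputable def diag (D : Divisor K F) : ↥(riemannRochSpace D) →ₗ[K] ↥(repartitionsOf D) where
  toFun f := ⟨const (f : F), const_mem_repartitionsOf_iff.mpr f.2⟩
  map_add' f g := by
    apply Subtype.ext
    show const ((f : F) + (g : F)) = const (f : F) + const (g : F)
    exact map_add _ _ _
  map_smul' c f := by
    apply Subtype.ext
    apply Subtype.ext
    funext v
    show c • (f : F) = c • (f : F)
    rfl

theorem diag_apply (D : Divisor K F) (f : ↥(riemannRochSpace D)) :
    ((diag D f : ↥(repartitionsOf D)) : ↥(repartitions K F)) = const (f : F) := rfl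

/-- The range of the diagonal embedding is `A(D) ⊓ F`. -/
theorem range_diag (D : Divisor K F) :
    LinearMap.range (diag D) = (principalRepartitions K F).submoduleOf (repartitionsOf D) := by
  ext α
  constructor
  · rintro ⟨f, rfl⟩
    show ((diag D f : ↥(repartitionsOf D)) : ↥(repartitions K F)) ∈ principalRepartitions K F
    rw [diag_apply]
    exact mem_principalRepartitions_iff_const.mpr ⟨_, rfl⟩
  · intro hα
    have hα' : (α : ↥(repartitions K F)) ∈ principalRepartitions K F := hα
    obtain ⟨f, hf⟩ := mem_principalRepartitions_iff_const.mp hα'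
    have hfD : f ∈ riemannRochSpace D := by
      rw [← const_mem_repartitionsOf_iff, ← hf]; exact α.2
    exact ⟨⟨f, hfD⟩, Subtype.ext hf.symm⟩

end Diag

/-! ### The maps `H¹(D) → H¹(D')` and the dimension of their kernels -/

section Main

open Fermat.Agent.X0.FF IsLocalRing

variable {K F : Type*} [Field K] [Field F] [Algebra K F]

theorem riemannRochSpace_mono {D D' : Divisor K F} (h : D ≤ D') :
    riemannRochSpace D ≤ riemannRochSpace D' := fun _ hf v =>
  (hf v).trans (WithZero.exp_le_exp.mpr (Finsupp.le_def.mp h v))

/-- The natural surjection `H¹(D) → H¹(D')` for `D ≤ D'`. -/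
noncomputable def h1Map {D D' : Divisor K F} (h : D ≤ D') : H1 D →ₗ[K] H1 D' :=
  Submodule.factor (sup_le_sup_right (repartitionsOf_mono h) (principalRepartitions K F))

theorem h1Map_mk {D D' : Divisor K F} (h : D ≤ D') (α : ↥(repartitions K F)) :
    h1Map h (Submodule.Quotient.mk α) = Submodule.Quotient.mk α := rfl

theorem h1Map_surjective {D D' : Divisor K F} (h : D ≤ D') : Function.Surjective (h1Map h) := by
  intro z
  obtain ⟨α, rfl⟩ := Submodule.Quotient.mk_surjective _ z
  exact ⟨Submodule.Quotient.mk α, rfl⟩

theorem h1Map_comp {D D' D'' : Divisor K F} (h : D ≤ D') (h' : D' ≤ D'') :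
    h1Map h' ∘ₗ h1Map h = h1Map (h.trans h') := by
  apply LinearMap.ext
  intro z
  obtain ⟨α, rfl⟩ := Submodule.Quotient.mk_surjective _ z
  rfl

theorem h1Map_refl (D : Divisor K F) : h1Map (le_refl D) = LinearMap.id := by
  apply LinearMap.ext
  intro z
  obtain ⟨α, rfl⟩ := Submodule.Quotient.mk_surjective _ z
  rfl

/-- **The one-place step.** -/
theorem step (v : Place K F) (hdeg : v.deg = 1) (D : Divisor K F)
    [Module.Finite K ↥(riemannRochSpace (addPlace D v))] :
    Module.Finite K (LinearMap.ker (h1Map (le_addPlace D v))) ∧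
      (Module.finrank K ↥(riemannRochSpace (addPlace D v)) : ℤ)
        - Module.finrank K ↥(riemannRochSpace D)
        + Module.finrank K (LinearMap.ker (h1Map (le_addPlace D v))) = 1 := by
  obtain ⟨π, hπ⟩ := ffp_exists_irreducible v
  have ht : v.ord (π : F) = 1 := v.ord_coe_irreducible hπ
  set φ := evalMap v D (π : F) ht with hφdef
  have hφs := evalMap_surjective v D (π : F) ht
  have hφk := ker_evalMap v D (π : F) ht
  have hXY : repartitionsOf D ≤ repartitionsOf (addPlace D v) :=
    repartitionsOf_mono (le_addPlace D v)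
  set I : Submodule K v.ResidueField :=
    ((principalRepartitions K F).submoduleOf (repartitionsOf (addPlace D v))).map φ with hI
  have e : LinearMap.ker (h1Map (le_addPlace D v)) ≃ₗ[K] (v.ResidueField ⧸ I) :=
    kerFactorEquiv (principalRepartitions K F) hXY φ hφs hφk
  have hfr : Module.finrank K v.ResidueField = 1 := hdeg
  have hfin : Module.Finite K v.ResidueField := Module.finite_of_finrank_pos (by rw [hfr]; norm_num)
  have hfinker : Module.Finite K (LinearMap.ker (h1Map (le_addPlace D v))) :=
    Module.Finite.equiv e.symm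
  refine ⟨hfinker, ?_⟩
  have h1 := Submodule.finrank_quotient_add_finrank I
  rw [hfr, ← e.finrank_eq] at h1
  -- the dimension of `I`
  set g : ↥(riemannRochSpace (addPlace D v)) →ₗ[K] v.ResidueField :=
    φ ∘ₗ diag (addPlace D v) with hg
  have hrange : LinearMap.range g = I := by
    rw [hg, LinearMap.range_comp, range_diag]
  have hle : riemannRochSpace D ≤ riemannRochSpace (addPlace D v) :=
    riemannRochSpace_mono (le_addPlace D v)
  have hkerg : LinearMap.ker g = (riemannRochSpace D).submoduleOf (riemannRochSpace (addPlace D v)) := by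
    ext f
    rw [hg, LinearMap.mem_ker, LinearMap.comp_apply, ← LinearMap.mem_ker, hφk]
    show ((diag (addPlace D v) f : ↥(repartitionsOf (addPlace D v))) : ↥(repartitions K F)) ∈
      repartitionsOf D ↔ (f : F) ∈ riemannRochSpace D
    rw [diag_apply, const_mem_repartitionsOf_iff]
  have h2 := LinearMap.finrank_range_add_finrank_ker g
  rw [hrange, hkerg, (Submodule.submoduleOfEquivOfLe hle).finrank_eq] at h2
  omega

theorem degree_eq_sum (hdeg : ∀ v : Place K F, v.deg = 1) (E : Divisor K F) :
    Divisor.degree E = E.sum fun _ n => n := by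
  have : Divisor.degree E = E.sum fun v n => n * (v.deg : ℤ) := by
    simp [Divisor.degree, Finsupp.liftAddHom_apply]
  rw [this]
  apply Finsupp.sum_congr
  intro v _
  rw [hdeg v]; simp

theorem degree_nonneg (hdeg : ∀ v : Place K F, v.deg = 1) {E : Divisor K F} (hE : 0 ≤ E) :
    0 ≤ Divisor.degree E := by
  rw [degree_eq_sum hdeg]
  exact Finset.sum_nonneg fun v _ => hE v

theorem eq_zero_of_degree_eq_zero (hdeg : ∀ v : Place K F, v.deg = 1) {E : Divisor K F}
    (hE : 0 ≤ E) (h0 : Divisor.degree E = 0) : E = 0 := by
  rw [degree_eq_sum hdeg] at h0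
  have := (Finset.sum_eq_zero_iff_of_nonneg (fun v _ => hE v)).mp h0
  ext v
  by_cases hv : v ∈ E.support
  · exact this v hv
  · simpa using hv

/-- **(C3)** For `D ≤ D'` the kernel of `H¹(D) → H¹(D')` is finite-dimensional and
`(l(D') - l(D)) + dim ker (H¹(D) → H¹(D')) = deg D' - deg D`. -/
theorem finrank_ker_h1Map (hdeg : ∀ v : Place K F, v.deg = 1)
    (hL : ∀ D : Divisor K F, Module.Finite K ↥(riemannRochSpace D))
    {D D' : Divisor K F} (h : D ≤ D') :
    Module.Finite K (LinearMap.ker (h1Map h)) ∧
      (Module.finrank K ↥(riemannRochSpace D') : ℤ) - Module.finrank K ↥(riemannRochSpace D)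
        + Module.finrank K (LinearMap.ker (h1Map h)) = Divisor.degree D' - Divisor.degree D := by
  classical
  have key : ∀ n : ℕ, ∀ D' : Divisor K F, ∀ h : D ≤ D',
      Divisor.degree D' - Divisor.degree D = n →
      Module.Finite K (LinearMap.ker (h1Map h)) ∧
      (Module.finrank K ↥(riemannRochSpace D') : ℤ) - Module.finrank K ↥(riemannRochSpace D)
        + Module.finrank K (LinearMap.ker (h1Map h)) = n := by
    intro n
    induction n with
    | zero =>
      intro D' h hn
      have hE : 0 ≤ D' - D := sub_nonneg.mpr h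
      have h0 : Divisor.degree (D' - D) = 0 := by
        rw [map_sub]; simpa using hn
      have hDD : D' = D := sub_eq_zero.mp (eq_zero_of_degree_eq_zero hdeg hE h0)
      subst hDD
      have hid : h1Map h = LinearMap.id := h1Map_refl D'
      rw [hid, LinearMap.ker_id]
      refine ⟨inferInstance, ?_⟩
      simp
    | succ n ih =>
      intro D' h hn
      -- a place where `D < D'`
      have hex : ∃ v, D v < D' v := by
        by_contra hcon
        push Not at hcon
        have hDD : D' = D := le_antisymm (fun v => hcon v) h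
        rw [hDD, sub_self] at hn
        have : (0 : ℤ) = ((n + 1 : ℕ) : ℤ) := hn
        omega
      obtain ⟨v, hv⟩ := hex
      obtain ⟨D'', rfl⟩ : ∃ D'' : Divisor K F, D' = addPlace D'' v :=
        ⟨D' - Finsupp.single v 1, by rw [addPlace, sub_add_cancel]⟩
      have hDD'' : D ≤ D'' := by
        intro w
        by_cases hw : w = v
        · subst hw
          rw [addPlace_apply_self] at hv
          omega
        · have := h w
          rwa [addPlace_apply_of_ne D'' hw] at this
      have hdeg'' : Divisor.degree D'' - Divisor.degree D = n := by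
        rw [degree_addPlace, hdeg v] at hn
        push_cast at hn ⊢
        omega
      obtain ⟨hf1, he1⟩ := ih D'' hDD'' hdeg''
      have := hL (addPlace D'' v)
      obtain ⟨hf2, he2⟩ := step v (hdeg v) D''
      have hcomp : h1Map h = h1Map (le_addPlace D'' v) ∘ₗ h1Map hDD'' :=
        (h1Map_comp hDD'' (le_addPlace D'' v)).symm
      obtain ⟨hf3, he3⟩ := finrank_ker_comp (h1Map hDD'') (h1Map (le_addPlace D'' v))
        (h1Map_surjective hDD'')
      rw [hcomp]
      refine ⟨hf3, ?_⟩
      rw [he3]
      push_cast
      omega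
  have hnn : 0 ≤ Divisor.degree D' - Divisor.degree D := by
    have := degree_nonneg hdeg (sub_nonneg.mpr h)
    rwa [map_sub] at this
  obtain ⟨n, hn⟩ := Int.eq_ofNat_of_zero_le hnn
  obtain ⟨h1, h2⟩ := key n D' h hn
  exact ⟨h1, by rw [h2, hn]⟩

end Main

end Fermat.Agent.RR.Repart
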