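/-
C-RR (helper28), (C5b): vanishing of `H¹(D)` in large degree.

`∃ c, ∀ D, c ≤ deg D → dim H¹(D) = 0`, hence `l(D) = deg D + 1 - g` for `deg D ≥ c`.
Also: `i(D + div f) = i(D)`.
-/
import Mathlib
import Fermat.Prelude.Def_AlgebraicCurve_Repartitions
import Fermat.Agent.RR.H1Finite

set_option autoImplicit false

namespace Fermat.Agent.RR.H1Large

open AlgebraicCurve Fermat.Agent.X0.FF Fermat.Agent.RR Fermat.Agent.RR.H1Finite

variable {K F : Type*} [Field K] [Field F] [Algebra K F]

section

variable (H : FF1Data K F) (HL : LSpace.LHyp K F)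
  (hR : ∃ γ : ℤ, ∀ D : Divisor K F,
    Divisor.degree D + 1 - γ ≤ (Module.finrank K (riemannRochSpace D) : ℤ))

include H HL hR

/-- The index of speciality only depends on the divisor class. -/
theorem finrank_H1_add_divOf (D : Divisor K F) {f : F} (hf : f ≠ 0) :
    Module.finrank K (H1 (D + LSpace.divOf HL hf)) = Module.finrank K (H1 D) := by
  have h1 := finrank_L_sub_finrank_H1 H HL hR D
  have h2 := finrank_L_sub_finrank_H1 H HL hR (D + LSpace.divOf HL hf)
  have h3 : Module.finrank K (riemannRochSpace (D + LSpace.divOf HL hf)) =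
      Module.finrank K (riemannRochSpace D) := (LSpace.mulEquiv HL D hf).finrank_eq
  rw [map_add, LSpace.degree_divOf, add_zero, h3] at h2
  have : (Module.finrank K (H1 (D + LSpace.divOf HL hf)) : ℤ) = Module.finrank K (H1 D) := by
    linarith
  exact_mod_cast this

omit H HL hR in
/-- `H¹(D) = 0` as soon as `A(D) + F` is everything. -/
theorem finrank_H1_eq_zero_of_top {D : Divisor K F}
    (h : repartitionsOf D ⊔ principalRepartitions K F = ⊤) : Module.finrank K (H1 D) = 0 := by
  have : Subsingleton (H1 D) := by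
    show Subsingleton (↥(repartitions K F) ⧸ (repartitionsOf D ⊔ principalRepartitions K F))
    rw [h]
    exact Submodule.Quotient.subsingleton_iff.mpr rfl
  exact Module.finrank_zero_of_subsingleton

/-- **(C5b)** `H¹(D) = 0` for all divisors of sufficiently large degree. -/
theorem exists_forall_degree_ge_finrank_H1_eq_zero :
    ∃ c : ℤ, ∀ D : Divisor K F, c ≤ Divisor.degree D → Module.finrank K (H1 D) = 0 := by
  obtain ⟨D₀, hD₀⟩ := exists_forall_ge_AP_eq_top H HL hR
  refine ⟨Divisor.degree D₀ + (genusFF K F : ℤ), fun D hD => ?_⟩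
  -- `L(D - D₀) ≠ 0`
  have h1 := finrank_L_sub_finrank_H1 H HL hR (D - D₀)
  rw [map_sub] at h1
  have hpos : 0 < Module.finrank K (riemannRochSpace (D - D₀)) := by
    have h0 : (0 : ℤ) ≤ (Module.finrank K (H1 (D - D₀)) : ℤ) := Int.natCast_nonneg _
    have : (0 : ℤ) < (Module.finrank K (riemannRochSpace (D - D₀)) : ℤ) := by linarith
    exact_mod_cast this
  have : FiniteDimensional K (riemannRochSpace (D - D₀)) := LSpace.finiteDimensional_L HL _
  have hnt : Nontrivial (riemannRochSpace (D - D₀)) := Module.finrank_pos_iff.mp hpos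
  obtain ⟨⟨f, hfL⟩, hf0⟩ := exists_ne (0 : riemannRochSpace (D - D₀))
  have hf : f ≠ 0 := fun h => hf0 (Subtype.ext h)
  -- `D + div f ≥ D₀`
  have hge : D₀ ≤ D + LSpace.divOf HL hf := by
    rw [Finsupp.le_def]
    intro v
    have := (LSpace.mem_L_iff hf).mp hfL v
    rw [Finsupp.sub_apply] at this
    rw [Finsupp.add_apply, LSpace.divOf_apply]
    omega
  rw [← finrank_H1_add_divOf H HL hR D hf]
  exact finrank_H1_eq_zero_of_top (hD₀ _ hge)

/-- **(C5b)** `l(D) = deg D + 1 - g` for all divisors of sufficiently large degree. -/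
theorem exists_forall_degree_ge_finrank_L_eq :
    ∃ c : ℤ, ∀ D : Divisor K F, c ≤ Divisor.degree D →
      (Module.finrank K (riemannRochSpace D) : ℤ) = Divisor.degree D + 1 - (genusFF K F : ℤ) := by
  obtain ⟨c, hc⟩ := exists_forall_degree_ge_finrank_H1_eq_zero H HL hR
  refine ⟨c, fun D hD => ?_⟩
  have h1 := finrank_L_sub_finrank_H1 H HL hR D
  rw [hc D hD] at h1
  simpa using h1

end

end Fermat.Agent.RR.H1Large
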