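/-
Program C-RR (helper13): THE END OF THE RR CHAIN, hypothesis-free.

For a function field `F / K` with a transcendental generator (`IsGen K x`), `K` algebraically
closed of characteristic zero, and `[HasCanonicalDivisor]`:

* `riemann_roch`            : `l(D) - l(W - D) = deg D + 1 - genusFF K F` (`W = div ω₀`);
* `genus_eq_genusFF`        : `genus K F = genusFF K F`;
* `degree_canonical`        : `deg W = 2 genus - 2`;
* `finrank_L_canonical`     : `l(W) = genus K F`;
* `finrank_L_dx_eq_genus`   : `l(div dx) = genus K F`, with `mem_L_dx_iff`: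
                              `h ∈ L(div dx) ↔ h • dx` is regular at every place.

All inputs (LHyp, C4, C5, Serre's lemma, residues + residue theorem) come from the landed files;
this file only plugs `ResidueGlob.residueData hx` into `InstPrep.rrData`.
-/
import Mathlib
import Fermat.Agent.RR.InstPrep
import Fermat.Agent.RR.ResidueGlob

set_option autoImplicit false
set_option linter.unusedSectionVars false

open AlgebraicCurve KaehlerDifferential IntermediateField

namespace Fermat.Agent.RR.RRMain

open Fermat.Agent.X0.FF Fermat.Agent.RR.LSpace Fermat.Agent.RR.Duality Fermat.Agent.RR.Final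

variable {K F : Type*} [Field K] [Field F] [Algebra K F] [IsAlgClosed K] [CharZero K] {x : F}
  [HasCanonicalDivisor (K := K) (F := F)]

/-- All the Riemann–Roch data of `F / K`, hypothesis-free. -/
noncomputable def rrData (hx : IsGen K x) : RRData K F :=
  Fermat.Agent.RR.InstPrep.rrData hx (Fermat.Agent.RR.ResidueGlob.residueData hx)

/-- **Riemann–Roch.** -/
theorem riemann_roch (hx : IsGen K x) {ω₀ : Ω[F⁄K]} (hω₀ : ω₀ ≠ 0) {W : Divisor K F}
    (hW : ∀ v : Place K F, W v = v.ordDifferential ω₀) (D : Divisor K F) :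
    (Module.finrank K (riemannRochSpace D) : ℤ) - Module.finrank K (riemannRochSpace (W - D)) =
      Divisor.degree D + 1 - genusFF K F :=
  Fermat.Agent.RR.Final.riemann_roch (rrData hx) hω₀ hW D

/-- The Prelude genus (through `deg W`) is the dimension of `H¹(0)`. -/
theorem genus_eq_genusFF (hx : IsGen K x) : genus K F = genusFF K F :=
  Fermat.Agent.RR.Final.genus_eq_genusFF (rrData hx) ⟨D K F x, D_ne_zero hx⟩

/-- **Riemann–Roch** with the Prelude genus. -/
theorem riemann_roch_genus (hx : IsGen K x) {ω₀ : Ω[F⁄K]} (hω₀ : ω₀ ≠ 0) {W : Divisor K F}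
    (hW : ∀ v : Place K F, W v = v.ordDifferential ω₀) (D : Divisor K F) :
    (Module.finrank K (riemannRochSpace D) : ℤ) - Module.finrank K (riemannRochSpace (W - D)) =
      Divisor.degree D + 1 - genus K F := by
  rw [genus_eq_genusFF hx]
  exact riemann_roch hx hω₀ hW D

/-- `deg W = 2 genus - 2`. -/
theorem degree_canonical (hx : IsGen K x) {ω₀ : Ω[F⁄K]} (hω₀ : ω₀ ≠ 0) {W : Divisor K F}
    (hW : ∀ v : Place K F, W v = v.ordDifferential ω₀) :
    Divisor.degree W = 2 * (genus K F : ℤ) - 2 := by
  rw [genus_eq_genusFF hx]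
  exact Fermat.Agent.RR.Final.degree_canonical (rrData hx) hω₀ hW

/-- `l(W) = genus`. -/
theorem finrank_L_canonical (hx : IsGen K x) {ω₀ : Ω[F⁄K]} (hω₀ : ω₀ ≠ 0) {W : Divisor K F}
    (hW : ∀ v : Place K F, W v = v.ordDifferential ω₀) :
    Module.finrank K (riemannRochSpace W) = genus K F :=
  Fermat.Agent.RR.Final.finrank_L_canonical_eq_genus (rrData hx) hω₀ hW

/-- `l(div dx) = genus`: the `K`-space of `h` with `h • dx` regular has dimension the genus. -/
theorem finrank_L_dx_eq_genus (hx : IsGen K x) :
    Module.finrank K (riemannRochSpace (canonicalDivisorOf (D_ne_zero hx))) = genus K F :=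
  Fermat.Agent.RR.InstPrep.finrank_L_dx_eq_genus hx (Fermat.Agent.RR.ResidueGlob.residueData hx)

/-- Membership in `L(div dx)`. -/
theorem mem_L_dx_iff (hx : IsGen K x) {h : F} (hh : h ≠ 0) :
    h ∈ riemannRochSpace (canonicalDivisorOf (D_ne_zero hx)) ↔
      ∀ v : Place K F, 0 ≤ v.ordDifferential (h • D K F x) :=
  Fermat.Agent.RR.InstPrep.mem_L_dx_iff hx hh

/-- Membership in `L(div dx)`, including `h = 0`. -/
theorem mem_L_dx_iff' (hx : IsGen K x) {h : F} :
    h ∈ riemannRochSpace (canonicalDivisorOf (D_ne_zero hx)) ↔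
      h = 0 ∨ ∀ v : Place K F, 0 ≤ v.ordDifferential (h • D K F x) := by
  rcases eq_or_ne h 0 with rfl | hh
  · simp
  · rw [mem_L_dx_iff hx hh, or_iff_right hh]

theorem finiteDimensional_L (hx : IsGen K x) (D : Divisor K F) :
    FiniteDimensional K (riemannRochSpace D) :=
  Fermat.Agent.RR.InstPrep.finiteDimensional_L_isGen hx D

/-- `l(D) = deg D + 1 - genus` for `deg D > 2 genus - 2`. -/
theorem finrank_L_of_degree_gt (hx : IsGen K x) (D : Divisor K F)
    (hD : 2 * (genus K F : ℤ) - 2 < Divisor.degree D) :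
    (Module.finrank K (riemannRochSpace D) : ℤ) = Divisor.degree D + 1 - genus K F := by
  have hω₀ := D_ne_zero hx
  have hW := fun v => canonicalDivisorOf_apply (K := K) (F := F) hω₀ v
  have h0 := riemann_roch_genus hx hω₀ hW D
  have hneg : Divisor.degree (canonicalDivisorOf hω₀ - D) < 0 := by
    rw [map_sub, degree_canonical hx hω₀ hW]
    omega
  rw [L_eq_bot_of_degree_neg (Fermat.Agent.RR.LHypGen.lHyp_of_isGen hx) hneg, finrank_bot] at h0
  simpa using h0

end Fermat.Agent.RR.RRMain
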