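import Mathlib
import Fermat.Agent.RR.FinPotent
import Fermat.Agent.RR.Commens
import Fermat.Agent.RR.AbsResidue

/-!
# C-RR (GLOB0): vanishing of the abstract residue in the presence of a complementary stable subspace

Tate 1968, Theorem 3 (the linear algebra core of the residue theorem): if `A' ⊆ V` is stable
under `f` and `g`, `A ⊓ A'` is finite-dimensional and `V ⧸ (A ⊔ A')` is finite-dimensional, then
`res A f g = 0`.
-/

set_option autoImplicit false
set_option linter.style.haveILetI false
set_option linter.unusedSectionVars false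
set_option linter.unusedVariables false

open Fermat.Agent.RR Fermat.Agent.RR.Commens Fermat.Agent.RR.AbsResidue

namespace Fermat.Agent.RR.AbsResidueCompl

variable {K V : Type*} [Field K] [AddCommGroup V] [Module K V] {A A' : Submodule K V}

/-- There is a complement `B` of `A` with `B ≺ A'` and such that the projection onto `A` along `B`
maps `A'` into `A ⊓ A'`. -/
theorem exists_good_compl (A A' : Submodule K V) (hsup : Module.Finite K (V ⧸ (A ⊔ A'))) :
    ∃ (B : Submodule K V) (hAB : IsCompl A B), B ≺ A' ∧
      A'.map (A.projection B hAB) ≤ A ⊓ A' := by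
  obtain ⟨C, hC⟩ := Submodule.exists_isCompl (A ⊔ A')
  haveI : Module.Finite K C :=
    Module.Finite.equiv (Submodule.quotientEquivOfIsCompl (A ⊔ A') C hC)
  obtain ⟨A₁, hdisj, hsupA'⟩ :=
    IsModularLattice.exists_disjoint_and_sup_eq (inf_le_right : A ⊓ A' ≤ A')
  have hA₁A' : A₁ ≤ A' := by rw [← hsupA']; exact le_sup_right
  have hAB : IsCompl A (A₁ ⊔ C) := by
    constructor
    · rw [Submodule.disjoint_def]
      intro x hxA hxB
      obtain ⟨a₁, ha₁, c, hc, rfl⟩ := Submodule.mem_sup.mp hxB
      have hc0 : c = 0 := by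
        have h1 : c ∈ A ⊔ A' := by
          have : c = (a₁ + c) - a₁ := by abel
          rw [this]
          exact Submodule.sub_mem _ (Submodule.mem_sup_left hxA)
            (Submodule.mem_sup_right (hA₁A' ha₁))
        exact (Submodule.disjoint_def.mp hC.disjoint) c h1 hc
      rw [hc0, add_zero] at hxA ⊢
      exact (Submodule.disjoint_def.mp hdisj) a₁ ⟨hxA, hA₁A' ha₁⟩ ha₁
    · rw [codisjoint_iff, eq_top_iff, ← hC.sup_eq_top]
      refine sup_le (sup_le le_sup_left ?_) (le_sup_right.trans le_sup_right)
      rw [← hsupA']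
      refine sup_le (inf_le_left.trans le_sup_left) ?_
      exact le_sup_left.trans le_sup_right
  refine ⟨A₁ ⊔ C, hAB, ?_, ?_⟩
  · exact ⟨C, inferInstance, sup_le_sup_right hA₁A' C⟩
  · rintro _ ⟨a', ha', rfl⟩
    rw [← hsupA'] at ha'
    obtain ⟨i, hi, a₁, ha₁, rfl⟩ := Submodule.mem_sup.mp ha'
    rw [map_add, Submodule.projection_apply_of_mem_left hAB hi.1,
      Submodule.projection_apply_of_mem_right hAB (Submodule.mem_sup_left ha₁), add_zero]
    exact hi

/-- **(GLOB0)** If `A'` is stable under the commuting endomorphisms `f`, `g`, and `A ⊓ A'`,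
`V ⧸ (A ⊔ A')` are finite-dimensional, then the residue `res A f g` vanishes. -/
theorem res_eq_zero_of_compl {f g : Module.End K V} (hfg : f * g = g * f) (hf : InE A f)
    (hg : InE A g) (hfA' : A'.map f ≤ A') (hgA' : A'.map g ≤ A')
    (hinf : Module.Finite K ↥(A ⊓ A')) (hsup : Module.Finite K (V ⧸ (A ⊔ A'))) :
    res A f g = 0 := by
  obtain ⟨B, hAB, hBA', hpA'⟩ := exists_good_compl A A' hsup
  set p : Module.End K V := A.projection B hAB with hp
  have hpproj : IsProj A p :=
    ⟨fun v => Submodule.projection_apply_mem hAB v,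
      fun a ha => Submodule.projection_apply_of_mem_left hAB ha⟩
  -- `q = 1 - p` is the projection onto `B`
  have hq_mem : ∀ x, (1 - p) x ∈ B := by
    intro x
    have h1 := Submodule.projection_add_projection_eq_self hAB x
    have : (1 - p) x = B.projection A hAB.symm x := by
      simp only [LinearMap.sub_apply, Module.End.one_apply, hp]
      rw [sub_eq_iff_eq_add']
      exact h1.symm
    rw [this]
    exact Submodule.projection_apply_mem hAB.symm x
  have hqE1 : InE1 A' (1 - p) := by
    refine Prec.mono_left ?_ hBA'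
    rintro _ ⟨x, -, rfl⟩
    exact hq_mem x
  have hpE2 : InE2 A' p := by
    haveI := hinf
    have : Module.Finite K (A'.map p) := Submodule.finiteDimensional_of_le hpA'
    exact prec_bot_iff.mpr this
  have hfE' : InE A' f := prec_of_le hfA'
  have hgE' : InE A' g := prec_of_le hgA'
  -- the admissible pair `((1 - p) f, g)` for `A'`
  have hqfE1 : InE1 A' ((1 - p) * f) := hqE1.mul_right f
  have hadm : Adm A' f g ((1 - p) * f) g := by
    refine ⟨hqfE1.inE, hgE', ?_, ?_⟩
    · have : (1 - p) * f - f = -(p * f) := by noncomm_ring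
      rw [this]
      exact (hpE2.mul_right hfE').neg
    · rw [sub_self]; exact inE2_zero
  have h1 : res A' f g = fpTrace ((1 - p) * f * g - g * ((1 - p) * f)) :=
    res_eq_fpTrace_commutator hfg hfE' hgE' hadm (Or.inl hqfE1)
  have h2 : (1 - p) * f * g - g * ((1 - p) * f) = -(p * f * g - g * (p * f)) := by
    have : f * g - g * f = 0 := sub_eq_zero.mpr hfg
    calc (1 - p) * f * g - g * ((1 - p) * f)
        = (f * g - g * f) - (p * f * g - g * (p * f)) := by noncomm_ring
      _ = _ := by rw [this, zero_sub]
  have h3 : res A f g = fpTrace (p * f * g - g * (p * f)) := res_eq_of_isProj hfg hf hg hpproj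
  have h4 : res A' f g = 0 := res_eq_zero_of_stable hfg hfA' hgA'
  rw [h1, h2, fpTrace_neg, ← h3] at h4
  exact neg_eq_zero.mp h4

/-- Consumer form: for EVERY projection `P` onto `A`, `[P f, g]` is finite potent of trace `0`. -/
theorem fpTrace_commutator_eq_zero_of_compl {f g : Module.End K V} (hfg : f * g = g * f)
    (hf : InE A f) (hg : InE A g) (hfA' : A'.map f ≤ A') (hgA' : A'.map g ≤ A')
    (hinf : Module.Finite K ↥(A ⊓ A')) (hsup : Module.Finite K (V ⧸ (A ⊔ A')))
    {P : Module.End K V} (hP : IsProj A P) :
    IsFinitePotent (P * f * g - g * P * f) ∧ fpTrace (P * f * g - g * P * f) = 0 := by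
  constructor
  · rw [mul_assoc g P f]
    exact isFinitePotent_commutator_proj hfg hf hg hP
  · rw [← res_eq_of_isProj_assoc hfg hf hg hP]
    exact res_eq_zero_of_compl hfg hf hg hfA' hgA' hinf hsup

end Fermat.Agent.RR.AbsResidueCompl
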