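/-
C-RR (S20 programme), piece W1a: ROW REDUCTION of polynomial matrices.

For a square matrix `N` over `k[X]` (`k` a field) with `det N ≠ 0` there is a unimodular `U`
(`det U = 1`) such that `R = U * N` is *row reduced*: with `d i` the maximum of the degrees of the
entries of row `i`, the matrix of the coefficients of `X ^ d i` in row `i` is invertible over `k`.
Then `det R` has degree `∑ d i` and leading coefficient the determinant of that matrix.
This is the computational core of the Dedekind–Weber / Birkhoff–Grothendieck normal form.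
-/
import Mathlib

set_option autoImplicit false

open Polynomial Matrix Finset

namespace Fermat.Agent.RR.RowReduce

variable {k : Type*} [Field k] {ι : Type*} [Fintype ι]

/-- The degree of row `i`: the maximum of the degrees of its entries. -/
noncomputable def rowDeg (N : Matrix ι ι k[X]) (i : ι) : ℕ :=
  Finset.univ.sup fun j => (N i j).natDegree

/-- The matrix of the coefficients of `X ^ d i` of the entries in row `i`. -/
noncomputable def leadMat (N : Matrix ι ι k[X]) (d : ι → ℕ) : Matrix ι ι k :=
  Matrix.of fun i j => (N i j).coeff (d i)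

theorem natDegree_le_rowDeg (N : Matrix ι ι k[X]) (i j : ι) : (N i j).natDegree ≤ rowDeg N i :=
  Finset.le_sup (f := fun j => (N i j).natDegree) (Finset.mem_univ j)

theorem rowDeg_le {N : Matrix ι ι k[X]} {i : ι} {m : ℕ} (h : ∀ j, (N i j).natDegree ≤ m) :
    rowDeg N i ≤ m :=
  Finset.sup_le fun j _ => h j

/-- A polynomial of degree `≤ m + 1` whose coefficient of `X ^ (m + 1)` vanishes has degree
`≤ m`. -/
theorem natDegree_le_of_coeff_succ_eq_zero {p : k[X]} {m : ℕ} (h1 : p.natDegree ≤ m + 1)
    (h2 : p.coeff (m + 1) = 0) : p.natDegree ≤ m := by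
  by_contra hlt
  have h3 : p.natDegree = m + 1 := by omega
  have hp : p ≠ 0 := by
    rintro rfl
    simp at h3
  have := Polynomial.leadingCoeff_ne_zero.mpr hp
  rw [Polynomial.leadingCoeff, h3] at this
  exact this h2

variable [DecidableEq ι]

/-- One reduction step. -/
theorem exists_step (N : Matrix ι ι k[X]) (hN : N.det ≠ 0)
    (hL : (leadMat N (rowDeg N)).det = 0) :
    ∃ U : Matrix ι ι k[X], U.det = 1 ∧ ∑ i, rowDeg (U * N) i < ∑ i, rowDeg N i := by
  classical
  obtain ⟨c, hc0, hc⟩ := (Matrix.exists_vecMul_eq_zero_iff).mpr hL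
  -- the support of `c` and an index of maximal row degree in it
  have hS : (Finset.univ.filter fun i => c i ≠ 0).Nonempty := by
    by_contra hne
    rw [Finset.not_nonempty_iff_eq_empty] at hne
    apply hc0
    funext i
    by_contra hi
    have hi' : c i ≠ 0 := hi
    have : i ∈ (Finset.univ.filter fun i => c i ≠ 0) := by simp [hi']
    rw [hne] at this
    simp at this
  obtain ⟨i₀, hi₀S, hi₀max⟩ := Finset.exists_max_image _ (fun i => rowDeg N i) hS
  have hci₀ : c i₀ ≠ 0 := by simpa using hi₀S
  have hmax : ∀ i, c i ≠ 0 → rowDeg N i ≤ rowDeg N i₀ := fun i hi => hi₀max i (by simp [hi])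
  -- the new row
  set r : ι → k[X] := fun i =>
    if c i ≠ 0 then C (c i / c i₀) * X ^ (rowDeg N i₀ - rowDeg N i) else 0 with hr
  have hri₀ : r i₀ = 1 := by
    simp [hr, hci₀]
  set U : Matrix ι ι k[X] := (1 : Matrix ι ι k[X]).updateRow i₀ r with hU
  have hUdet : U.det = 1 := by
    have h := Matrix.det_updateRow_sum (1 : Matrix ι ι k[X]) i₀ r
    have hsum : (∑ j, r j • (1 : Matrix ι ι k[X]) j) = r := by
      funext l
      simp [Finset.sum_apply, Matrix.one_apply]
    rw [hsum] at h
    rw [hU, h, hri₀]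
    simp
  have hUN : U * N = N.updateRow i₀ (r ᵥ* N) := by
    rw [hU, Matrix.updateRow_mul, Matrix.one_mul]
  refine ⟨U, hUdet, ?_⟩
  -- bounds on the new row
  have hentry : ∀ j, (r ᵥ* N) j = ∑ i, r i * N i j := fun j => by
    simp [Matrix.vecMul, dotProduct]
  have hterm_deg : ∀ i j, (r i * N i j).natDegree ≤ rowDeg N i₀ := by
    intro i j
    by_cases hi : c i ≠ 0
    · have h1 : r i = C (c i / c i₀) * X ^ (rowDeg N i₀ - rowDeg N i) := by simp [hr, hi]
      rw [h1]
      calc (C (c i / c i₀) * X ^ (rowDeg N i₀ - rowDeg N i) * N i j).natDegree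
          ≤ (C (c i / c i₀) * X ^ (rowDeg N i₀ - rowDeg N i)).natDegree + (N i j).natDegree :=
            Polynomial.natDegree_mul_le
        _ ≤ (rowDeg N i₀ - rowDeg N i) + rowDeg N i := by
            refine add_le_add ?_ (natDegree_le_rowDeg N i j)
            exact (Polynomial.natDegree_C_mul_le _ _).trans (Polynomial.natDegree_X_pow_le _)
        _ = rowDeg N i₀ := Nat.sub_add_cancel (hmax i hi)
    · have h1 : r i = 0 := by simp [hr, hi]
      rw [h1, zero_mul]
      simp
  have hterm_coeff : ∀ i j, (r i * N i j).coeff (rowDeg N i₀)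
      = (c i / c i₀) * (N i j).coeff (rowDeg N i) := by
    intro i j
    by_cases hi : c i ≠ 0
    · have h1 : r i = C (c i / c i₀) * X ^ (rowDeg N i₀ - rowDeg N i) := by simp [hr, hi]
      rw [h1]
      have h2 := Polynomial.coeff_mul_add_eq_of_natDegree_le
        (f := C (c i / c i₀) * X ^ (rowDeg N i₀ - rowDeg N i)) (g := N i j)
        (df := rowDeg N i₀ - rowDeg N i) (dg := rowDeg N i)
        ((Polynomial.natDegree_C_mul_le _ _).trans (Polynomial.natDegree_X_pow_le _))
        (natDegree_le_rowDeg N i j)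
      rw [Nat.sub_add_cancel (hmax i hi)] at h2
      rw [h2]
      simp
    · have h1 : r i = 0 := by simp [hr, hi]
      have h2 : c i = 0 := by simpa using hi
      rw [h1, zero_mul, h2]
      simp
  have hrow_deg : ∀ j, ((r ᵥ* N) j).natDegree ≤ rowDeg N i₀ := by
    intro j
    rw [hentry]
    exact Polynomial.natDegree_sum_le_of_forall_le _ _ (fun i _ => hterm_deg i j)
  have hrow_coeff : ∀ j, ((r ᵥ* N) j).coeff (rowDeg N i₀) = 0 := by
    intro j
    rw [hentry, Polynomial.finsetSum_coeff]
    simp_rw [hterm_coeff]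
    have h3 : (c ᵥ* leadMat N (rowDeg N)) j = 0 := by rw [hc]; rfl
    simp only [Matrix.vecMul, dotProduct, leadMat, Matrix.of_apply] at h3
    calc ∑ i, c i / c i₀ * (N i j).coeff (rowDeg N i)
        = (c i₀)⁻¹ * ∑ i, c i * (N i j).coeff (rowDeg N i) := by
          rw [Finset.mul_sum]
          refine Finset.sum_congr rfl fun i _ => ?_
          field_simp
      _ = 0 := by rw [h3, mul_zero]
  -- the degree of row `i₀` is positive (otherwise the new row vanishes and `det N = 0`)
  have hdet' : (U * N).det ≠ 0 := by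
    rw [Matrix.det_mul, hUdet, one_mul]
    exact hN
  have hpos : 0 < rowDeg N i₀ := by
    by_contra h0
    have h0' : rowDeg N i₀ = 0 := by omega
    apply hdet'
    rw [hUN]
    apply Matrix.det_eq_zero_of_row_eq_zero i₀
    intro j
    rw [Matrix.updateRow_self]
    have h1 := hrow_deg j
    have h2 := hrow_coeff j
    rw [h0'] at h1 h2
    rw [Polynomial.eq_C_of_natDegree_le_zero h1, h2]
    simp
  obtain ⟨m, hm⟩ : ∃ m, rowDeg N i₀ = m + 1 := ⟨rowDeg N i₀ - 1, by omega⟩
  have hnew : rowDeg (U * N) i₀ ≤ m := by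
    apply rowDeg_le
    intro j
    rw [hUN, Matrix.updateRow_self]
    have h1 := hrow_deg j
    have h2 := hrow_coeff j
    rw [hm] at h1 h2
    exact natDegree_le_of_coeff_succ_eq_zero h1 h2
  have hother : ∀ i, i ≠ i₀ → rowDeg (U * N) i = rowDeg N i := by
    intro i hi
    unfold rowDeg
    refine Finset.sup_congr rfl fun j _ => ?_
    rw [hUN, Matrix.updateRow_ne hi]
  apply Finset.sum_lt_sum
  · intro i _
    by_cases hi : i = i₀
    · subst hi
      omega
    · exact (hother i hi).le
  · exact ⟨i₀, Finset.mem_univ _, by omega⟩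

/-- **Row reduction.** -/
theorem exists_rowReduced (N : Matrix ι ι k[X]) (hN : N.det ≠ 0) :
    ∃ U : Matrix ι ι k[X], U.det = 1 ∧ (leadMat (U * N) (rowDeg (U * N))).det ≠ 0 := by
  classical
  induction hs : ∑ i, rowDeg N i using Nat.strong_induction_on generalizing N with
  | _ s ih =>
    by_cases hL : (leadMat N (rowDeg N)).det = 0
    · obtain ⟨U, hU, hlt⟩ := exists_step N hN hL
      have hdet' : (U * N).det ≠ 0 := by
        rw [Matrix.det_mul, hU, one_mul]
        exact hN
      obtain ⟨U', hU', hred⟩ := ih _ (hs ▸ hlt) (U * N) hdet' rfl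
      refine ⟨U' * U, by rw [Matrix.det_mul, hU', hU, one_mul], ?_⟩
      rw [Matrix.mul_assoc]
      exact hred
    · exact ⟨1, Matrix.det_one, by rwa [Matrix.one_mul]⟩

/-- Degree bound and top coefficient of a product with individual degree bounds. -/
theorem prod_natDegree_le_and_coeff {κ : Type*} (s : Finset κ) (f : κ → k[X]) (n : κ → ℕ)
    (h : ∀ i ∈ s, (f i).natDegree ≤ n i) :
    (∏ i ∈ s, f i).natDegree ≤ ∑ i ∈ s, n i ∧
      (∏ i ∈ s, f i).coeff (∑ i ∈ s, n i) = ∏ i ∈ s, (f i).coeff (n i) := by
  classical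
  induction s using Finset.induction_on with
  | empty => simp
  | insert a s ha ih =>
    have h1 := h a (Finset.mem_insert_self a s)
    obtain ⟨ih1, ih2⟩ := ih (fun i hi => h i (Finset.mem_insert_of_mem hi))
    rw [Finset.prod_insert ha, Finset.sum_insert ha, Finset.prod_insert ha]
    refine ⟨Polynomial.natDegree_mul_le.trans (add_le_add h1 ih1), ?_⟩
    rw [Polynomial.coeff_mul_add_eq_of_natDegree_le h1 ih1, ih2]

/-- If row `i` of `R` has degree `≤ d i`, then `det R` has degree `≤ ∑ d i` and its coefficient of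
`X ^ (∑ d i)` is the determinant of the matrix of `X ^ d i`-coefficients. -/
theorem det_natDegree_le_and_coeff (R : Matrix ι ι k[X]) (d : ι → ℕ)
    (h : ∀ i j, (R i j).natDegree ≤ d i) :
    R.det.natDegree ≤ ∑ i, d i ∧ R.det.coeff (∑ i, d i) = (leadMat R d).det := by
  classical
  have hterm : ∀ σ : Equiv.Perm ι,
      (∏ i, R (σ i) i).natDegree ≤ ∑ i, d i ∧
        (∏ i, R (σ i) i).coeff (∑ i, d i) = ∏ i, (R (σ i) i).coeff (d (σ i)) := by
    intro σ
    have hsum : ∑ i, d (σ i) = ∑ i, d i := Equiv.sum_comp σ d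
    have := prod_natDegree_le_and_coeff Finset.univ (fun i => R (σ i) i) (fun i => d (σ i))
      (fun i _ => h (σ i) i)
    rw [hsum] at this
    exact this
  have hsign : ∀ σ : Equiv.Perm ι,
      (((Equiv.Perm.sign σ : ℤˣ) : ℤ) : k[X]) = C (((Equiv.Perm.sign σ : ℤˣ) : ℤ) : k) := by
    intro σ
    simp
  constructor
  · rw [Matrix.det_apply']
    refine Polynomial.natDegree_sum_le_of_forall_le _ _ (fun σ _ => ?_)
    rw [hsign]
    exact (Polynomial.natDegree_C_mul_le _ _).trans (hterm σ).1
  · rw [Matrix.det_apply', Matrix.det_apply', Polynomial.finsetSum_coeff]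
    refine Finset.sum_congr rfl fun σ _ => ?_
    rw [hsign, Polynomial.coeff_C_mul, (hterm σ).2]
    rfl

/-- For a row reduced matrix the degree of the determinant is the sum of the row degrees. -/
theorem det_natDegree_eq_of_leadMat_det_ne_zero (R : Matrix ι ι k[X])
    (hL : (leadMat R (rowDeg R)).det ≠ 0) :
    R.det.natDegree = ∑ i, rowDeg R i ∧ R.det.leadingCoeff = (leadMat R (rowDeg R)).det := by
  obtain ⟨h1, h2⟩ := det_natDegree_le_and_coeff R (rowDeg R) (natDegree_le_rowDeg R)
  have h3 : R.det.natDegree = ∑ i, rowDeg R i := by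
    refine le_antisymm h1 ?_
    apply Polynomial.le_natDegree_of_ne_zero
    rw [h2]
    exact hL
  exact ⟨h3, by rw [Polynomial.leadingCoeff, h3, h2]⟩

end Fermat.Agent.RR.RowReduce
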