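/-
C-RR (S20 programme), piece W1b: BIRKHOFF / DEDEKIND–WEBER factorisation, polynomial form.

If `N` is a square matrix over `k[X]` whose determinant is a monomial `c X ^ l` (`c ≠ 0`), i.e.
`N ∈ GL_n(k[X, X⁻¹])`, then there are a unimodular `U` over `k[X]`, row degrees `d i` with
`∑ d i = l` and a matrix `P` over `k[X]` with `det P = c` (so `P(1/x) ∈ GL_n(k[1/x])`) such that
`(U * N) i j = reflect (d i) (P i j)`, i.e. `(U N)(x) = diag(x ^ d i) · P(1 / x)`.
-/
import Fermat.Agent.RR.RowReduce

set_option autoImplicit false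

open Polynomial Matrix Finset

namespace Fermat.Agent.RR.Birkhoff

open Fermat.Agent.RR.RowReduce

variable {k : Type*} [Field k]

theorem reflect_finset_sum {κ : Type*} (s : Finset κ) (f : κ → k[X]) (N : ℕ) :
    reflect N (∑ i ∈ s, f i) = ∑ i ∈ s, reflect N (f i) := by
  classical
  induction s using Finset.induction_on with
  | empty => simp [reflect_zero]
  | insert a s ha ih => rw [Finset.sum_insert ha, Finset.sum_insert ha, reflect_add, ih]

theorem reflect_finset_prod {κ : Type*} (s : Finset κ) (f : κ → k[X]) (n : κ → ℕ)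
    (h : ∀ i ∈ s, (f i).natDegree ≤ n i) :
    reflect (∑ i ∈ s, n i) (∏ i ∈ s, f i) = ∏ i ∈ s, reflect (n i) (f i) := by
  classical
  induction s using Finset.induction_on with
  | empty => simp [reflect_one]
  | insert a s ha ih =>
    have h1 := h a (Finset.mem_insert_self a s)
    have h2 : ∀ i ∈ s, (f i).natDegree ≤ n i := fun i hi => h i (Finset.mem_insert_of_mem hi)
    have h3 := (prod_natDegree_le_and_coeff s f n h2).1
    rw [Finset.prod_insert ha, Finset.sum_insert ha, Finset.prod_insert ha,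
      reflect_mul _ _ h1 h3, ih h2]

variable {ι : Type*} [Fintype ι] [DecidableEq ι]

/-- The determinant of the row-wise reflected matrix is the reflection of the determinant. -/
theorem det_reflect (R : Matrix ι ι k[X]) (d : ι → ℕ) (h : ∀ i j, (R i j).natDegree ≤ d i) :
    (Matrix.of fun i j => reflect (d i) (R i j)).det = reflect (∑ i, d i) R.det := by
  classical
  rw [Matrix.det_apply', Matrix.det_apply', reflect_finset_sum]
  refine Finset.sum_congr rfl fun σ _ => ?_
  have hsign : (((Equiv.Perm.sign σ : ℤˣ) : ℤ) : k[X]) = C (((Equiv.Perm.sign σ : ℤˣ) : ℤ) : k) := by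
    simp
  rw [hsign, reflect_C_mul]
  congr 1
  have hsum : ∑ i, d (σ i) = ∑ i, d i := Equiv.sum_comp σ d
  have := reflect_finset_prod Finset.univ (fun i => R (σ i) i) (fun i => d (σ i))
    (fun i _ => h (σ i) i)
  rw [hsum] at this
  rw [this]
  rfl

/-- **Birkhoff factorisation**, polynomial form. -/
theorem birkhoff (N : Matrix ι ι k[X]) (c : k) (hc : c ≠ 0) (l : ℕ) (hN : N.det = C c * X ^ l) :
    ∃ (U P : Matrix ι ι k[X]) (d : ι → ℕ), U.det = 1 ∧ P.det = C c ∧ ∑ i, d i = l ∧
      (∀ i j, (P i j).natDegree ≤ d i) ∧ ∀ i j, (U * N) i j = reflect (d i) (P i j) := by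
  classical
  have hN0 : N.det ≠ 0 := by
    rw [hN]
    exact mul_ne_zero (by simpa using hc) (pow_ne_zero _ X_ne_zero)
  obtain ⟨U, hU, hred⟩ := exists_rowReduced N hN0
  set R := U * N with hR
  have hdetR : R.det = C c * X ^ l := by rw [hR, Matrix.det_mul, hU, one_mul, hN]
  obtain ⟨hdeg, -⟩ := det_natDegree_eq_of_leadMat_det_ne_zero R hred
  have hl : ∑ i, rowDeg R i = l := by
    rw [← hdeg, hdetR, Polynomial.natDegree_C_mul_X_pow l c hc]
  refine ⟨U, Matrix.of fun i j => reflect (rowDeg R i) (R i j), rowDeg R, hU, ?_, hl, ?_, ?_⟩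
  · rw [det_reflect R (rowDeg R) (natDegree_le_rowDeg R), hdetR, hl, reflect_C_mul_X_pow,
      revAt_le le_rfl, Nat.sub_self, pow_zero, mul_one]
  · intro i j
    exact natDegree_reflect_le.trans (max_le le_rfl (natDegree_le_rowDeg R i j))
  · intro i j
    simp only [Matrix.of_apply, reflect_reflect]
    rfl

end Fermat.Agent.RR.Birkhoff
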