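/-
C-RR (UP-2), abstract core (helper2).

Let `Γ ≤ G` have finite index, `X = G ⧸ Γ`, `M = X → k` (`k` a field of characteristic zero)
with the permutation representation `ρ`.  An additive character `φ : Γ → k` gives, through
coset representatives, a Shapiro cocycle `c_φ : G → M`.  If `G` is generated by `s, u` with
`s ^ 2`, `u ^ 3` acting trivially on `X` and `s ^ 4 = u ^ 6 = 1`, and `t = s⁻¹ * u`, then for
every submodule `H` of characters vanishing on the conjugates of `t ^ n` that lie in `Γ`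
(`t ^ n` acting trivially on `X`):

  `finrank H + o_s + o_u + o_t ≤ #X + 2`,

where `o_g` is the number of orbits of `⟨g⟩` on `X`.  Only *generation* of `G` by `s, u` is used.
-/
import Mathlib

set_option autoImplicit false

namespace Fermat.Agent.RR.CocycleBound

open MulAction

variable {G : Type*} [Group G] (Γ : Subgroup G) (k : Type*) [Field k]

/-- Functions on the coset space. -/
abbrev Mod : Type _ := (G ⧸ Γ) → k

/-- The permutation representation of `G` on functions on `G ⧸ Γ`. -/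
noncomputable def rho (g : G) : Mod Γ k →ₗ[k] Mod Γ k :=
  LinearMap.funLeft k k (fun x : G ⧸ Γ => g⁻¹ • x)

@[simp] lemma rho_apply (g : G) (m : Mod Γ k) (x : G ⧸ Γ) : rho Γ k g m x = m (g⁻¹ • x) := rfl

lemma rho_one : rho Γ k (1 : G) = LinearMap.id :=
  LinearMap.ext fun m => funext fun x => by simp

lemma rho_mul (g h : G) : rho Γ k (g * h) = rho Γ k g ∘ₗ rho Γ k h :=
  LinearMap.ext fun m => funext fun x => by simp [mul_smul]

lemma rho_mul_apply (g h : G) (m : Mod Γ k) : rho Γ k (g * h) m = rho Γ k g (rho Γ k h m) := by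
  rw [rho_mul]; rfl

lemma rho_pow (g : G) (n : ℕ) : rho Γ k (g ^ n) = (rho Γ k g) ^ n := by
  induction n with
  | zero => rw [pow_zero, pow_zero, rho_one]; rfl
  | succ n ih => rw [pow_succ, pow_succ, rho_mul, ih]; rfl

lemma rho_inv_apply_rho (g : G) (m : Mod Γ k) : rho Γ k g⁻¹ (rho Γ k g m) = m := by
  rw [← rho_mul_apply, inv_mul_cancel, rho_one]; rfl

lemma rho_single [DecidableEq (G ⧸ Γ)] (g : G) (y : G ⧸ Γ) (a : k) :
    rho Γ k g (Pi.single y a) = Pi.single (g • y) a := by
  funext x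
  rw [rho_apply, Pi.single_apply, Pi.single_apply]
  simp only [inv_smul_eq_iff]

/-! ### Coset representatives and the Shapiro cocycle -/

lemma kappa_mem (g : G) (x : G ⧸ Γ) :
    (Quotient.out x)⁻¹ * (g * Quotient.out (g⁻¹ • x)) ∈ Γ := by
  rw [← QuotientGroup.eq, QuotientGroup.out_eq', ← smul_eq_mul, ← MulAction.Quotient.smul_mk,
    QuotientGroup.out_eq', smul_inv_smul]

/-- `κ(g, x) = r(x)⁻¹ g r(g⁻¹ x) ∈ Γ`. -/
noncomputable def kappa (g : G) (x : G ⧸ Γ) : Γ := ⟨_, kappa_mem Γ g x⟩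

lemma coe_kappa (g : G) (x : G ⧸ Γ) :
    (kappa Γ g x : G) = (Quotient.out x)⁻¹ * (g * Quotient.out (g⁻¹ • x)) := rfl

lemma kappa_mul (g h : G) (x : G ⧸ Γ) :
    kappa Γ (g * h) x = kappa Γ g x * kappa Γ h (g⁻¹ • x) := by
  apply Subtype.ext
  simp only [coe_kappa, Subgroup.coe_mul, mul_inv_rev, mul_smul]
  group

/-- If `g` fixes `x`, then `κ(g, x)` is the conjugate `r(x)⁻¹ g r(x)`. -/
lemma coe_kappa_of_fixed {g : G} {x : G ⧸ Γ} (h : g • x = x) :
    (kappa Γ g x : G) = (Quotient.out x)⁻¹ * g * Quotient.out x := by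
  have h' : g⁻¹ • x = x := by rw [inv_smul_eq_iff, h]
  rw [coe_kappa, h', mul_assoc]

/-- The Shapiro cocycle of a character, as a linear map in the character. -/
noncomputable def coc (g : G) : (Additive Γ →+ k) →ₗ[k] Mod Γ k where
  toFun φ := fun x => φ (Additive.ofMul (kappa Γ g x))
  map_add' φ ψ := by funext x; simp
  map_smul' c φ := by funext x; simp

@[simp] lemma coc_apply (g : G) (φ : Additive Γ →+ k) (x : G ⧸ Γ) :
    coc Γ k g φ x = φ (Additive.ofMul (kappa Γ g x)) := rfl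

lemma coc_mul (g h : G) (φ : Additive Γ →+ k) :
    coc Γ k (g * h) φ = coc Γ k g φ + rho Γ k g (coc Γ k h φ) := by
  funext x
  simp only [coc_apply, Pi.add_apply, rho_apply, kappa_mul, ofMul_mul, map_add]

/-! ### Cocycles -/

/-- `c : G → M` is a cocycle. -/
def IsCocycle (c : G → Mod Γ k) : Prop := ∀ g h, c (g * h) = c g + rho Γ k g (c h)

variable {Γ k}

namespace IsCocycle

variable {c : G → Mod Γ k} (hc : IsCocycle Γ k c)
include hc

lemma map_one : c 1 = 0 := by
  have h := hc 1 1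
  rw [mul_one, rho_one, LinearMap.id_apply] at h
  exact left_eq_add.mp h

lemma map_inv (g : G) : c g⁻¹ = - rho Γ k g⁻¹ (c g) := by
  have h := hc g⁻¹ g
  rw [inv_mul_cancel, hc.map_one] at h
  exact eq_neg_of_add_eq_zero_left h.symm

lemma map_pow (g : G) (n : ℕ) :
    c (g ^ n) = ∑ i ∈ Finset.range n, ((rho Γ k g) ^ i) (c g) := by
  induction n with
  | zero => rw [pow_zero, hc.map_one, Finset.range_zero, Finset.sum_empty]
  | succ n ih => rw [pow_succ, hc, ih, Finset.sum_range_succ, rho_pow]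

lemma eq_zero_of_closure {S : Set G} (hS : Subgroup.closure S = ⊤) (h0 : ∀ g ∈ S, c g = 0)
    (g : G) : c g = 0 := by
  have hg : g ∈ Subgroup.closure S := by rw [hS]; exact Subgroup.mem_top g
  induction hg using Subgroup.closure_induction with
  | mem x hx => exact h0 x hx
  | one => exact hc.map_one
  | mul x y _ _ hx hy => rw [hc, hx, hy, map_zero, add_zero]
  | inv x _ hx => rw [hc.map_inv, hx, map_zero, neg_zero]

end IsCocycle

variable (Γ k)

/-- The cocycle attached to a character and a function (character cocycle + coboundary). -/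
noncomputable def tot (φ : Additive Γ →+ k) (m : Mod Γ k) (g : G) : Mod Γ k :=
  coc Γ k g φ + (rho Γ k g m - m)

lemma isCocycle_tot (φ : Additive Γ →+ k) (m : Mod Γ k) : IsCocycle Γ k (tot Γ k φ m) := by
  intro g h
  simp only [tot, coc_mul, rho_mul_apply, map_add, map_sub]
  abel


/-! ### Norm maps and their kernels -/

/-- `N_{g,n} = 1 + ρ(g) + ⋯ + ρ(g)^(n-1)`. -/
noncomputable def normMap (g : G) (n : ℕ) : Mod Γ k →ₗ[k] Mod Γ k :=
  ∑ i ∈ Finset.range n, (rho Γ k g) ^ i

lemma normMap_apply (g : G) (n : ℕ) (m : Mod Γ k) :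
    normMap Γ k g n m = ∑ i ∈ Finset.range n, ((rho Γ k g) ^ i) m := by
  rw [normMap, LinearMap.sum_apply]

variable {Γ k} in
lemma IsCocycle.normMap_eq {c : G → Mod Γ k} (hc : IsCocycle Γ k c) (g : G) (n : ℕ) :
    normMap Γ k g n (c g) = c (g ^ n) := by
  rw [normMap_apply, hc.map_pow]

lemma normMap_comp_sub (g : G) (n : ℕ) (m : Mod Γ k) :
    normMap Γ k g n (rho Γ k g m - m) = rho Γ k (g ^ n) m - m := by
  rw [normMap_apply, rho_pow]
  induction n with
  | zero => simp
  | succ n ih =>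
    rw [Finset.sum_range_succ, ih, map_sub, ← Module.End.mul_apply, ← pow_succ]
    abel

lemma normMap_of_invariant (g : G) (n : ℕ) {m : Mod Γ k} (hm : rho Γ k g m = m) :
    normMap Γ k g n m = (n : k) • m := by
  have hpow : ∀ i : ℕ, ((rho Γ k g) ^ i) m = m := by
    intro i
    induction i with
    | zero => rfl
    | succ i ih => rw [pow_succ, Module.End.mul_apply, hm, ih]
  rw [normMap_apply, Finset.sum_congr rfl (fun i _ => hpow i), Finset.sum_const,
    Finset.card_range, Nat.cast_smul_eq_nsmul]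

/-- Functions on the orbit space of `⟨g⟩`, as `g`-invariant functions. -/
noncomputable def orbitFun (g : G) :
    (orbitRel.Quotient (Subgroup.zpowers g) (G ⧸ Γ) → k) →ₗ[k] Mod Γ k :=
  LinearMap.funLeft k k (fun x : G ⧸ Γ => (Quotient.mk'' x : orbitRel.Quotient _ _))

lemma orbitFun_injective (g : G) : Function.Injective (orbitFun Γ k g) :=
  LinearMap.funLeft_injective_of_surjective k k _ Quotient.mk''_surjective

lemma rho_orbitFun (g : G) (f : orbitRel.Quotient (Subgroup.zpowers g) (G ⧸ Γ) → k) :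
    rho Γ k g (orbitFun Γ k g f) = orbitFun Γ k g f := by
  funext x
  show f (Quotient.mk'' (g⁻¹ • x)) = f (Quotient.mk'' x)
  congr 1
  apply Quotient.sound'
  refine ⟨⟨g⁻¹, Subgroup.inv_mem _ (Subgroup.mem_zpowers g)⟩, ?_⟩
  rfl

/-- Key dimension bound: `dim ker N_{g,n} + #orbits(⟨g⟩) ≤ #X` when `n ≠ 0` in `k`. -/
theorem finrank_ker_normMap_add_le [Finite (G ⧸ Γ)] (g : G) (n : ℕ) (hn : (n : k) ≠ 0) :
    Module.finrank k (LinearMap.ker (normMap Γ k g n)) +
      Nat.card (orbitRel.Quotient (Subgroup.zpowers g) (G ⧸ Γ)) ≤ Nat.card (G ⧸ Γ) := by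
  classical
  have := Fintype.ofFinite (G ⧸ Γ)
  have : Fintype (orbitRel.Quotient (Subgroup.zpowers g) (G ⧸ Γ)) := Fintype.ofFinite _
  have hrn := LinearMap.finrank_range_add_finrank_ker (normMap Γ k g n)
  have hM : Module.finrank k (Mod Γ k) = Nat.card (G ⧸ Γ) := by
    rw [Module.finrank_fintype_fun_eq_card, Nat.card_eq_fintype_card]
  have hO : Module.finrank k (orbitRel.Quotient (Subgroup.zpowers g) (G ⧸ Γ) → k) =
      Nat.card (orbitRel.Quotient (Subgroup.zpowers g) (G ⧸ Γ)) := by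
    rw [Module.finrank_fintype_fun_eq_card, Nat.card_eq_fintype_card]
  have hle : LinearMap.range (orbitFun Γ k g) ≤ LinearMap.range (normMap Γ k g n) := by
    rintro _ ⟨f, rfl⟩
    refine ⟨(n : k)⁻¹ • orbitFun Γ k g f, ?_⟩
    rw [map_smul, normMap_of_invariant Γ k g n (rho_orbitFun Γ k g f), smul_smul,
      inv_mul_cancel₀ hn, one_smul]
  have h1 : Module.finrank k (LinearMap.range (orbitFun Γ k g)) =
      Module.finrank k (orbitRel.Quotient (Subgroup.zpowers g) (G ⧸ Γ) → k) :=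
    LinearMap.finrank_range_of_inj (orbitFun_injective Γ k g)
  have h2 := Submodule.finrank_mono hle
  omega


/-! ### The augmentation submodule generated by `s` and `u` -/

/-- `J = (ρ(s) - 1) M + (ρ(u) - 1) M`. -/
noncomputable def augSub (s u : G) : Submodule k (Mod Γ k) :=
  LinearMap.range (rho Γ k s - LinearMap.id) ⊔ LinearMap.range (rho Γ k u - LinearMap.id)

lemma single_sub_single_mem_augSub [DecidableEq (G ⧸ Γ)] {s u : G}
    (hgen : Subgroup.closure ({s, u} : Set G) = ⊤) (g : G) (y : G ⧸ Γ) :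
    (Pi.single (g • y) (1 : k) - Pi.single y 1 : Mod Γ k) ∈ augSub Γ k s u := by
  have hg : g ∈ Subgroup.closure ({s, u} : Set G) := by rw [hgen]; exact Subgroup.mem_top g
  induction hg using Subgroup.closure_induction generalizing y with
  | mem x hx =>
    rcases hx with rfl | rfl
    · refine Submodule.mem_sup_left ⟨Pi.single y 1, ?_⟩
      rw [LinearMap.sub_apply, rho_single, LinearMap.id_apply]
    · refine Submodule.mem_sup_right ⟨Pi.single y 1, ?_⟩
      rw [LinearMap.sub_apply, rho_single, LinearMap.id_apply]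
  | one => rw [one_smul, sub_self]; exact Submodule.zero_mem _
  | mul a b _ _ ha hb =>
    have h := Submodule.add_mem _ (ha (b • y)) (hb y)
    rw [mul_smul]
    convert h using 1
    abel
  | inv a _ ha =>
    have h := Submodule.neg_mem _ (ha (a⁻¹ • y))
    rw [smul_inv_smul] at h
    convert h using 1
    abel

/-- The sum-of-values functional. -/
noncomputable def sumMap [Fintype (G ⧸ Γ)] : Mod Γ k →ₗ[k] k :=
  ∑ x : G ⧸ Γ, LinearMap.proj x

lemma sumMap_apply [Fintype (G ⧸ Γ)] (m : Mod Γ k) : sumMap Γ k m = ∑ x, m x := by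
  rw [sumMap, LinearMap.sum_apply]; rfl

lemma ker_sumMap_le_augSub [Fintype (G ⧸ Γ)] {s u : G}
    (hgen : Subgroup.closure ({s, u} : Set G) = ⊤) :
    LinearMap.ker (sumMap Γ k) ≤ augSub Γ k s u := by
  classical
  intro m hm
  rw [LinearMap.mem_ker, sumMap_apply] at hm
  set x₀ : G ⧸ Γ := QuotientGroup.mk 1 with hx₀
  have hdecomp : m = ∑ x : G ⧸ Γ, m x • (Pi.single x (1 : k) - Pi.single x₀ 1 : Mod Γ k) := by
    funext y
    rw [Finset.sum_apply]
    simp only [Pi.smul_apply, Pi.sub_apply, smul_eq_mul, mul_sub, Finset.sum_sub_distrib,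
      Pi.single_apply, mul_ite, mul_one, mul_zero]
    rw [Finset.sum_ite_eq Finset.univ y (fun x => m x), if_pos (Finset.mem_univ _)]
    by_cases hy : y = x₀
    · simp only [hy, if_true]
      rw [hm, sub_zero]
    · simp only [hy, if_false, Finset.sum_const_zero, sub_zero]
  rw [hdecomp]
  refine Submodule.sum_mem _ fun x _ => Submodule.smul_mem _ _ ?_
  obtain ⟨g, rfl⟩ := QuotientGroup.mk_surjective x
  have h := single_sub_single_mem_augSub Γ k hgen g x₀
  rwa [hx₀, MulAction.Quotient.smul_mk, smul_eq_mul, mul_one] at h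

/-- `dim J ≥ #X - 1`. -/
theorem card_le_finrank_augSub_add_one [Finite (G ⧸ Γ)] {s u : G}
    (hgen : Subgroup.closure ({s, u} : Set G) = ⊤) :
    Nat.card (G ⧸ Γ) ≤ Module.finrank k (augSub Γ k s u) + 1 := by
  classical
  have := Fintype.ofFinite (G ⧸ Γ)
  have hM : Module.finrank k (Mod Γ k) = Nat.card (G ⧸ Γ) := by
    rw [Module.finrank_fintype_fun_eq_card, Nat.card_eq_fintype_card]
  have hrn := LinearMap.finrank_range_add_finrank_ker (sumMap Γ k)
  have h1 : Module.finrank k (LinearMap.range (sumMap Γ k)) ≤ 1 := by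
    have := Submodule.finrank_le (LinearMap.range (sumMap Γ k))
    rwa [Module.finrank_self] at this
  have h2 := Submodule.finrank_mono (ker_sumMap_le_augSub Γ k hgen)
  omega

/-! ### A general comap bound -/

theorem finrank_comap_add_finrank_range_le {V W : Type*} [AddCommGroup V] [Module k V]
    [AddCommGroup W] [Module k W] [FiniteDimensional k V] [FiniteDimensional k W]
    (τ : V →ₗ[k] W) (Z : Submodule k W) :
    Module.finrank k (Z.comap τ) + Module.finrank k (LinearMap.range τ) ≤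
      Module.finrank k V + Module.finrank k Z := by
  -- restrict τ to the comap
  set C := Z.comap τ with hC
  set τC : C →ₗ[k] W := τ.domRestrict C with hτC
  have h1 := LinearMap.finrank_range_add_finrank_ker τC
  have h2 := LinearMap.finrank_range_add_finrank_ker τ
  have hrange : LinearMap.range τC ≤ Z := by
    rintro _ ⟨⟨v, hv⟩, rfl⟩
    exact hv
  have h3 := Submodule.finrank_mono hrange
  have hker : Module.finrank k (LinearMap.ker τC) = Module.finrank k (LinearMap.ker τ) := by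
    have hle : LinearMap.ker τ ≤ C := fun v hv => by
      rw [hC, Submodule.mem_comap, LinearMap.mem_ker.mp hv]; exact Z.zero_mem
    have : LinearMap.ker τC = (LinearMap.ker τ).comap C.subtype := by
      rw [hτC, LinearMap.ker_domRestrict]
    rw [this]
    exact (Submodule.comapSubtypeEquivOfLe hle).finrank_eq
  omega


/-! ### Characters and the cocycle `tot φ m` -/

lemma tot_apply (φ : Additive Γ →+ k) (m : Mod Γ k) (g : G) (x : G ⧸ Γ) :
    tot Γ k φ m g x = φ (Additive.ofMul (kappa Γ g x)) + (m (g⁻¹ • x) - m x) := rfl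

/-- If `g` acts trivially at `x`, the value of `tot φ m g` at `x` is `φ` of a conjugate of `g`. -/
lemma tot_apply_of_fixed (φ : Additive Γ →+ k) (m : Mod Γ k) {g : G} {x : G ⧸ Γ}
    (h : g • x = x) : tot Γ k φ m g x = φ (Additive.ofMul (kappa Γ g x)) := by
  have h' : g⁻¹ • x = x := by rw [inv_smul_eq_iff, h]
  rw [tot_apply, h', sub_self, add_zero]

/-- Characters with values in a field of characteristic zero kill torsion elements. -/
lemma char_eq_zero_of_pow_eq_one [CharZero k] (φ : Additive Γ →+ k) {γ : Γ} {e : ℕ}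
    (he : e ≠ 0) (h : γ ^ e = 1) : φ (Additive.ofMul γ) = 0 := by
  have h1 : e • φ (Additive.ofMul γ) = 0 := by
    rw [← map_nsmul, ← ofMul_pow, h, ofMul_one, map_zero]
  rw [nsmul_eq_mul] at h1
  rcases mul_eq_zero.mp h1 with h2 | h2
  · exact absurd (Nat.cast_eq_zero.mp h2) he
  · exact h2

/-- If `g` fixes `x` and `g ^ e = 1`, then `κ(g, x)` is torsion. -/
lemma kappa_pow_eq_one {g : G} {x : G ⧸ Γ} (h : g • x = x) {e : ℕ} (he : g ^ e = 1) :
    (kappa Γ g x) ^ e = 1 := by
  apply Subtype.ext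
  rw [Subgroup.coe_pow, coe_kappa_of_fixed Γ h, Subgroup.coe_one]
  have : ∀ n : ℕ, ((Quotient.out x)⁻¹ * g * Quotient.out x) ^ n
      = (Quotient.out x)⁻¹ * g ^ n * Quotient.out x := by
    intro n
    induction n with
    | zero => simp
    | succ n ih => rw [pow_succ, ih, pow_succ]; group
  rw [this, he, mul_one, inv_mul_cancel]

/-- A character is recovered from its Shapiro cocycle at the base point. -/
lemma coc_apply_base (φ : Additive Γ →+ k) (γ : Γ) :
    coc Γ k (γ : G) φ (QuotientGroup.mk 1) = φ (Additive.ofMul γ) := by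
  set x₀ : G ⧸ Γ := QuotientGroup.mk 1 with hx₀
  have hfix : (γ : G) • x₀ = x₀ := by
    rw [hx₀, MulAction.Quotient.smul_mk, smul_eq_mul, mul_one, QuotientGroup.eq]
    simp
  have hr : Quotient.out x₀ ∈ Γ := by
    have h : (QuotientGroup.mk (Quotient.out x₀) : G ⧸ Γ) = QuotientGroup.mk 1 :=
      QuotientGroup.out_eq' x₀
    rw [QuotientGroup.eq] at h
    simpa using Γ.inv_mem h
  have hk : kappa Γ (γ : G) x₀ = (⟨_, hr⟩ : Γ)⁻¹ * γ * ⟨_, hr⟩ := by
    apply Subtype.ext
    rw [coe_kappa_of_fixed Γ hfix]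
    rfl
  rw [coc_apply, hk, ofMul_mul, ofMul_mul, ofMul_inv, map_add, map_add, map_neg]
  abel

/-! ### The main count -/

section Main

variable (s u : G) (n : ℕ)
variable (H : Submodule k (Additive Γ →+ k))

/-- First component of `Ψ`: `(φ, m) ↦ tot φ m g`, as a linear map. -/
noncomputable def psiComp (g : G) : (H × Mod Γ k) →ₗ[k] Mod Γ k :=
  (coc Γ k g ∘ₗ H.subtype) ∘ₗ LinearMap.fst k H (Mod Γ k) +
    (rho Γ k g - LinearMap.id) ∘ₗ LinearMap.snd k H (Mod Γ k)

lemma psiComp_apply (g : G) (p : H × Mod Γ k) :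
    psiComp Γ k H g p = tot Γ k (p.1 : Additive Γ →+ k) p.2 g := rfl

variable {Γ k s u n H}

/-- Kernel of `Ψ`: only `(0, const)`. -/
lemma eq_zero_and_const_of_psi_eq_zero (hgen : Subgroup.closure ({s, u} : Set G) = ⊤)
    {p : H × Mod Γ k} (hs : psiComp Γ k H s p = 0) (hu : psiComp Γ k H u p = 0) :
    p.1 = 0 ∧ ∀ x, p.2 x = p.2 (QuotientGroup.mk 1) := by
  have hc := isCocycle_tot Γ k (p.1 : Additive Γ →+ k) p.2
  have hall : ∀ g, tot Γ k (p.1 : Additive Γ →+ k) p.2 g = 0 := by
    refine hc.eq_zero_of_closure hgen ?_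
    rintro g (rfl | rfl)
    · exact hs
    · exact hu
  have hφ : (p.1 : Additive Γ →+ k) = 0 := by
    refine AddMonoidHom.ext fun a => ?_
    obtain ⟨γ, rfl⟩ : ∃ γ : Γ, Additive.ofMul γ = a := ⟨Additive.toMul a, rfl⟩
    have h1 := congrFun (hall (γ : G)) (QuotientGroup.mk 1)
    have hfix : (γ : G) • (QuotientGroup.mk 1 : G ⧸ Γ) = QuotientGroup.mk 1 := by
      rw [MulAction.Quotient.smul_mk, smul_eq_mul, mul_one, QuotientGroup.eq]
      simp
    rw [tot_apply_of_fixed Γ k _ _ hfix] at h1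
    have h2 := coc_apply_base Γ k (p.1 : Additive Γ →+ k) γ
    rw [coc_apply] at h2
    rw [← h2, h1]
    rfl
  refine ⟨Subtype.ext hφ, fun x => ?_⟩
  obtain ⟨g, rfl⟩ := QuotientGroup.mk_surjective x
  have h1 := congrFun (hall g⁻¹) (QuotientGroup.mk 1)
  rw [tot_apply, hφ, AddMonoidHom.zero_apply, zero_add, inv_inv, Pi.zero_apply,
    MulAction.Quotient.smul_mk, smul_eq_mul, mul_one] at h1
  exact sub_eq_zero.mp h1


/-- Values of `tot φ m` at an element acting trivially and whose conjugates are killed by `φ`. -/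
lemma tot_eq_zero_of_trivial {φ : Additive Γ →+ k} (m : Mod Γ k) {g : G}
    (hg : ∀ x : G ⧸ Γ, g • x = x) (hφ : ∀ x : G ⧸ Γ, φ (Additive.ofMul (kappa Γ g x)) = 0) :
    tot Γ k φ m g = 0 := by
  funext x
  rw [tot_apply_of_fixed Γ k φ m (hg x), hφ x]
  rfl

/-- **Main abstract bound.**  `finrank H + o_s + o_u + o_t ≤ #X + 2`. -/
theorem finrank_add_orbits_le [Finite (G ⧸ Γ)] [CharZero k]
    (hgen : Subgroup.closure ({s, u} : Set G) = ⊤)
    (hs2 : ∀ x : G ⧸ Γ, s ^ 2 • x = x) (hs4 : s ^ 4 = 1)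
    (hu3 : ∀ x : G ⧸ Γ, u ^ 3 • x = x) (hu6 : u ^ 6 = 1)
    (hn : n ≠ 0) (htn : ∀ x : G ⧸ Γ, (s⁻¹ * u) ^ n • x = x)
    (hpar : ∀ φ ∈ H, ∀ γ : Γ, (∃ g : G, (γ : G) = g⁻¹ * (s⁻¹ * u) ^ n * g) →
      φ (Additive.ofMul γ) = 0) :
    Module.Finite k H ∧
    Module.finrank k H
      + Nat.card (orbitRel.Quotient (Subgroup.zpowers s) (G ⧸ Γ))
      + Nat.card (orbitRel.Quotient (Subgroup.zpowers u) (G ⧸ Γ))
      + Nat.card (orbitRel.Quotient (Subgroup.zpowers (s⁻¹ * u)) (G ⧸ Γ))
      ≤ Nat.card (G ⧸ Γ) + 2 := by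
  classical
  have := Fintype.ofFinite (G ⧸ Γ)
  set t : G := s⁻¹ * u with ht
  set A := LinearMap.ker (normMap Γ k s 2) with hA
  set B := LinearMap.ker (normMap Γ k u 3) with hB
  set Z := LinearMap.ker (normMap Γ k t n) with hZ
  -- torsion / parabolic vanishing
  have hφs : ∀ φ : Additive Γ →+ k, ∀ x : G ⧸ Γ,
      φ (Additive.ofMul (kappa Γ (s ^ 2) x)) = 0 := fun φ x =>
    char_eq_zero_of_pow_eq_one Γ k φ (e := 2) (by norm_num)
      (kappa_pow_eq_one Γ (hs2 x) (by rw [← pow_mul]; exact hs4))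
  have hφu : ∀ φ : Additive Γ →+ k, ∀ x : G ⧸ Γ,
      φ (Additive.ofMul (kappa Γ (u ^ 3) x)) = 0 := fun φ x =>
    char_eq_zero_of_pow_eq_one Γ k φ (e := 2) (by norm_num)
      (kappa_pow_eq_one Γ (hu3 x) (by rw [← pow_mul]; exact hu6))
  have hφt : ∀ φ ∈ H, ∀ x : G ⧸ Γ, φ (Additive.ofMul (kappa Γ (t ^ n) x)) = 0 := fun φ hφ x =>
    hpar φ hφ _ ⟨Quotient.out x, coe_kappa_of_fixed Γ (htn x)⟩
  -- the components of Ψ land in A, B
  have hmemA : ∀ p : H × Mod Γ k, psiComp Γ k H s p ∈ A := fun p => by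
    rw [hA, LinearMap.mem_ker, psiComp_apply, (isCocycle_tot Γ k _ _).normMap_eq]
    exact tot_eq_zero_of_trivial _ hs2 (hφs _)
  have hmemB : ∀ p : H × Mod Γ k, psiComp Γ k H u p ∈ B := fun p => by
    rw [hB, LinearMap.mem_ker, psiComp_apply, (isCocycle_tot Γ k _ _).normMap_eq]
    exact tot_eq_zero_of_trivial _ hu3 (hφu _)
  set psi : (H × Mod Γ k) →ₗ[k] (A × B) :=
    ((psiComp Γ k H s).codRestrict A hmemA).prod ((psiComp Γ k H u).codRestrict B hmemB) with hpsi
  set tau : (A × B) →ₗ[k] Mod Γ k :=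
    rho Γ k s⁻¹ ∘ₗ (B.subtype ∘ₗ LinearMap.snd k A B - A.subtype ∘ₗ LinearMap.fst k A B) with htau
  -- range of psi lies in the comap of Z
  have hrange : LinearMap.range psi ≤ Z.comap tau := by
    rintro _ ⟨p, rfl⟩
    rw [Submodule.mem_comap, hZ, LinearMap.mem_ker]
    have hc := isCocycle_tot Γ k (p.1 : Additive Γ →+ k) p.2
    have htau_eq : tau (psi p) = tot Γ k (p.1 : Additive Γ →+ k) p.2 t := by
      show rho Γ k s⁻¹ (psiComp Γ k H u p - psiComp Γ k H s p) = _
      rw [psiComp_apply, psiComp_apply, ht, hc s⁻¹ u, hc.map_inv, map_sub]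
      abel
    rw [htau_eq, hc.normMap_eq]
    exact tot_eq_zero_of_trivial _ htn (hφt _ p.1.2)
  -- kernel of psi is at most one-dimensional
  have hker : LinearMap.ker psi ≤
      LinearMap.range ((LinearMap.inr k H (Mod Γ k)) ∘ₗ
        (LinearMap.pi fun _ : G ⧸ Γ => (LinearMap.id : k →ₗ[k] k))) := by
    intro p hp
    rw [LinearMap.mem_ker, hpsi, LinearMap.prod_apply, Prod.mk_eq_zero] at hp
    have h1 : psiComp Γ k H s p = 0 := congrArg Subtype.val hp.1
    have h2 : psiComp Γ k H u p = 0 := congrArg Subtype.val hp.2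
    obtain ⟨hp1, hp2⟩ := eq_zero_and_const_of_psi_eq_zero hgen h1 h2
    refine ⟨p.2 (QuotientGroup.mk 1), ?_⟩
    refine Prod.ext hp1.symm (funext fun x => (hp2 x).symm)
  have hker1 : Module.finrank k (LinearMap.ker psi) ≤ 1 := by
    refine (Submodule.finrank_mono hker).trans ?_
    refine (LinearMap.finrank_range_le _).trans ?_
    rw [Module.finrank_self]
  -- finite-dimensionality of H
  have hHfin : Module.Finite k H := by
    have hinj : Function.Injective ((psi ∘ₗ LinearMap.inl k H (Mod Γ k))) := by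
      refine (LinearMap.ker_eq_bot (R := k) (M := ↥H)).mp
        ((LinearMap.ker_eq_bot' (R := k) (M := ↥H)).mpr ?_)
      intro φ hφ
      have h0 : ((φ, 0) : H × Mod Γ k) ∈ LinearMap.ker psi := hφ
      obtain ⟨c, hc⟩ := hker h0
      exact (congrArg Prod.fst hc).symm
    exact Module.Finite.of_injective _ hinj
  refine ⟨hHfin, ?_⟩
  -- dimension count
  have hM : Module.finrank k (Mod Γ k) = Nat.card (G ⧸ Γ) := by
    rw [Module.finrank_fintype_fun_eq_card, Nat.card_eq_fintype_card]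
  have hfinHM : FiniteDimensional k (H × Mod Γ k) := inferInstance
  have hfree : Module.Free k ↥H := Module.Free.of_divisionRing (K := k) (V := ↥H)
  have h1 := LinearMap.finrank_range_add_finrank_ker (K := k) (V := ↥H × Mod Γ k) psi
  rw [Module.finrank_prod, hM] at h1
  have h2 := Submodule.finrank_mono hrange
  have h3 := finrank_comap_add_finrank_range_le k tau Z
  rw [Module.finrank_prod] at h3
  -- range of tau contains the image of the augmentation submodule
  have hJ : (augSub Γ k s u).map (rho Γ k s⁻¹) ≤ LinearMap.range tau := by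
    rintro _ ⟨j, hj, rfl⟩
    obtain ⟨j1, ⟨m1, rfl⟩, j2, ⟨m2, rfl⟩, rfl⟩ := Submodule.mem_sup.mp hj
    have ha : -((rho Γ k s - LinearMap.id : Mod Γ k →ₗ[k] Mod Γ k) m1) ∈ A := by
      rw [hA, LinearMap.mem_ker, map_neg, LinearMap.sub_apply, LinearMap.id_apply,
        normMap_comp_sub, neg_eq_zero, sub_eq_zero]
      funext x
      have hx : (s ^ 2)⁻¹ • x = x := by rw [inv_smul_eq_iff, hs2]
      rw [rho_apply, hx]
    have hb : (rho Γ k u - LinearMap.id : Mod Γ k →ₗ[k] Mod Γ k) m2 ∈ B := by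
      rw [hB, LinearMap.mem_ker, LinearMap.sub_apply, LinearMap.id_apply,
        normMap_comp_sub, sub_eq_zero]
      funext x
      have hx : (u ^ 3)⁻¹ • x = x := by rw [inv_smul_eq_iff, hu3]
      rw [rho_apply, hx]
    refine ⟨(⟨_, ha⟩, ⟨_, hb⟩), ?_⟩
    show rho Γ k s⁻¹ ((rho Γ k u - LinearMap.id : Mod Γ k →ₗ[k] Mod Γ k) m2 -
      -((rho Γ k s - LinearMap.id : Mod Γ k →ₗ[k] Mod Γ k) m1)) = _
    congr 1
    abel
  have h4 := Submodule.finrank_mono hJ
  have hinj : Function.Injective (rho Γ k s⁻¹) := by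
    intro a b hab
    have := congrArg (rho Γ k s) hab
    have e : ∀ m : Mod Γ k, rho Γ k s (rho Γ k s⁻¹ m) = m := fun m => by
      have := rho_inv_apply_rho Γ k s⁻¹ m
      rwa [inv_inv] at this
    rwa [e, e] at this
  have h5 : Module.finrank k ((augSub Γ k s u).map (rho Γ k s⁻¹)) =
      Module.finrank k (augSub Γ k s u) :=
    (Submodule.equivMapOfInjective _ hinj _).finrank_eq.symm
  have h6 := card_le_finrank_augSub_add_one Γ k (s := s) (u := u) hgen
  have h7 : Module.finrank k A + _ ≤ _ := finrank_ker_normMap_add_le Γ k s 2 (by norm_num)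
  have h8 : Module.finrank k B + _ ≤ _ := finrank_ker_normMap_add_le Γ k u 3 (by norm_num)
  have h9 : Module.finrank k Z + _ ≤ _ :=
    finrank_ker_normMap_add_le Γ k t n (Nat.cast_ne_zero.mpr hn)
  omega

end Main

end Fermat.Agent.RR.CocycleBound
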