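/-
C-RR (GLOB0), helper8.  Tate's vanishing theorem for the abstract residue: if `A'` is stable
under the commuting operators `f`, `g`, `A ⊓ A'` is finite-dimensional and `V ⧸ (A ⊔ A')` is
finite-dimensional, then `res A f g = 0`.

Proof: replace `A` by a commensurable complement `N` of `A'` ((R1)); for the projection `π` onto
`N` along `A'`, `1 - π` is a projection onto `A'`, so `[π f, g] = -[(1 - π) f, g]` and the latter
has trace `res A' f g = 0` ((R2)).
-/
import Mathlib
import Fermat.Agent.RR.AbsResidue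

set_option autoImplicit false

namespace Fermat.Agent.RR.GlobZero8

open Fermat.Agent.RR Fermat.Agent.RR.Commens Fermat.Agent.RR.AbsResidue

variable {K V : Type*} [Field K] [AddCommGroup V] [Module K V]

/-- A complement `N` of `A'` commensurable with `A`, when `A ⊓ A'` is finite-dimensional and
`A ⊔ A'` has finite codimension. -/
theorem exists_isCompl_commens (A A' : Submodule K V) (hinf : Module.Finite K ↥(A ⊓ A'))
    (hsup : Module.Finite K (V ⧸ (A ⊔ A'))) :
    ∃ N : Submodule K V, IsCompl N A' ∧ A ≺ N ∧ N ≺ A := by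
  obtain ⟨B0, hB0⟩ := Submodule.exists_isCompl (A ⊓ A')
  obtain ⟨W, hW⟩ := Submodule.exists_isCompl (A ⊔ A')
  have : Module.Finite K W :=
    Module.Finite.equiv (Submodule.quotientEquivOfIsCompl (A ⊔ A') W hW)
  set A1 : Submodule K V := A ⊓ B0 with hA1
  have hA1A : A1 ≤ A := inf_le_left
  have hdisj : A1 ⊓ (A ⊓ A') = ⊥ := by
    apply le_bot_iff.mp
    calc A1 ⊓ (A ⊓ A') ≤ B0 ⊓ (A ⊓ A') := inf_le_inf_right _ inf_le_right
      _ = (A ⊓ A') ⊓ B0 := inf_comm _ _
      _ = ⊥ := hB0.inf_eq_bot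
  have hsupA : A ≤ A1 ⊔ (A ⊓ A') := by
    intro a ha
    have htop : a ∈ (A ⊓ A') ⊔ B0 := by rw [hB0.sup_eq_top]; trivial
    obtain ⟨c, hc, b, hb, rfl⟩ := Submodule.mem_sup.mp htop
    refine Submodule.mem_sup.mpr ⟨b, ⟨?_, hb⟩, c, hc, add_comm _ _⟩
    have : b = (c + b) - c := by abel
    rw [this]
    exact A.sub_mem ha hc.1
  refine ⟨A1 ⊔ W, ⟨?_, ?_⟩, ?_, ?_⟩
  · -- disjoint
    rw [disjoint_iff]
    apply le_bot_iff.mp
    intro x hx
    obtain ⟨hxN, hxA'⟩ := hx
    obtain ⟨a1, ha1, w, hw, rfl⟩ := Submodule.mem_sup.mp hxN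
    have hwS : w ∈ A ⊔ A' := by
      have : w = (a1 + w) - a1 := by abel
      rw [this]
      exact Submodule.sub_mem _ (Submodule.mem_sup_right hxA') (Submodule.mem_sup_left (hA1A ha1))
    have hw0 : w = 0 := by
      have : w ∈ (A ⊔ A') ⊓ W := ⟨hwS, hw⟩
      rw [hW.inf_eq_bot] at this
      exact (Submodule.mem_bot K).mp this
    subst hw0
    rw [add_zero] at hxA' ⊢
    have : a1 ∈ A1 ⊓ (A ⊓ A') := ⟨ha1, hA1A ha1, hxA'⟩
    rw [hdisj] at this
    exact this
  · -- codisjoint
    rw [codisjoint_iff]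
    apply top_le_iff.mp
    rw [← hW.sup_eq_top]
    apply sup_le
    · apply sup_le
      · calc A ≤ A1 ⊔ (A ⊓ A') := hsupA
          _ ≤ (A1 ⊔ W) ⊔ A' := sup_le_sup le_sup_left inf_le_right
      · exact le_sup_right
    · exact le_sup_of_le_left le_sup_right
  · -- A ≺ N
    refine ⟨A ⊓ A', hinf, ?_⟩
    calc A ≤ A1 ⊔ (A ⊓ A') := hsupA
      _ ≤ (A1 ⊔ W) ⊔ (A ⊓ A') := sup_le_sup_right le_sup_left _
  · -- N ≺ A
    exact ⟨W, inferInstance, sup_le_sup_right hA1A W⟩

/-- **(GLOB0)** Tate's vanishing theorem. -/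
theorem res_eq_zero_of_stable_compl {A A' : Submodule K V} {f g : Module.End K V}
    (hfg : f * g = g * f) (hf : InE A f) (hg : InE A g)
    (hfA' : A'.map f ≤ A') (hgA' : A'.map g ≤ A')
    (hinf : Module.Finite K ↥(A ⊓ A')) (hsup : Module.Finite K (V ⧸ (A ⊔ A'))) :
    res A f g = 0 := by
  obtain ⟨N, hN, hAN, hNA⟩ := exists_isCompl_commens A A' hinf hsup
  rw [← res_congr_of_prec hfg hf hg hAN hNA]
  have hfN : InE N f := inE_of_prec hf hAN hNA
  have hgN : InE N g := inE_of_prec hg hAN hNA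
  -- the projection onto `N` along `A'`
  set π : Module.End K V := N.subtype ∘ₗ Submodule.projectionOnto N A' hN with hπdef
  have hπ : IsProj N π := by
    refine ⟨fun v => (Submodule.projectionOnto N A' hN v).2, fun a ha => ?_⟩
    show ((Submodule.projectionOnto N A' hN a : N) : V) = a
    rw [Submodule.projectionOnto_apply_of_mem_left hN ha]
  have hπ' : IsProj A' (1 - π) := by
    refine ⟨fun v => ?_, fun a ha => ?_⟩
    · show v - ((Submodule.projectionOnto N A' hN v : N) : V) ∈ A'
      have h1 : Submodule.projectionOnto N A' hN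
          (v - ((Submodule.projectionOnto N A' hN v : N) : V)) = 0 := by
        rw [map_sub, Submodule.projectionOnto_apply_of_mem_left hN (Submodule.coe_mem _)]
        ext
        simp
      exact (Submodule.projectionOnto_apply_eq_zero_iff hN).mp h1
    · show a - ((Submodule.projectionOnto N A' hN a : N) : V) = a
      rw [(Submodule.projectionOnto_apply_eq_zero_iff hN).mpr ha]
      simp
  rw [res_eq_of_isProj hfg hfN hgN hπ]
  have hcomm : π * f * g - g * (π * f) = -((1 - π) * f * g - g * ((1 - π) * f)) := by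
    have : f * g - g * f = 0 := by rw [hfg, sub_self]
    calc π * f * g - g * (π * f)
        = (f * g - g * f) - ((1 - π) * f * g - g * ((1 - π) * f)) := by
          simp only [sub_mul, one_mul, mul_sub, mul_assoc]
          abel
      _ = -((1 - π) * f * g - g * ((1 - π) * f)) := by rw [this, zero_sub]
  rw [hcomm, fpTrace_neg]
  have hfA'E : InE A' f := prec_of_le hfA'
  have hgA'E : InE A' g := prec_of_le hgA'
  rw [← res_eq_of_isProj hfg hfA'E hgA'E hπ', res_eq_zero_of_stable hfg hfA' hgA', neg_zero]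

end Fermat.Agent.RR.GlobZero8
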