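/-
Program C-RR (DUAL-a, helper17): Serre's lemma in exactly the shape `Duality.SerreLemma K F`
consumed by `Final.RRData`.
-/
import Fermat.Agent.RR.SerreDim
import Fermat.Agent.RR.Duality

set_option autoImplicit false

open AlgebraicCurve Module

namespace Fermat.Agent.RR.SerreLemmaPlug

variable {K F : Type*} [Field K] [Field F] [Algebra K F]

/-- **Serre's lemma**, `RRData` shape: from `LHyp`, Riemann's inequality (C4) and (C5). -/
theorem serreLemma (H : LSpace.LHyp K F)
    (hR : ∃ γ : ℤ, ∀ D : Divisor K F,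
      Divisor.degree D + 1 - γ ≤ (finrank K (riemannRochSpace D) : ℤ))
    (hfin : ∀ D : Divisor K F, Module.Finite K (H1 D))
    (heuler : ∀ D : Divisor K F, (finrank K (riemannRochSpace D) : ℤ) - finrank K (H1 D)
        = Divisor.degree D + 1 - genusFF K F) :
    Duality.SerreLemma K F :=
  fun _ _ _ hlam hmu hlam0 =>
    SerreDim.exists_smul_eq_of_vanish H hR (fun D => ⟨hfin D, heuler D⟩) hlam hmu hlam0

end Fermat.Agent.RR.SerreLemmaPlug
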