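import Fermat.Agent.RR.Final
import Fermat.Agent.RR.Repart
import Fermat.Agent.RR.LHypGen
import Fermat.Agent.RR.H1Finite
import Fermat.Agent.RR.SerreLemmaPlug
import Fermat.Agent.X0.FFCanon

/-!
# C-RR (INST): the hypothesis bundle `Final.RRData K F` for function fields with a generator

`K` algebraically closed of characteristic zero, `F / K` with `IsGen K x`, a finite branch locus
`S` for `x`, and a family of residues `R : Duality.ResidueData K F` (local residues with the
residue theorem).  Everything else in `RRData` comes from the landed C-RR chain.
-/

set_option autoImplicit false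
set_option linter.unusedSectionVars false

open AlgebraicCurve IntermediateField KaehlerDifferential

namespace Fermat.Agent.RR.Instantiate

open Fermat.Agent.X0.FF Fermat.Agent.RR.LSpace Fermat.Agent.RR.Duality

variable {K F : Type*} [Field K] [Field F] [Algebra K F] {x : F}

/-- The hypotheses on orders of differentials. -/
theorem diffHyp (H : GenusHyp K x) (S : Finset K)
    (hS : ∀ c ∉ S, ∀ v : Place K F, 0 < v.ord (x - algebraMap K F c) →
      v.ord (x - algebraMap K F c) = 1) : DiffHyp K F where
  ordDifferential_smul := H.ordDifferential_smul'
  finite_support := fun _ hω => Fermat.Agent.X0.FFCanon.finite_support_ordDifferential H S hS hω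

/-- Every element of `F` has finitely many poles. -/
theorem finite_poles (H : GenusHyp K x) (f : F) : {v : Place K F | v.ord f < 0}.Finite := by
  rcases eq_or_ne f 0 with rfl | hf
  · simp
  · exact (H.finite_support_ord f hf).subset fun v hv => ne_of_lt hv

/-- Repartitions have finitely many poles. -/
theorem repFinite (H : GenusHyp K x) : RepFinite K F := fun α =>
  (Repart.mem_repartitions_iff (finite_poles H) _).mp α.2

section Gen

variable [IsAlgClosed K] [CharZero K]

/-- The Riemann–Roch data of a function field with a generator and finite branch locus, given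
the residues. -/
noncomputable def rrData (hx : IsGen K x) (S : Finset K)
    (hS : ∀ c ∉ S, ∀ v : Place K F, 0 < v.ord (x - algebraMap K F c) →
      v.ord (x - algebraMap K F c) = 1) (R : ResidueData K F) : Final.RRData K F :=
  have HL : LHyp K F := LHypGen.lHyp_of_isGen hx
  have hR := LHypGen.riemann_inequality_of_isGen hx
  have hfin := H1Finite.finite_H1 (Fermat.Agent.X0.FFGenus.ff1Data hx) HL hR
  have heuler := H1Finite.finrank_L_sub_finrank_H1 (Fermat.Agent.X0.FFGenus.ff1Data hx) HL hR
  { HL := HL
    HD := diffHyp (Fermat.Agent.X0.FFGenus.genusHyp hx) S hS
    R := R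
    hrep := repFinite (Fermat.Agent.X0.FFGenus.genusHyp hx)
    hS := SerreLemmaPlug.serreLemma HL hR hfin heuler
    hfin := hfin
    heuler := heuler }

end Gen

end Fermat.Agent.RR.Instantiate
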