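/-
C-RR (UP-2), concrete form (helper2): the space of parabolic additive characters of `Γ₀(N)`
is finite-dimensional of dimension at most `2 * genusFormula N`.

Instantiation of `Fermat.Agent.RR.CocycleBound.finrank_add_orbits_le` with
`G = SL(2, ℤ)`, `Γ = Γ₀(N)`, `s = S`, `u = S * T`, `t = s⁻¹ * u = T`, `n = N`, and the orbit
counts of C-G1 (`G1Elliptic`, `G1Cusps`, `G1Index`).
-/
import Mathlib
import Fermat.Prelude.Def_ModularCurve_PeriodMap
import Fermat.Prelude.Def_ModularCurve_GenusNumerics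
import Fermat.Agent.RR.CocycleBound
import Fermat.Agent.X0.G1Elliptic
import Fermat.Agent.X0.G1Cusps
import Fermat.Agent.X0.G1Index

set_option autoImplicit false

namespace Fermat.Agent.RR.ParBound

open Matrix MatrixGroups ModularGroup CongruenceSubgroup MulAction
open ModularCurve ModularCurve.Period
open Fermat.Agent.X0.G1Elliptic Fermat.Agent.X0.G1Cusps Fermat.Agent.X0.G1Index

theorem S_pow_four : (S : SL(2, ℤ)) ^ 4 = 1 := by decide

theorem ST_pow_six : (S * T : SL(2, ℤ)) ^ 6 = 1 := by decide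

theorem closure_S_ST : Subgroup.closure ({S, S * T} : Set SL(2, ℤ)) = ⊤ := by
  rw [eq_top_iff, ← _root_.SpecialLinearGroup.SL2Z_generators, Subgroup.closure_le]
  rintro g (rfl | rfl)
  · exact Subgroup.subset_closure (Set.mem_insert _ _)
  · have h1 : (S : SL(2, ℤ)) ∈ Subgroup.closure ({S, S * T} : Set SL(2, ℤ)) :=
      Subgroup.subset_closure (Set.mem_insert _ _)
    have h2 : (S * T : SL(2, ℤ)) ∈ Subgroup.closure ({S, S * T} : Set SL(2, ℤ)) :=
      Subgroup.subset_closure (Set.mem_insert_of_mem _ rfl)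
    have h3 := Subgroup.mul_mem _ (Subgroup.inv_mem _ h1) h2
    rwa [inv_mul_cancel_left] at h3

/-- Conjugates of `T ^ n` have trace `2`. -/
theorem trace_conj_T_pow (g : SL(2, ℤ)) (n : ℕ) :
    ((g⁻¹ * T ^ n * g : SL(2, ℤ)) : Matrix (Fin 2) (Fin 2) ℤ).trace = 2 := by
  have h : ((T ^ n : SL(2, ℤ)) : Matrix (Fin 2) (Fin 2) ℤ) = !![1, (n : ℤ); 0, 1] := by
    have := coe_T_zpow (n : ℤ)
    rwa [zpow_natCast] at this
  rw [Matrix.SpecialLinearGroup.coe_mul, Matrix.SpecialLinearGroup.coe_mul, Matrix.trace_mul_comm,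
    ← Matrix.mul_assoc, ← Matrix.SpecialLinearGroup.coe_mul, mul_inv_cancel,
    Matrix.SpecialLinearGroup.coe_one, Matrix.one_mul, h, Matrix.trace_fin_two_of]
  norm_num

/-- **(UP-2)**: `parabolicHoms ℂ Γ₀(N) ℂ` is finite-dimensional, of dimension at most
`2 * genusFormula N`. -/
theorem finrank_parabolicHoms_le (N : ℕ) [NeZero N] :
    Module.Finite ℂ (parabolicHoms ℂ (Gamma0 N) ℂ) ∧
      ((Module.finrank ℂ (parabolicHoms ℂ (Gamma0 N) ℂ) : ℚ) ≤ 2 * genusFormula N) := by
  have key := CocycleBound.finrank_add_orbits_le (G := SL(2, ℤ)) (Γ := Gamma0 N) (k := ℂ)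
    (s := S) (u := S * T) (n := N) (H := parabolicHoms ℂ (Gamma0 N) ℂ)
    closure_S_ST g1_S_sq_smul S_pow_four g1_ST_cube_smul ST_pow_six (NeZero.ne N)
    (by
      intro x
      rw [inv_mul_cancel_left]
      exact g1_T_pow_smul x)
    (by
      rintro φ hφ γ ⟨g, hg⟩
      rw [inv_mul_cancel_left] at hg
      refine (mem_parabolicHoms_iff.mp hφ) γ ?_
      rw [hg, trace_conj_T_pow]
      norm_num)
  refine ⟨key.1, ?_⟩
  have h := key.2
  rw [inv_mul_cancel_left, g1_orbits_T, g1_card] at h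
  have hS := g1_card_orbits_S N
  have hST := g1_card_orbits_ST N
  rw [g1_card] at hS hST
  -- arithmetic
  set f := Module.finrank ℂ (parabolicHoms ℂ (Gamma0 N) ℂ) with hf
  set oS := Nat.card (orbitRel.Quotient (Subgroup.zpowers (S : SL(2, ℤ))) (SL(2, ℤ) ⧸ Gamma0 N))
  set oU := Nat.card (orbitRel.Quotient (Subgroup.zpowers (S * T : SL(2, ℤ)))
    (SL(2, ℤ) ⧸ Gamma0 N))
  have h' : (f : ℚ) + oS + oU + cuspCount N ≤ dedekindPsi N + 2 := by exact_mod_cast h
  have hS' : (2 : ℚ) * oS = dedekindPsi N + nuTwo N := by exact_mod_cast hS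
  have hST' : (3 : ℚ) * oU = dedekindPsi N + 2 * nuThree N := by exact_mod_cast hST
  unfold genusFormula
  linarith

end Fermat.Agent.RR.ParBound
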